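import Fermat.Agent.S17.Local.GeneralPosition

/-!
# S17 / Local layer: rational pencils, base-point free over an extension field, in `Fin r` shape

Complements `GeneralPosition.lean` (seam A.1 of the H0 text):

* `exists_rational_hyperplane` : a nonzero vector `b ∈ L^(n+1)` (`L/K` a field extension) is
  "avoided" by a `K`-rational hyperplane: there is `c ∈ K^(n+1)`, `c ≠ 0`, with
  `∑ y_i b_i = 0 → ∑ y_i c_i = 0` for all `y ∈ K^(n+1)`.
* `exists_pencils_ext` : `M` pencils `(y₀, y₁)` with coefficients in `K` (infinite), each with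
  `y₀ ≠ 0` and `y₁` non-vanishing at all the points of a finite set `B y₀ ⊆ L^(n+1) ∖ 0`
  (on the curve: the `L`-points `z_T`, `T ∈ Z(y₀)`), any `#PlIdx n` of whose Plücker vectors are
  linearly independent.
* `sum_sum_eq_sum_plIdx`, `binet_cauchy_two` : the pairing of two bivectors in Plücker coordinates:
  `∑_{i<j} (a_i b_j - a_j b_i)(u_i w_j - u_j w_i) = (a·u)(b·w) - (a·w)(b·u)`.
* `wedgeFin`, `wedgeFin_eq_zero_iff`, `sum_plLam_mul_wedgeFin` : bivectors `u ∧ w` in `Fin r`
  coordinates and their pairing with the Plücker functionals.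
* `plLam`, `det_plLam_ne_zero` : the Plücker vectors as a family `Fin M → Fin r → Ω`
  (`r = #PlIdx n`, entries mapped into an extension field `Ω`), with
  `(Matrix.of fun i j => plLam Ω y (e i) j).det ≠ 0` for every embedding `e : Fin r ↪ Fin M`,
  which is literally the hypothesis `hbasis` of the metric pigeonhole (PH).
* `card_plIdx` : `#PlIdx n = (n+1).choose 2`.
-/

namespace Fermat.Agent.S17.Local.PencilsExt

open MvPolynomial Fermat.Agent.S17.Local.GeneralPosition

section Hyperplane

variable {K L : Type*} [Field K] [Field L] [Algebra K L] {n : ℕ}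

/-- A nonzero `L`-vector is avoided by a `K`-rational hyperplane. -/
theorem exists_rational_hyperplane (b : Fin (n + 1) → L) (hb : b ≠ 0) :
    ∃ c : Fin (n + 1) → K, c ≠ 0 ∧ ∀ y1 : Fin (n + 1) → K,
      ∑ i, algebraMap K L (y1 i) * b i = 0 → ∑ i, y1 i * c i = 0 := by
  classical
  let φ : (Fin (n + 1) → K) →ₗ[K] L :=
    ∑ i, (LinearMap.proj i : (Fin (n + 1) → K) →ₗ[K] K).smulRight (b i)
  have hφ : ∀ y1 : Fin (n + 1) → K, φ y1 = ∑ i, algebraMap K L (y1 i) * b i := by
    intro y1
    simp only [φ, LinearMap.sum_apply, LinearMap.smulRight_apply, LinearMap.proj_apply,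
      Algebra.smul_def]
  have hlt : LinearMap.ker φ < ⊤ := by
    rw [lt_top_iff_ne_top]
    intro htop
    rw [LinearMap.ker_eq_top] at htop
    obtain ⟨i0, hi0⟩ := Function.ne_iff.mp hb
    apply hi0
    have := hφ (Pi.single i0 1)
    rw [htop, LinearMap.zero_apply] at this
    rw [Finset.sum_eq_single i0] at this
    · simpa using this.symm
    · intro j _ hj
      simp [hj]
    · intro h
      exact absurd (Finset.mem_univ _) h
  obtain ⟨f, hf0, hfker⟩ := Submodule.exists_le_ker_of_lt_top _ hlt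
  have hf : ∀ y1 : Fin (n + 1) → K,
      f y1 = ∑ i, y1 i * f (fun j => if i = j then 1 else 0) := by
    intro y1
    rw [LinearMap.pi_apply_eq_sum_univ f y1]
    simp only [smul_eq_mul]
  refine ⟨fun i => f (fun j => if i = j then 1 else 0), ?_, ?_⟩
  · intro hc
    apply hf0
    apply LinearMap.ext
    intro y1
    rw [hf y1, LinearMap.zero_apply]
    refine Finset.sum_eq_zero fun i _ => ?_
    have := congrFun hc i
    simp only [Pi.zero_apply] at this
    rw [this, mul_zero]
  · intro y1 h0
    rw [← hf y1]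
    have hmem : y1 ∈ LinearMap.ker φ := by
      rw [LinearMap.mem_ker, hφ]
      exact h0
    exact LinearMap.mem_ker.mp (hfker hmem)

end Hyperplane

section PencilsExt

variable (K : Type*) [Field K] [Infinite K] {L : Type*} [Field L] [Algebra K L] (n : ℕ)

/-- **Rational pencils, base-point free at `L`-points, in general linear position** (seam A.1):
`B y₀` is a finite set of nonzero vectors of `L^(n+1)` attached to each `y₀ ∈ K^(n+1) ∖ 0`
(on the curve: the points of the hyperplane section `Z(y₀)`).  There are `M` pairs `(y₀, y₁)` over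
`K` with `y₀ ≠ 0`, `y₁` vanishing at no point of `B y₀`, and any `#PlIdx n` of the Plücker vectors
`y₀ ∧ y₁` linearly independent. -/
theorem exists_pencils_ext (B : (Fin (n + 1) → K) → Finset (Fin (n + 1) → L))
    (hB : ∀ y0 : Fin (n + 1) → K, y0 ≠ 0 → ∀ b ∈ B y0, b ≠ 0) (M : ℕ) :
    ∃ y : Fin M → (Fin 2 × Fin (n + 1) → K),
      (∀ m, (fun i => y m (0, i)) ≠ 0 ∧
        ∀ b ∈ B (fun i => y m (0, i)), ∑ i, algebraMap K L (y m (1, i)) * b i ≠ 0) ∧
      ∀ s : PlIdx n → Fin M, Function.Injective s →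
        (Matrix.of fun (a b : PlIdx n) =>
          y (s a) (0, b.1.1) * y (s a) (1, b.1.2) - y (s a) (0, b.1.2) * y (s a) (1, b.1.1)).det
          ≠ 0 := by
  classical
  have hex : ∀ b : Fin (n + 1) → L, ∃ c : Fin (n + 1) → K, b ≠ 0 →
      (c ≠ 0 ∧ ∀ y1 : Fin (n + 1) → K,
        ∑ i, algebraMap K L (y1 i) * b i = 0 → ∑ i, y1 i * c i = 0) := by
    intro b
    by_cases hb : b = 0
    · exact ⟨0, fun h => absurd hb h⟩
    · obtain ⟨c, hc⟩ := exists_rational_hyperplane (K := K) b hb
      exact ⟨c, fun _ => hc⟩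
  choose c hc using hex
  let B' : (Fin (n + 1) → K) → Finset (Fin (n + 1) → K) := fun y0 => (B y0).image c
  have hB' : ∀ y0 : Fin (n + 1) → K, y0 ≠ 0 → ∀ b' ∈ B' y0, b' ≠ 0 := by
    intro y0 hy0 b' hb'
    obtain ⟨b, hb, rfl⟩ := Finset.mem_image.mp hb'
    exact (hc b (hB y0 hy0 b hb)).1
  obtain ⟨y, hy, hdet⟩ := exists_pencils K n
    (fun y => (fun i => y (0, i)) ≠ 0 ∧ ∀ b ∈ B' (fun i => y (0, i)), ∑ i, y (1, i) * b i ≠ 0)
    (hGood_twoStep K n B' hB') M
  refine ⟨y, fun m => ⟨(hy m).1, fun b hb h0 => ?_⟩, hdet⟩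
  have hbne : b ≠ 0 := hB _ (hy m).1 b hb
  exact (hy m).2 (c b) (Finset.mem_image_of_mem c hb) ((hc b hbne).2 _ h0)

end PencilsExt

section Binet

variable {R : Type*} [CommRing R] {n : ℕ}

/-- A double sum with vanishing diagonal is the sum over `i < j` of the symmetrised terms. -/
theorem sum_sum_eq_sum_plIdx (T : Fin (n + 1) → Fin (n + 1) → R) (hdiag : ∀ i, T i i = 0) :
    ∑ i, ∑ j, T i j = ∑ p : PlIdx n, (T p.1.1 p.1.2 + T p.1.2 p.1.1) := by
  classical
  rw [← Finset.sum_product' (f := T), Finset.univ_product_univ]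
  rw [← Finset.sum_filter_add_sum_filter_not Finset.univ
    (fun x : Fin (n + 1) × Fin (n + 1) => x.1 < x.2)]
  rw [Finset.sum_add_distrib]
  have h1 : ∑ x ∈ Finset.univ.filter (fun x : Fin (n + 1) × Fin (n + 1) => x.1 < x.2), T x.1 x.2
      = ∑ p : PlIdx n, T p.1.1 p.1.2 :=
    Finset.sum_subtype _ (fun x => by simp) (fun x : Fin (n + 1) × Fin (n + 1) => T x.1 x.2)
  have h2 : ∑ x ∈ Finset.univ.filter (fun x : Fin (n + 1) × Fin (n + 1) => ¬ x.1 < x.2), T x.1 x.2
      = ∑ p : PlIdx n, T p.1.2 p.1.1 := by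
    rw [← Finset.sum_filter_add_sum_filter_not
      (Finset.univ.filter (fun x : Fin (n + 1) × Fin (n + 1) => ¬ x.1 < x.2))
      (fun x : Fin (n + 1) × Fin (n + 1) => x.2 < x.1)]
    have hz : ∑ x ∈ (Finset.univ.filter
        (fun x : Fin (n + 1) × Fin (n + 1) => ¬ x.1 < x.2)).filter (fun x => ¬ x.2 < x.1),
        T x.1 x.2 = 0 := by
      refine Finset.sum_eq_zero fun x hx => ?_
      simp only [Finset.mem_filter, Finset.mem_univ, true_and] at hx
      have : x.1 = x.2 := le_antisymm (not_lt.mp hx.2) (not_lt.mp hx.1)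
      rw [this]
      exact hdiag _
    rw [hz, add_zero]
    have hswap : ∑ x ∈ (Finset.univ.filter
        (fun x : Fin (n + 1) × Fin (n + 1) => ¬ x.1 < x.2)).filter (fun x => x.2 < x.1),
        T x.1 x.2
        = ∑ x ∈ Finset.univ.filter (fun x : Fin (n + 1) × Fin (n + 1) => x.1 < x.2),
            T x.2 x.1 := by
      refine Finset.sum_equiv (Equiv.prodComm _ _) ?_ ?_
      · intro x
        simp only [Finset.mem_filter, Finset.mem_univ, true_and, Equiv.prodComm_apply,
          Prod.fst_swap, Prod.snd_swap]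
        constructor
        · exact fun h => h.2
        · exact fun h => ⟨not_lt.mpr (le_of_lt h), h⟩
      · intro x _
        simp
    rw [hswap]
    exact Finset.sum_subtype _ (fun x => by simp) (fun x : Fin (n + 1) × Fin (n + 1) => T x.2 x.1)
  rw [h1, h2]

/-- **Binet–Cauchy for two pairs of vectors**: the pairing of the bivectors `a ∧ b` and `u ∧ w`
in Plücker coordinates. -/
theorem binet_cauchy_two (a b u w : Fin (n + 1) → R) :
    ∑ p : PlIdx n, (a p.1.1 * b p.1.2 - a p.1.2 * b p.1.1) * (u p.1.1 * w p.1.2 - u p.1.2 * w p.1.1)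
      = (∑ i, a i * u i) * (∑ i, b i * w i) - (∑ i, a i * w i) * (∑ i, b i * u i) := by
  classical
  have h := sum_sum_eq_sum_plIdx (n := n)
    (fun i j => a i * b j * (u i * w j - u j * w i)) (fun i => by ring)
  have hR : (∑ i, a i * u i) * (∑ i, b i * w i) - (∑ i, a i * w i) * (∑ i, b i * u i)
      = ∑ i, ∑ j, a i * b j * (u i * w j - u j * w i) := by
    rw [Finset.sum_mul_sum, Finset.sum_mul_sum, ← Finset.sum_sub_distrib]
    refine Finset.sum_congr rfl fun i _ => ?_
    rw [← Finset.sum_sub_distrib]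
    refine Finset.sum_congr rfl fun j _ => ?_
    ring
  rw [hR, h]
  refine Finset.sum_congr rfl fun p _ => ?_
  ring

end Binet

section FinShape

variable {K : Type*} [Field K] {n M : ℕ}

/-- number of Plücker coordinates -/
theorem card_plIdx (n : ℕ) : Fintype.card (PlIdx n) = (n + 1).choose 2 := by
  classical
  have h1 : Fintype.card (PlIdx n)
      = (Finset.univ.filter (fun x : Fin (n + 1) × Fin (n + 1) => x.1 < x.2)).card :=
    Fintype.card_subtype _
  rw [h1]
  -- count via `Nat.choose 2 = ∑_{j < n+1} j`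
  have h3 : (Finset.univ.filter (fun x : Fin (n + 1) × Fin (n + 1) => x.1 < x.2)).card
      = ∑ j : Fin (n + 1), (j : ℕ) := by
    rw [Finset.card_eq_sum_ones, Finset.sum_filter, ← Finset.univ_product_univ,
      Finset.sum_product_right]
    refine Finset.sum_congr rfl fun j _ => ?_
    rw [← Finset.sum_filter, ← Finset.card_eq_sum_ones]
    have : (Finset.univ.filter (fun i : Fin (n + 1) => (i, j).1 < (i, j).2)) = Finset.Iio j := by
      ext i
      simp
    rw [this, Fin.card_Iio]
  rw [h3, Fin.sum_univ_eq_sum_range (fun j => j) (n + 1), Finset.sum_range_id, Nat.choose_two_right]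

variable (Ω : Type*) [Field Ω] [Algebra K Ω]

/-- The Plücker vector of the `m`-th pencil as a vector of `Ω^r`, `r = #PlIdx n`, coordinates
indexed by `Fin r` through `Fintype.equivFin`. -/
noncomputable def plLam (y : Fin M → (Fin 2 × Fin (n + 1) → K)) (m : Fin M)
    (j : Fin (Fintype.card (PlIdx n))) : Ω :=
  algebraMap K Ω
    (y m (0, ((Fintype.equivFin (PlIdx n)).symm j).1.1) *
        y m (1, ((Fintype.equivFin (PlIdx n)).symm j).1.2) -
      y m (0, ((Fintype.equivFin (PlIdx n)).symm j).1.2) *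
        y m (1, ((Fintype.equivFin (PlIdx n)).symm j).1.1))

/-- The general-position conclusion of `exists_pencils` / `exists_pencils_ext` in the literal shape
of the hypothesis `hbasis` of the metric pigeonhole: every `r × r` submatrix of the family
`plLam Ω y : Fin M → Fin r → Ω` has nonzero determinant. -/
theorem det_plLam_ne_zero (y : Fin M → (Fin 2 × Fin (n + 1) → K))
    (hgp : ∀ s : PlIdx n → Fin M, Function.Injective s →
        (Matrix.of fun (a b : PlIdx n) =>
          y (s a) (0, b.1.1) * y (s a) (1, b.1.2) - y (s a) (0, b.1.2) * y (s a) (1, b.1.1)).det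
          ≠ 0)
    (e : Fin (Fintype.card (PlIdx n)) ↪ Fin M) :
    (Matrix.of fun i j => plLam Ω y (e i) j).det ≠ 0 := by
  classical
  set eqv := Fintype.equivFin (PlIdx n) with heqv
  have hinj : Function.Injective (fun a : PlIdx n => e (eqv a)) :=
    e.injective.comp eqv.injective
  have h0 := hgp (fun a => e (eqv a)) hinj
  set A : Matrix (PlIdx n) (PlIdx n) K := Matrix.of fun (a b : PlIdx n) =>
      y (e (eqv a)) (0, b.1.1) * y (e (eqv a)) (1, b.1.2)
        - y (e (eqv a)) (0, b.1.2) * y (e (eqv a)) (1, b.1.1) with hA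
  have hmat : (Matrix.of fun i j => plLam Ω y (e i) j)
      = Matrix.reindex eqv eqv (A.map (algebraMap K Ω)) := by
    ext i j
    simp [plLam, hA, Matrix.reindex_apply, Matrix.submatrix_apply, Matrix.map_apply, ← heqv]
  rw [hmat, Matrix.det_reindex_self, ← RingHom.mapMatrix_apply, ← RingHom.map_det]
  exact fun h => h0 ((injective_iff_map_eq_zero (algebraMap K Ω)).mp
    (algebraMap K Ω).injective _ h)

/-- The bivector `u ∧ w` of two vectors of `Ω^(n+1)` in `Fin r` coordinates
(`u_i w_j - u_j w_i`, `i < j`). -/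
noncomputable def wedgeFin (u w : Fin (n + 1) → Ω) (j : Fin (Fintype.card (PlIdx n))) : Ω :=
  u ((Fintype.equivFin (PlIdx n)).symm j).1.1 * w ((Fintype.equivFin (PlIdx n)).symm j).1.2
    - u ((Fintype.equivFin (PlIdx n)).symm j).1.2 * w ((Fintype.equivFin (PlIdx n)).symm j).1.1

theorem wedgeFin_equivFin (u w : Fin (n + 1) → Ω) (p : PlIdx n) :
    wedgeFin Ω u w (Fintype.equivFin (PlIdx n) p) = u p.1.1 * w p.1.2 - u p.1.2 * w p.1.1 := by
  simp [wedgeFin]

/-- `u ∧ w = 0` iff all `2 × 2` minors of `(u, w)` vanish. -/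
theorem wedgeFin_eq_zero_iff (u w : Fin (n + 1) → Ω) :
    wedgeFin Ω u w = 0 ↔ ∀ i j, u i * w j - u j * w i = 0 := by
  constructor
  · intro h i j
    rcases lt_trichotomy i j with hij | hij | hij
    · have := congrFun h (Fintype.equivFin (PlIdx n) ⟨(i, j), hij⟩)
      rw [wedgeFin_equivFin] at this
      simpa using this
    · rw [hij]; ring
    · have := congrFun h (Fintype.equivFin (PlIdx n) ⟨(j, i), hij⟩)
      rw [wedgeFin_equivFin] at this
      simp only [Pi.zero_apply] at this
      linear_combination -this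
  · intro h
    funext j
    simp only [wedgeFin, Pi.zero_apply]
    exact h _ _

/-- pairing with the `m`-th Plücker functional, in `Fin r` coordinates: on the bivector `u ∧ w`
it is the `2 × 2` determinant `(y₀·u)(y₁·w) - (y₀·w)(y₁·u)`. -/
theorem sum_plLam_mul_wedgeFin (y : Fin M → (Fin 2 × Fin (n + 1) → K)) (m : Fin M)
    (u w : Fin (n + 1) → Ω) :
    ∑ j, plLam Ω y m j * wedgeFin Ω u w j
      = (∑ i, algebraMap K Ω (y m (0, i)) * u i) * (∑ i, algebraMap K Ω (y m (1, i)) * w i)
        - (∑ i, algebraMap K Ω (y m (0, i)) * w i) * (∑ i, algebraMap K Ω (y m (1, i)) * u i) := by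
  classical
  rw [← binet_cauchy_two (fun i => algebraMap K Ω (y m (0, i)))
    (fun i => algebraMap K Ω (y m (1, i))) u w]
  rw [← Equiv.sum_comp (Fintype.equivFin (PlIdx n))]
  refine Finset.sum_congr rfl fun p _ => ?_
  simp only [plLam, wedgeFin, Equiv.symm_apply_apply, map_sub, map_mul]

end FinShape

end Fermat.Agent.S17.Local.PencilsExt
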