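import Fermat.Agent.S17.Local.Pigeonhole
import Fermat.Agent.S17.Local.PencilsExt

/-!
# S17 / Local layer: the metric pigeonhole (PH) in the `(T, C)` convention

Leaf (PH) of the split of THEOREM A.  For a family of `M` pencils `y` in general position
(any `r = #PlIdx n` of the Plücker vectors linearly independent) there is ONE finite set
`T ⊆ Ω` (the entries of the inverses of the `r × r` submatrices of the Plücker family) such that
for EVERY absolute value `abv` of `Ω` there is a constant `c0`, `0 < c0 ≤ 1`, with `c0 = 1` as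
soon as `abv` is nonarchimedean and `≤ 1` on `T`, such that for every `w ∈ Ω^r` at most `r - 1`
of the Plücker functionals are `c0`-small on `w`.  These are literally the hypotheses `hc0`,
`hcard` of `Local.star_log_mult` (with `lam := plLam Ω y`).
-/

namespace Fermat.Agent.S17.Local.PigeonholeTC

open Finset Fermat.Agent.S17.Local Fermat.Agent.S17.Local.PencilsExt
  Fermat.Agent.S17.Local.GeneralPosition

section Abstract

variable {Ω : Type*} [Field Ω]

/-- the finite set of all entries of the inverses of the `r × r` submatrices of `lam` -/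
noncomputable def invEntries {M r : ℕ} (lam : Fin M → Fin r → Ω) : Finset Ω := by
  classical
  exact (univ : Finset ((Fin r ↪ Fin M) × Fin r × Fin r)).image
    fun x => (subMat lam x.1)⁻¹ x.2.1 x.2.2

theorem inv_apply_mem_invEntries {M r : ℕ} (lam : Fin M → Fin r → Ω) (e : Fin r ↪ Fin M)
    (j i : Fin r) : (subMat lam e)⁻¹ j i ∈ invEntries lam := by
  classical
  unfold invEntries
  exact mem_image.mpr ⟨(e, j, i), mem_univ _, rfl⟩

/-- the pigeonhole constant is at most `1` -/
theorem phConst_le_one (abv : AbsoluteValue Ω ℝ) {M r : ℕ} (lam : Fin M → Fin r → Ω) :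
    phConst abv lam ≤ 1 := by
  unfold phConst
  have h0 : 0 ≤ ∑ e : Fin r ↪ Fin M, invSize abv lam e :=
    sum_nonneg fun e _ => invSize_nonneg abv lam e
  exact inv_le_one_of_one_le₀ (by linarith)

/-- **(PH) in the `(T, C)` convention, abstract family.**  If any `r` of the functionals `lam`
form a basis then, with `T := invEntries lam`, every absolute value has a pigeonhole constant
`c0 ∈ (0, 1]`, equal to `1` at the nonarchimedean absolute values that are `≤ 1` on `T`. -/
theorem exists_smallSet_const {M r : ℕ} (lam : Fin M → Fin r → Ω)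
    (hbasis : ∀ e : Fin r ↪ Fin M, (subMat lam e).det ≠ 0) (abv : AbsoluteValue Ω ℝ) :
    ∃ c0 : ℝ, 0 < c0 ∧ c0 ≤ 1 ∧
      (IsNonarchimedean abv → (∀ c ∈ invEntries lam, abv c ≤ 1) → c0 = 1) ∧
      ∀ w : Fin r → Ω, (smallSet abv lam c0 w).card ≤ r - 1 := by
  classical
  by_cases h : IsNonarchimedean abv ∧ ∀ c ∈ invEntries lam, abv c ≤ 1
  · exact ⟨1, one_pos, le_rfl, fun _ _ => rfl, fun w =>
      card_smallSet_one_le_of_nonarch abv h.1 lam hbasis
        (fun e j i => h.2 _ (inv_apply_mem_invEntries lam e j i)) w⟩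
  · exact ⟨phConst abv lam, phConst_pos abv lam, phConst_le_one abv lam,
      fun h1 h2 => absurd ⟨h1, h2⟩ h, fun w => card_smallSet_le abv lam hbasis w⟩

end Abstract

section Pencils

variable {k : Type*} [Field k] (Ω : Type*) [Field Ω] [Algebra k Ω] {n M : ℕ}

/-- the `hbasis` hypothesis of (PH) for the Plücker family of pencils in general position -/
theorem det_subMat_plLam_ne_zero (y : Fin M → (Fin 2 × Fin (n + 1) → k))
    (hgp : ∀ s : PlIdx n → Fin M, Function.Injective s →
        (Matrix.of fun (a b : PlIdx n) =>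
          y (s a) (0, b.1.1) * y (s a) (1, b.1.2) - y (s a) (0, b.1.2) * y (s a) (1, b.1.1)).det
          ≠ 0)
    (e : Fin (Fintype.card (PlIdx n)) ↪ Fin M) :
    (subMat (plLam Ω y) e).det ≠ 0 :=
  det_plLam_ne_zero Ω y hgp e

/-- **(PH) for pencils in general position, `(T, C)` convention**: ONE finite set `T ⊆ Ω` for all
absolute values; `hc0` and `hcard` of `Local.star_log_mult` with `lam := plLam Ω y`. -/
theorem exists_smallSet_TC (y : Fin M → (Fin 2 × Fin (n + 1) → k))
    (hgp : ∀ s : PlIdx n → Fin M, Function.Injective s →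
        (Matrix.of fun (a b : PlIdx n) =>
          y (s a) (0, b.1.1) * y (s a) (1, b.1.2) - y (s a) (0, b.1.2) * y (s a) (1, b.1.1)).det
          ≠ 0) :
    ∃ T : Finset Ω, ∀ abv : AbsoluteValue Ω ℝ, ∃ c0 : ℝ, 0 < c0 ∧ c0 ≤ 1 ∧
      (IsNonarchimedean abv → (∀ c ∈ T, abv c ≤ 1) → c0 = 1) ∧
      ∀ w : Fin (Fintype.card (PlIdx n)) → Ω,
        (smallSet abv (plLam Ω y) c0 w).card ≤ Fintype.card (PlIdx n) - 1 :=
  ⟨invEntries (plLam Ω y), fun abv =>
    exists_smallSet_const (plLam Ω y) (det_subMat_plLam_ne_zero Ω y hgp) abv⟩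

/-- the corollary in the shape consumed by the pigeonhole step: with `(r - 1) * d < M`, for any
`d` vectors ONE pencil is `c0`-large on all of them. -/
theorem exists_index_large_TC (y : Fin M → (Fin 2 × Fin (n + 1) → k))
    (hgp : ∀ s : PlIdx n → Fin M, Function.Injective s →
        (Matrix.of fun (a b : PlIdx n) =>
          y (s a) (0, b.1.1) * y (s a) (1, b.1.2) - y (s a) (0, b.1.2) * y (s a) (1, b.1.1)).det
          ≠ 0) {d : ℕ} (hM : (Fintype.card (PlIdx n) - 1) * d < M) :
    ∃ T : Finset Ω, ∀ abv : AbsoluteValue Ω ℝ, ∃ c0 : ℝ, 0 < c0 ∧ c0 ≤ 1 ∧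
      (IsNonarchimedean abv → (∀ c ∈ T, abv c ≤ 1) → c0 = 1) ∧
      ∀ w : Fin d → Fin (Fintype.card (PlIdx n)) → Ω,
        ∃ m : Fin M, ∀ j, c0 * supN abv (w j) ≤ abv (pair (plLam Ω y m) (w j)) := by
  obtain ⟨T, hT⟩ := exists_smallSet_TC Ω y hgp
  refine ⟨T, fun abv => ?_⟩
  obtain ⟨c0, h0, h1, hna, hcard⟩ := hT abv
  exact ⟨c0, h0, h1, hna, fun w => exists_index_large abv (plLam Ω y) c0 hcard hM w⟩

end Pencils

end Fermat.Agent.S17.Local.PigeonholeTC
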