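import Mathlib

/-!
# S17 (project H, scratch stock): local (per absolute value) Nullstellensatz lower bounds

`k` a field (think `ℚ`), `K` an algebraically closed extension (think `ℚ̄`).  For a finite family
of polynomials `p m` over `k`, bihomogeneous in two groups of variables `(a, x)`, without common
zero `(a, x)`, `a ≠ 0`, `x ≠ 0`, `x` on a cone `zeroLocus K I`, we produce ONE finite set
`T ⊆ k` and ONE natural number `n` such that for EVERY absolute value `abv` of `K`

  `(sup_j abv (a j)) ^ d₁ * (sup_i abv (x i)) ^ d₂ ≤ C(abv) * sup_m abv (p m (a, x))`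

with `C(abv) = n * max 1 (sup_{c ∈ T} abv c)`, and `C(abv) = max 1 (sup_{c ∈ T} abv c)` if `abv`
is nonarchimedean.  (`bihom_lower_bound`, `hom_lower_bound`.)
-/

set_option autoImplicit false

namespace Fermat.Agent.S17.Local.NSSLocal

open MvPolynomial

variable {k K : Type*} [Field k] [Field K] [Algebra k K]

/-- sup norm of a finite tuple with respect to an absolute value -/
noncomputable def supAbv {ι : Type*} (abv : AbsoluteValue K ℝ) (x : ι → K) : ℝ :=
  ⨆ i, abv (x i)

theorem supAbv_nonneg {ι : Type*} (abv : AbsoluteValue K ℝ) (x : ι → K) : 0 ≤ supAbv abv x :=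
  Real.iSup_nonneg fun _ => abv.nonneg _

theorem le_supAbv {ι : Type*} [Finite ι] (abv : AbsoluteValue K ℝ) (x : ι → K) (i : ι) :
    abv (x i) ≤ supAbv abv x :=
  le_ciSup (Set.finite_range fun i => abv (x i)).bddAbove i

theorem exists_eq_supAbv {ι : Type*} [Finite ι] [Nonempty ι] (abv : AbsoluteValue K ℝ)
    (x : ι → K) : ∃ i, abv (x i) = supAbv abv x :=
  exists_eq_ciSup_of_finite

theorem supAbv_pos {ι : Type*} [Finite ι] (abv : AbsoluteValue K ℝ) {x : ι → K} (hx : x ≠ 0) :
    0 < supAbv abv x := by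
  obtain ⟨i, hi⟩ := Function.ne_iff.mp hx
  exact lt_of_lt_of_le (abv.pos hi) (le_supAbv abv x i)

theorem supAbv_le {ι : Type*} [Finite ι] (abv : AbsoluteValue K ℝ) {x : ι → K} {B : ℝ}
    (hB : 0 ≤ B) (h : ∀ i, abv (x i) ≤ B) : supAbv abv x ≤ B := by
  rcases isEmpty_or_nonempty ι with hι | hι
  · simp [supAbv, Real.iSup_of_isEmpty, hB]
  · exact ciSup_le h

/-! ### Trivial bounds for the value of a polynomial on the unit polydisc -/

section PolyBound

variable {σ : Type*}

/-- archimedean (= general) bound: `|q(z)| ≤ ∑ |coefficients|` if all `|z i| ≤ 1`. -/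
theorem abv_aeval_le_sum (abv : AbsoluteValue K ℝ) (q : MvPolynomial σ k) (z : σ → K)
    (hz : ∀ i, abv (z i) ≤ 1) :
    abv (aeval z q) ≤ ∑ d ∈ q.support, abv (algebraMap k K (q.coeff d)) := by
  rw [aeval_def, eval₂_eq]
  refine (abv.sum_le _ _).trans (Finset.sum_le_sum fun d _ => ?_)
  rw [abv.map_mul, abv.map_prod]
  refine mul_le_of_le_one_right (abv.nonneg _) ?_
  refine Finset.prod_le_one (fun i _ => abv.nonneg _) fun i _ => ?_
  rw [abv.map_pow]
  exact pow_le_one₀ (abv.nonneg _) (hz i)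

/-- ultrametric inequality for finite sums, bounded form -/
theorem abv_sum_le_of_nonarch {α : Type*} {abv : AbsoluteValue K ℝ} (hv : IsNonarchimedean abv)
    (s : Finset α) (f : α → K) {B : ℝ} (hB : 0 ≤ B) (h : ∀ i ∈ s, abv (f i) ≤ B) :
    abv (∑ i ∈ s, f i) ≤ B := by
  classical
  induction s using Finset.induction with
  | empty => simpa using hB
  | insert a s ha ih =>
    rw [Finset.sum_insert ha]
    refine (hv _ _).trans (max_le (h a (Finset.mem_insert_self a s)) ?_)
    exact ih fun i hi => h i (Finset.mem_insert_of_mem hi)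

/-- nonarchimedean bound: `|q(z)| ≤ 1` if all `|z i| ≤ 1` and all `|coefficients| ≤ 1`. -/
theorem abv_aeval_le_one_of_nonarch {abv : AbsoluteValue K ℝ} (hv : IsNonarchimedean abv)
    (q : MvPolynomial σ k) (z : σ → K) (hz : ∀ i, abv (z i) ≤ 1)
    (hq : ∀ d ∈ q.support, abv (algebraMap k K (q.coeff d)) ≤ 1) :
    abv (aeval z q) ≤ 1 := by
  rw [aeval_def, eval₂_eq]
  refine abv_sum_le_of_nonarch hv _ _ zero_le_one fun d hd => ?_
  rw [abv.map_mul, abv.map_prod]
  refine mul_le_one₀ (hq d hd) (Finset.prod_nonneg fun i _ => abv.nonneg _) ?_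
  refine Finset.prod_le_one (fun i _ => abv.nonneg _) fun i _ => ?_
  rw [abv.map_pow]
  exact pow_le_one₀ (abv.nonneg _) (hz i)

end PolyBound

/-! ### The certificate -/

section Cert

variable [IsAlgClosed K] {σ τ ι : Type*} [Finite σ] [Finite τ] [Finite ι]

omit [IsAlgClosed K] [Finite σ] [Finite τ] in
/-- evaluation of the `x`-part: the extended ideal vanishes at `(a, x)` if `x` is on the cone. -/
theorem aeval_eq_zero_of_mem_map (I : Ideal (MvPolynomial τ k)) (a : σ → K) {x : τ → K}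
    (hx : x ∈ zeroLocus K I) {r : MvPolynomial (σ ⊕ τ) k}
    (hr : r ∈ I.map (rename (R := k) (Sum.inr : τ → σ ⊕ τ))) :
    aeval (Sum.elim a x) r = 0 := by
  have hle : I.map (rename (R := k) (Sum.inr : τ → σ ⊕ τ)) ≤
      RingHom.ker (aeval (R := k) (Sum.elim a x) : MvPolynomial (σ ⊕ τ) k →ₐ[k] K) := by
    rw [Ideal.map_le_iff_le_comap]
    intro f hf
    rw [Ideal.mem_comap, RingHom.mem_ker]
    have : (Sum.elim a x ∘ Sum.inr : τ → K) = x := by ext i; simp
    rw [aeval_rename, this]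
    exact hx f hf
  exact hle hr

/-- **Bihomogeneous Nullstellensatz, certificate form.**  If the `p m` have no common zero
`(a, x)` with `a ≠ 0`, `x ≠ 0`, `x ∈ zeroLocus K I`, then for all `j`, `i` a power of
`X_j * X_i` is a combination of the `p m` modulo the extension of `I`; evaluated form. -/
theorem exists_cert (p : ι → MvPolynomial (σ ⊕ τ) k) (I : Ideal (MvPolynomial τ k))
    (h0 : ∀ (a : σ → K) (x : τ → K), a ≠ 0 → x ≠ 0 → x ∈ zeroLocus K I →
      ∃ m, aeval (Sum.elim a x) (p m) ≠ 0) (j : σ) (i : τ) :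
    ∃ (N : ℕ) (c : ι → MvPolynomial (σ ⊕ τ) k), ∀ (a : σ → K) (x : τ → K),
      x ∈ zeroLocus K I →
      (a j * x i) ^ N = ∑ᶠ m, aeval (Sum.elim a x) (c m) * aeval (Sum.elim a x) (p m) := by
  classical
  obtain ⟨_⟩ := nonempty_fintype ι
  set J : Ideal (MvPolynomial (σ ⊕ τ) k) :=
    Ideal.span (Set.range p) ⊔ I.map (rename (R := k) (Sum.inr : τ → σ ⊕ τ)) with hJ
  have hmem : (X (Sum.inl j) * X (Sum.inr i) : MvPolynomial (σ ⊕ τ) k) ∈ J.radical := by
    rw [← vanishingIdeal_zeroLocus_eq_radical (K := K), mem_vanishingIdeal_iff]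
    intro z hz
    have hzp : ∀ m, aeval z (p m) = 0 := fun m =>
      hz (p m) (Ideal.mem_sup_left (Ideal.subset_span (Set.mem_range_self m)))
    have hzI : (z ∘ Sum.inr) ∈ zeroLocus K I := by
      intro f hf
      have := hz (rename Sum.inr f) (Ideal.mem_sup_right (Ideal.mem_map_of_mem _ hf))
      rwa [aeval_rename] at this
    have hzz : Sum.elim (z ∘ Sum.inl) (z ∘ Sum.inr) = z := by
      ext s; cases s <;> simp
    rw [map_mul, aeval_X, aeval_X]
    by_contra hne
    rw [mul_eq_zero, not_or] at hne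
    have ha : (z ∘ Sum.inl : σ → K) ≠ 0 := fun h => hne.1 (by simpa using congrFun h j)
    have hx : (z ∘ Sum.inr : τ → K) ≠ 0 := fun h => hne.2 (by simpa using congrFun h i)
    obtain ⟨m, hm⟩ := h0 _ _ ha hx hzI
    rw [hzz] at hm
    exact hm (hzp m)
  obtain ⟨N, hN⟩ := hmem
  obtain ⟨y, hy, r, hr, hyr⟩ := Submodule.mem_sup.mp hN
  obtain ⟨c, hc⟩ := (Ideal.mem_span_range_iff_exists_fun).mp hy
  refine ⟨N, c, fun a x hx => ?_⟩
  have h1 : aeval (Sum.elim a x) ((X (Sum.inl j) * X (Sum.inr i) : MvPolynomial (σ ⊕ τ) k) ^ N)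
      = (a j * x i) ^ N := by
    simp
  rw [finsum_eq_sum_of_fintype, ← h1, ← hyr, map_add, aeval_eq_zero_of_mem_map I a hx hr,
    add_zero, ← hc, map_sum]
  simp

/-- The constant attached to a finite family of polynomials: sum of the absolute values of all
coefficients. -/
noncomputable def coeffSum {α : Type*} [Fintype α] {ρ : Type*} (abv : AbsoluteValue K ℝ)
    (c : α → MvPolynomial ρ k) : ℝ :=
  ∑ u, ∑ d ∈ (c u).support, abv (algebraMap k K ((c u).coeff d))

omit [IsAlgClosed K] in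
theorem coeffSum_nonneg {α : Type*} [Fintype α] {ρ : Type*} (abv : AbsoluteValue K ℝ)
    (c : α → MvPolynomial ρ k) : 0 ≤ coeffSum abv c :=
  Finset.sum_nonneg fun _ _ => Finset.sum_nonneg fun _ _ => abv.nonneg _

/-- **Bihomogeneous Nullstellensatz, local metric form.**  One finite set `T ⊆ k` works for all
absolute values of `K`: the constant is `1` at every nonarchimedean absolute value which is `≤ 1`
on `T`. -/
theorem bihom_lower_bound (p : ι → MvPolynomial (σ ⊕ τ) k) (d₁ d₂ : ℕ)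
    (hp : ∀ (m : ι) (s t : K) (a : σ → K) (x : τ → K),
      aeval (Sum.elim (s • a) (t • x)) (p m) = s ^ d₁ * t ^ d₂ * aeval (Sum.elim a x) (p m))
    (I : Ideal (MvPolynomial τ k))
    (hI : ∀ x ∈ zeroLocus K I, ∀ t : K, t • x ∈ zeroLocus K I)
    (h0 : ∀ (a : σ → K) (x : τ → K), a ≠ 0 → x ≠ 0 → x ∈ zeroLocus K I →
      ∃ m, aeval (Sum.elim a x) (p m) ≠ 0) :
    ∃ T : Finset k, ∀ abv : AbsoluteValue K ℝ, ∃ C : ℝ, 0 < C ∧
      (IsNonarchimedean abv → (∀ c ∈ T, abv (algebraMap k K c) ≤ 1) → C = 1) ∧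
      ∀ (a : σ → K) (x : τ → K), a ≠ 0 → x ≠ 0 → x ∈ zeroLocus K I →
        supAbv abv a ^ d₁ * supAbv abv x ^ d₂ ≤
          C * supAbv abv (fun m => aeval (Sum.elim a x) (p m)) := by
  classical
  obtain ⟨_⟩ := nonempty_fintype ι
  obtain ⟨_⟩ := nonempty_fintype σ
  obtain ⟨_⟩ := nonempty_fintype τ
  choose N c hc using fun ji : σ × τ => exists_cert (K := K) p I h0 ji.1 ji.2
  -- all coefficients of all certificates
  set T : Finset k := Finset.univ.biUnion fun u : (σ × τ) × ι =>
    ((c u.1 u.2).support.image fun d => (c u.1 u.2).coeff d) with hT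
  refine ⟨T, fun abv => ?_⟩
  set S : ℝ := coeffSum abv (fun u : (σ × τ) × ι => c u.1 u.2) with hS
  have hS0 : 0 ≤ S := coeffSum_nonneg abv _
  set good : Prop := IsNonarchimedean abv ∧ ∀ c' ∈ T, abv (algebraMap k K c') ≤ 1 with hgood
  refine ⟨if good then 1 else max 1 S, ?_, ?_, ?_⟩
  · split_ifs
    · exact one_pos
    · exact lt_of_lt_of_le one_pos (le_max_left _ _)
  · intro h1 h2
    rw [if_pos ⟨h1, h2⟩]
  intro a x ha hx hxI
  have : Nonempty σ := by
    by_contra h
    rw [not_nonempty_iff] at h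
    exact ha (Subsingleton.elim _ _)
  have : Nonempty τ := by
    by_contra h
    rw [not_nonempty_iff] at h
    exact hx (Subsingleton.elim _ _)
  obtain ⟨j0, hj0⟩ := exists_eq_supAbv abv a
  obtain ⟨i0, hi0⟩ := exists_eq_supAbv abv x
  have hapos : 0 < supAbv abv a := supAbv_pos abv ha
  have hxpos : 0 < supAbv abv x := supAbv_pos abv hx
  have haj0 : a j0 ≠ 0 := by
    intro h; rw [h, abv.map_zero] at hj0; exact hapos.ne hj0
  have hxi0 : x i0 ≠ 0 := by
    intro h; rw [h, abv.map_zero] at hi0; exact hxpos.ne hi0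
  set a' : σ → K := (a j0)⁻¹ • a with ha'
  set x' : τ → K := (x i0)⁻¹ • x with hx'
  have ha'le : ∀ j, abv (a' j) ≤ 1 := by
    intro j
    simp only [ha', Pi.smul_apply, smul_eq_mul, abv.map_mul, map_inv₀]
    rw [inv_mul_le_iff₀ (abv.pos haj0), mul_one, hj0]
    exact le_supAbv abv a j
  have hx'le : ∀ i, abv (x' i) ≤ 1 := by
    intro i
    simp only [hx', Pi.smul_apply, smul_eq_mul, abv.map_mul, map_inv₀]
    rw [inv_mul_le_iff₀ (abv.pos hxi0), mul_one, hi0]
    exact le_supAbv abv x i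
  have hz'le : ∀ s, abv (Sum.elim a' x' s) ≤ 1 := by
    intro s; cases s
    · exact ha'le _
    · exact hx'le _
  have hx'I : x' ∈ zeroLocus K I := hI x hxI _
  have ha'j0 : a' j0 = 1 := by simp [ha', haj0]
  have hx'i0 : x' i0 = 1 := by simp [hx', hxi0]
  have hcert := hc (j0, i0) a' x' hx'I
  simp only [ha'j0, hx'i0, mul_one, one_pow] at hcert
  rw [finsum_eq_sum_of_fintype] at hcert
  -- values at the rescaled point
  have hval : ∀ m, abv (aeval (Sum.elim a' x') (p m)) =
      abv (aeval (Sum.elim a x) (p m)) / (supAbv abv a ^ d₁ * supAbv abv x ^ d₂) := by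
    intro m
    rw [ha', hx', hp, abv.map_mul, abv.map_mul, abv.map_pow, abv.map_pow, map_inv₀, map_inv₀,
      hj0, hi0, inv_pow, inv_pow, ← mul_inv, div_eq_inv_mul]
  set M : ℝ := supAbv abv (fun m => aeval (Sum.elim a x) (p m)) with hM
  have hM0 : 0 ≤ M := supAbv_nonneg abv _
  have hD : 0 < supAbv abv a ^ d₁ * supAbv abv x ^ d₂ := by positivity
  have hpm : ∀ m, abv (aeval (Sum.elim a' x') (p m)) ≤
      M / (supAbv abv a ^ d₁ * supAbv abv x ^ d₂) := by
    intro m
    rw [hval]
    exact div_le_div_of_nonneg_right (le_supAbv abv (fun m => aeval (Sum.elim a x) (p m)) m)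
      hD.le
  by_cases hg : good
  · rw [if_pos hg, one_mul]
    obtain ⟨hv, hTle⟩ := hg
    have h1 : abv (1 : K) ≤ M / (supAbv abv a ^ d₁ * supAbv abv x ^ d₂) := by
      rw [hcert]
      refine abv_sum_le_of_nonarch hv _ _ (div_nonneg hM0 hD.le) fun m _ => ?_
      rw [abv.map_mul]
      refine (mul_le_of_le_one_left (abv.nonneg _) ?_).trans (hpm m)
      refine abv_aeval_le_one_of_nonarch hv _ _ hz'le fun d hd => hTle _ ?_
      rw [hT, Finset.mem_biUnion]
      exact ⟨((j0, i0), m), Finset.mem_univ _, Finset.mem_image_of_mem _ hd⟩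
    rwa [abv.map_one, le_div_iff₀ hD, one_mul] at h1
  · rw [if_neg hg]
    have h1 : abv (1 : K) ≤ S * (M / (supAbv abv a ^ d₁ * supAbv abv x ^ d₂)) := by
      rw [hcert]
      refine (abv.sum_le _ _).trans ?_
      have : ∀ m ∈ (Finset.univ : Finset ι),
          abv (aeval (Sum.elim a' x') (c (j0, i0) m) * aeval (Sum.elim a' x') (p m)) ≤
          (∑ d ∈ (c (j0, i0) m).support, abv (algebraMap k K ((c (j0, i0) m).coeff d))) *
            (M / (supAbv abv a ^ d₁ * supAbv abv x ^ d₂)) := by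
        intro m _
        rw [abv.map_mul]
        exact mul_le_mul (abv_aeval_le_sum abv _ _ hz'le) (hpm m) (abv.nonneg _)
          (Finset.sum_nonneg fun _ _ => abv.nonneg _)
      refine (Finset.sum_le_sum this).trans ?_
      rw [← Finset.sum_mul]
      refine mul_le_mul_of_nonneg_right ?_ (div_nonneg hM0 hD.le)
      rw [hS, coeffSum, ← Finset.univ_product_univ, Finset.sum_product]
      exact Finset.single_le_sum (f := fun ji : σ × τ => ∑ m : ι,
        ∑ d ∈ (c ji m).support, abv (algebraMap k K ((c ji m).coeff d)))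
        (fun _ _ => Finset.sum_nonneg fun _ _ => Finset.sum_nonneg fun _ _ => abv.nonneg _)
        (Finset.mem_univ (j0, i0))
    rw [abv.map_one] at h1
    have h2 : S * (M / (supAbv abv a ^ d₁ * supAbv abv x ^ d₂)) ≤
        max 1 S * M / (supAbv abv a ^ d₁ * supAbv abv x ^ d₂) := by
      rw [mul_div_assoc]
      exact mul_le_mul_of_nonneg_right (le_max_right _ _) (div_nonneg hM0 hD.le)
    have h3 := h1.trans h2
    rwa [le_div_iff₀ hD, one_mul] at h3

end Cert

/-! ### Discharging the homogeneity hypotheses -/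

section Homog

variable {σ τ : Type*}

/-- value of a homogeneous polynomial at a rescaled point -/
theorem aeval_smul_of_isHomogeneous [Finite τ] {q : MvPolynomial τ k} {d : ℕ}
    (hq : q.IsHomogeneous d) (t : K) (x : τ → K) :
    aeval (t • x) q = t ^ d * aeval x q := by
  classical
  obtain ⟨_⟩ := nonempty_fintype τ
  rw [aeval_def, aeval_def, eval₂_eq', eval₂_eq', Finset.mul_sum]
  refine Finset.sum_congr rfl fun e he => ?_
  have hdeg : ∑ i, e i = d := by
    have h1 : e.degree = d := by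
      rw [Finsupp.degree_apply]; exact (hq.degree_eq_sum_deg_support he).symm
    rw [← h1, Finsupp.degree_eq_sum]
  simp only [Pi.smul_apply, smul_eq_mul, mul_pow, Finset.prod_mul_distrib,
    Finset.prod_pow_eq_pow_sum, hdeg]
  ring

/-- a polynomial in two groups of variables is bihomogeneous of bidegree `(d₁, d₂)` -/
def IsBihom (q : MvPolynomial (σ ⊕ τ) k) (d₁ d₂ : ℕ) : Prop :=
  ∀ e ∈ q.support, (e.comapDomain Sum.inl Sum.inl_injective.injOn).degree = d₁ ∧
    (e.comapDomain Sum.inr Sum.inr_injective.injOn).degree = d₂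

/-- value of a bihomogeneous polynomial at a rescaled point -/
theorem aeval_smul_of_isBihom [Finite σ] [Finite τ] {q : MvPolynomial (σ ⊕ τ) k} {d₁ d₂ : ℕ}
    (hq : IsBihom q d₁ d₂) (s t : K) (a : σ → K) (x : τ → K) :
    aeval (Sum.elim (s • a) (t • x)) q = s ^ d₁ * t ^ d₂ * aeval (Sum.elim a x) q := by
  classical
  obtain ⟨_⟩ := nonempty_fintype σ
  obtain ⟨_⟩ := nonempty_fintype τ
  rw [aeval_def, aeval_def, eval₂_eq', eval₂_eq', Finset.mul_sum]
  refine Finset.sum_congr rfl fun e he => ?_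
  obtain ⟨h1, h2⟩ := hq e he
  have hd1 : ∑ j, e (Sum.inl j) = d₁ := by
    rw [← h1, Finsupp.degree_eq_sum]
    exact Finset.sum_congr rfl fun j _ => by simp [Finsupp.comapDomain_apply]
  have hd2 : ∑ i, e (Sum.inr i) = d₂ := by
    rw [← h2, Finsupp.degree_eq_sum]
    exact Finset.sum_congr rfl fun j _ => by simp [Finsupp.comapDomain_apply]
  simp only [Fintype.prod_sum_type, Sum.elim_inl, Sum.elim_inr, Pi.smul_apply, smul_eq_mul,
    mul_pow, Finset.prod_mul_distrib, Finset.prod_pow_eq_pow_sum, hd1, hd2]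
  ring

/-- the zero locus of an ideal generated by homogeneous polynomials is a cone -/
theorem smul_mem_zeroLocus_span [Finite τ] {S : Set (MvPolynomial τ k)}
    (hS : ∀ q ∈ S, ∃ d, q.IsHomogeneous d) {x : τ → K}
    (hx : x ∈ zeroLocus K (Ideal.span S)) (t : K) : t • x ∈ zeroLocus K (Ideal.span S) := by
  rw [zeroLocus_span] at hx ⊢
  intro q hq
  obtain ⟨d, hd⟩ := hS q hq
  rw [aeval_smul_of_isHomogeneous hd, hx q hq, mul_zero]

end Homog

/-! ### One group of variables -/

section Hom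

variable [IsAlgClosed K] {τ ι : Type*} [Finite τ] [Finite ι]

/-- **Homogeneous Nullstellensatz, local metric form.** -/
theorem hom_lower_bound (p : ι → MvPolynomial τ k) (d : ℕ) (hp : ∀ m, (p m).IsHomogeneous d)
    (I : Ideal (MvPolynomial τ k))
    (hI : ∀ x ∈ zeroLocus K I, ∀ t : K, t • x ∈ zeroLocus K I)
    (h0 : ∀ x : τ → K, x ≠ 0 → x ∈ zeroLocus K I → ∃ m, aeval x (p m) ≠ 0) :
    ∃ T : Finset k, ∀ abv : AbsoluteValue K ℝ, ∃ C : ℝ, 0 < C ∧
      (IsNonarchimedean abv → (∀ c ∈ T, abv (algebraMap k K c) ≤ 1) → C = 1) ∧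
      ∀ x : τ → K, x ≠ 0 → x ∈ zeroLocus K I →
        supAbv abv x ^ d ≤ C * supAbv abv (fun m => aeval x (p m)) := by
  have key : ∀ (m : ι) (a : Unit → K) (x : τ → K),
      aeval (Sum.elim a x) (rename (Sum.inr : τ → Unit ⊕ τ) (p m)) = aeval x (p m) := by
    intro m a x
    rw [aeval_rename]
    congr 1
  obtain ⟨T, hT⟩ := bihom_lower_bound (K := K) (σ := Unit)
    (fun m => rename (Sum.inr : τ → Unit ⊕ τ) (p m)) 0 d
    (fun m s t a x => by
      rw [key, key, aeval_smul_of_isHomogeneous (hp m), pow_zero, one_mul]) I hI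
    (fun a x _ hx hxI => by
      obtain ⟨m, hm⟩ := h0 x hx hxI
      exact ⟨m, by rwa [key]⟩)
  refine ⟨T, fun abv => ?_⟩
  obtain ⟨C, hC0, hC1, hC⟩ := hT abv
  refine ⟨C, hC0, hC1, fun x hx hxI => ?_⟩
  have h1 : (fun _ : Unit => (1 : K)) ≠ 0 := fun h => one_ne_zero (congrFun h ())
  have := hC (fun _ => 1) x h1 hx hxI
  simp only [pow_zero, one_mul, key] at this
  exact this

end Hom

end Fermat.Agent.S17.Local.NSSLocal
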