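import Mathlib
import Fermat.Agent.S17.Local.NSSLocal

/-!
# PROJECT H (S17), Part A, A.7: the trivial upper bounds (U)

Upper bounds for the values of homogeneous / bihomogeneous polynomials and of linear forms, in
exactly the constant convention of `Local/NSSLocal` (`hom_lower_bound`, `bihom_lower_bound`) and
`Model/L3` (`l2`, `l3`): ONE finite set `T ⊆ K` of constants (the coefficients), and for EVERY
absolute value `abv` of `K` ONE constant `C > 0`, with `C = 1` as soon as `abv` is nonarchimedean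
and `abv c ≤ 1` for all `c ∈ T` (so `C = 1` at almost all places of a number field).

* `exists_scale`           : every vector is `t • x'` with `abv t = supAbv abv x`, `abv (x' j) ≤ 1`;
* `exists_const_polydisc`  : values of a finite family of polynomials on the unit polydisc;
* `hom_upper_bound_family`, `hom_upper_bound`, `hom_upper_bound_of_isHomogeneous` :
  `abv (p x) ≤ C * ‖x‖ ^ d`;
* `bihom_upper_bound_family`, `bihom_upper_bound` :
  `abv (Φ (a, z)) ≤ C * ‖a‖ ^ d₁ * ‖z‖ ^ d₂`;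
* `linear_upper_bound_family`, `linear_upper_bound` : `abv (∑ j, y j * z j) ≤ C * ‖z‖`.
-/

set_option autoImplicit false

namespace Fermat.Agent.S17.Local.TrivialU

open MvPolynomial Fermat.Agent.S17.Local.NSSLocal

variable {K : Type*} [Field K]

/-! ### scaling a vector to the unit polydisc -/

theorem supAbv_zero {τ : Type*} (abv : AbsoluteValue K ℝ) : supAbv abv (0 : τ → K) = 0 := by
  unfold supAbv
  simp

/-- every vector is a scalar multiple `t • x'` of a vector of the unit polydisc, with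
`abv t = ‖x‖` -/
theorem exists_scale {τ : Type*} [Finite τ] (abv : AbsoluteValue K ℝ) (x : τ → K) :
    ∃ (t : K) (x' : τ → K), x = t • x' ∧ abv t = supAbv abv x ∧ ∀ j, abv (x' j) ≤ 1 := by
  by_cases hx : x = 0
  · refine ⟨0, 0, ?_, ?_, fun j => ?_⟩
    · rw [hx, smul_zero]
    · rw [hx, supAbv_zero, map_zero]
    · simp
  · obtain ⟨j0, hj0⟩ := Function.ne_iff.mp hx
    have : Nonempty τ := ⟨j0⟩
    obtain ⟨i, hi⟩ := exists_eq_supAbv abv x
    have hpos : 0 < abv (x i) := by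
      rw [hi]
      exact supAbv_pos abv hx
    have hxi : x i ≠ 0 := abv.pos_iff.mp hpos
    refine ⟨x i, (x i)⁻¹ • x, ?_, hi, fun j => ?_⟩
    · rw [smul_smul, mul_inv_cancel₀ hxi, one_smul]
    · rw [Pi.smul_apply, smul_eq_mul, map_mul, map_inv₀, inv_mul_le_iff₀ hpos, mul_one, hi]
      exact le_supAbv abv x j

/-! ### the unit polydisc -/

/-- values of a finite family of polynomials on the unit polydisc: one finite set of constants
(the coefficients), one constant for every absolute value -/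
theorem exists_const_polydisc {ι σ : Type*} [Finite ι] (Φ : ι → MvPolynomial σ K) :
    ∃ T : Finset K, ∀ abv : AbsoluteValue K ℝ, ∃ C : ℝ, 0 < C ∧
      (IsNonarchimedean abv → (∀ c ∈ T, abv c ≤ 1) → C = 1) ∧
      ∀ (m : ι) (z : σ → K), (∀ i, abv (z i) ≤ 1) → abv (aeval z (Φ m)) ≤ C := by
  classical
  obtain ⟨_⟩ := nonempty_fintype ι
  refine ⟨Finset.univ.biUnion fun m => (Φ m).support.image fun e => (Φ m).coeff e,
    fun abv => ?_⟩
  set T : Finset K := Finset.univ.biUnion fun m => (Φ m).support.image fun e => (Φ m).coeff e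
    with hT
  have hmemT : ∀ (m : ι), ∀ e ∈ (Φ m).support, (Φ m).coeff e ∈ T := fun m e he =>
    Finset.mem_biUnion.mpr ⟨m, Finset.mem_univ m, Finset.mem_image.mpr ⟨e, he, rfl⟩⟩
  by_cases h : IsNonarchimedean abv ∧ ∀ c ∈ T, abv c ≤ 1
  · refine ⟨1, one_pos, fun _ _ => rfl, fun m z hz => ?_⟩
    refine abv_aeval_le_one_of_nonarch (k := K) h.1 (Φ m) z hz fun e he => ?_
    simpa using h.2 _ (hmemT m e he)
  · refine ⟨max 1 (∑ m, ∑ e ∈ (Φ m).support, abv ((Φ m).coeff e)),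
      lt_of_lt_of_le one_pos (le_max_left _ _), fun hna hT1 => absurd ⟨hna, hT1⟩ h,
      fun m z hz => ?_⟩
    refine le_trans ?_ (le_max_right _ _)
    have h1 := abv_aeval_le_sum (k := K) abv (Φ m) z hz
    simp only [Algebra.algebraMap_self, RingHom.id_apply] at h1
    refine h1.trans ?_
    exact Finset.single_le_sum (f := fun m => ∑ e ∈ (Φ m).support, abv ((Φ m).coeff e))
      (fun m _ => Finset.sum_nonneg fun e _ => abv.nonneg _) (Finset.mem_univ m)

/-! ### homogeneous polynomials -/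

/-- **(U), homogeneous form, for a finite family**: `abv (p m (x)) ≤ C * ‖x‖ ^ d`. -/
theorem hom_upper_bound_family {ι τ : Type*} [Finite ι] [Finite τ] (p : ι → MvPolynomial τ K)
    (d : ℕ) (hp : ∀ (m : ι) (t : K) (x : τ → K), aeval (t • x) (p m) = t ^ d * aeval x (p m)) :
    ∃ T : Finset K, ∀ abv : AbsoluteValue K ℝ, ∃ C : ℝ, 0 < C ∧
      (IsNonarchimedean abv → (∀ c ∈ T, abv c ≤ 1) → C = 1) ∧
      ∀ (m : ι) (x : τ → K), abv (aeval x (p m)) ≤ C * supAbv abv x ^ d := by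
  obtain ⟨T, hT⟩ := exists_const_polydisc p
  refine ⟨T, fun abv => ?_⟩
  obtain ⟨C, hC0, hC1, hC⟩ := hT abv
  refine ⟨C, hC0, hC1, fun m x => ?_⟩
  obtain ⟨t, x', rfl, ht, hx'⟩ := exists_scale abv x
  rw [hp, map_mul, map_pow, ht, mul_comm]
  exact mul_le_mul_of_nonneg_right (hC m x' hx') (pow_nonneg (supAbv_nonneg abv _) d)

/-- the sup norm of a family of values -/
theorem supAbv_hom_le {ι τ : Type*} [Finite ι] [Finite τ] (p : ι → MvPolynomial τ K)
    (d : ℕ) (hp : ∀ (m : ι) (t : K) (x : τ → K), aeval (t • x) (p m) = t ^ d * aeval x (p m)) :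
    ∃ T : Finset K, ∀ abv : AbsoluteValue K ℝ, ∃ C : ℝ, 0 < C ∧
      (IsNonarchimedean abv → (∀ c ∈ T, abv c ≤ 1) → C = 1) ∧
      ∀ x : τ → K, supAbv abv (fun m => aeval x (p m)) ≤ C * supAbv abv x ^ d := by
  obtain ⟨T, hT⟩ := hom_upper_bound_family p d hp
  refine ⟨T, fun abv => ?_⟩
  obtain ⟨C, hC0, hC1, hC⟩ := hT abv
  refine ⟨C, hC0, hC1, fun x => ?_⟩
  exact supAbv_le abv (mul_nonneg hC0.le (pow_nonneg (supAbv_nonneg abv _) d)) fun m => hC m x

/-- **(U), homogeneous form**, one polynomial -/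
theorem hom_upper_bound {τ : Type*} [Finite τ] (p : MvPolynomial τ K) (d : ℕ)
    (hp : ∀ (t : K) (x : τ → K), aeval (t • x) p = t ^ d * aeval x p) :
    ∃ T : Finset K, ∀ abv : AbsoluteValue K ℝ, ∃ C : ℝ, 0 < C ∧
      (IsNonarchimedean abv → (∀ c ∈ T, abv c ≤ 1) → C = 1) ∧
      ∀ x : τ → K, abv (aeval x p) ≤ C * supAbv abv x ^ d := by
  obtain ⟨T, hT⟩ := hom_upper_bound_family (ι := Unit) (fun _ => p) d fun _ => hp
  refine ⟨T, fun abv => ?_⟩
  obtain ⟨C, hC0, hC1, hC⟩ := hT abv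
  exact ⟨C, hC0, hC1, fun x => hC () x⟩

/-- the same for a family of polynomials homogeneous of degree `d` in Mathlib's sense -/
theorem hom_upper_bound_of_isHomogeneous {ι τ : Type*} [Finite ι] [Finite τ]
    (p : ι → MvPolynomial τ K) (d : ℕ) (hp : ∀ m, (p m).IsHomogeneous d) :
    ∃ T : Finset K, ∀ abv : AbsoluteValue K ℝ, ∃ C : ℝ, 0 < C ∧
      (IsNonarchimedean abv → (∀ c ∈ T, abv c ≤ 1) → C = 1) ∧
      ∀ (m : ι) (x : τ → K), abv (eval x (p m)) ≤ C * supAbv abv x ^ d := by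
  obtain ⟨T, hT⟩ := hom_upper_bound_family p d fun m t x =>
    aeval_smul_of_isHomogeneous (k := K) (K := K) (hp m) t x
  refine ⟨T, fun abv => ?_⟩
  obtain ⟨C, hC0, hC1, hC⟩ := hT abv
  refine ⟨C, hC0, hC1, fun m x => ?_⟩
  have := hC m x
  rwa [aeval_eq_eval] at this

/-! ### bihomogeneous polynomials -/

/-- **(U), bihomogeneous form, for a finite family**:
`abv (Φ m (a, z)) ≤ C * ‖a‖ ^ d₁ * ‖z‖ ^ d₂`.  The hypothesis is the scaling identity of
`Model/L3.l3` / `NSSLocal.bihom_lower_bound`. -/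
theorem bihom_upper_bound_family {ι σ τ : Type*} [Finite ι] [Finite σ] [Finite τ]
    (Φ : ι → MvPolynomial (σ ⊕ τ) K) (d₁ d₂ : ℕ)
    (hΦ : ∀ (m : ι) (s t : K) (a : σ → K) (z : τ → K),
      aeval (Sum.elim (s • a) (t • z)) (Φ m) = s ^ d₁ * t ^ d₂ * aeval (Sum.elim a z) (Φ m)) :
    ∃ T : Finset K, ∀ abv : AbsoluteValue K ℝ, ∃ C : ℝ, 0 < C ∧
      (IsNonarchimedean abv → (∀ c ∈ T, abv c ≤ 1) → C = 1) ∧
      ∀ (m : ι) (a : σ → K) (z : τ → K),
        abv (aeval (Sum.elim a z) (Φ m)) ≤ C * supAbv abv a ^ d₁ * supAbv abv z ^ d₂ := by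
  obtain ⟨T, hT⟩ := exists_const_polydisc Φ
  refine ⟨T, fun abv => ?_⟩
  obtain ⟨C, hC0, hC1, hC⟩ := hT abv
  refine ⟨C, hC0, hC1, fun m a z => ?_⟩
  obtain ⟨s, a', rfl, hs, ha'⟩ := exists_scale abv a
  obtain ⟨t, z', rfl, ht, hz'⟩ := exists_scale abv z
  have hle : ∀ i, abv (Sum.elim a' z' i) ≤ 1 := by
    rintro (i | i)
    · exact ha' i
    · exact hz' i
  rw [hΦ, map_mul, map_mul, map_pow, map_pow, hs, ht]
  have h1 := hC m (Sum.elim a' z') hle
  have h2 : 0 ≤ supAbv abv (s • a') ^ d₁ * supAbv abv (t • z') ^ d₂ :=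
    mul_nonneg (pow_nonneg (supAbv_nonneg abv _) _) (pow_nonneg (supAbv_nonneg abv _) _)
  calc supAbv abv (s • a') ^ d₁ * supAbv abv (t • z') ^ d₂ * abv (aeval (Sum.elim a' z') (Φ m))
      ≤ supAbv abv (s • a') ^ d₁ * supAbv abv (t • z') ^ d₂ * C :=
        mul_le_mul_of_nonneg_left h1 h2
    _ = C * supAbv abv (s • a') ^ d₁ * supAbv abv (t • z') ^ d₂ := by ring

/-- the sup norm of a family of values of bihomogeneous polynomials -/
theorem supAbv_bihom_le {ι σ τ : Type*} [Finite ι] [Finite σ] [Finite τ]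
    (Φ : ι → MvPolynomial (σ ⊕ τ) K) (d₁ d₂ : ℕ)
    (hΦ : ∀ (m : ι) (s t : K) (a : σ → K) (z : τ → K),
      aeval (Sum.elim (s • a) (t • z)) (Φ m) = s ^ d₁ * t ^ d₂ * aeval (Sum.elim a z) (Φ m)) :
    ∃ T : Finset K, ∀ abv : AbsoluteValue K ℝ, ∃ C : ℝ, 0 < C ∧
      (IsNonarchimedean abv → (∀ c ∈ T, abv c ≤ 1) → C = 1) ∧
      ∀ (a : σ → K) (z : τ → K),
        supAbv abv (fun m => aeval (Sum.elim a z) (Φ m)) ≤
          C * supAbv abv a ^ d₁ * supAbv abv z ^ d₂ := by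
  obtain ⟨T, hT⟩ := bihom_upper_bound_family Φ d₁ d₂ hΦ
  refine ⟨T, fun abv => ?_⟩
  obtain ⟨C, hC0, hC1, hC⟩ := hT abv
  refine ⟨C, hC0, hC1, fun a z => ?_⟩
  refine supAbv_le abv ?_ fun m => hC m a z
  exact mul_nonneg (mul_nonneg hC0.le (pow_nonneg (supAbv_nonneg abv _) _))
    (pow_nonneg (supAbv_nonneg abv _) _)

/-- **(U), bihomogeneous form**, one polynomial -/
theorem bihom_upper_bound {σ τ : Type*} [Finite σ] [Finite τ]
    (Φ : MvPolynomial (σ ⊕ τ) K) (d₁ d₂ : ℕ)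
    (hΦ : ∀ (s t : K) (a : σ → K) (z : τ → K),
      aeval (Sum.elim (s • a) (t • z)) Φ = s ^ d₁ * t ^ d₂ * aeval (Sum.elim a z) Φ) :
    ∃ T : Finset K, ∀ abv : AbsoluteValue K ℝ, ∃ C : ℝ, 0 < C ∧
      (IsNonarchimedean abv → (∀ c ∈ T, abv c ≤ 1) → C = 1) ∧
      ∀ (a : σ → K) (z : τ → K),
        abv (aeval (Sum.elim a z) Φ) ≤ C * supAbv abv a ^ d₁ * supAbv abv z ^ d₂ := by
  obtain ⟨T, hT⟩ := bihom_upper_bound_family (ι := Unit) (fun _ => Φ) d₁ d₂ fun _ => hΦ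
  refine ⟨T, fun abv => ?_⟩
  obtain ⟨C, hC0, hC1, hC⟩ := hT abv
  exact ⟨C, hC0, hC1, fun a z => hC () a z⟩

/-! ### linear forms -/

/-- **(U), linear forms, for a finite family**: `abv (∑ j, y m j * z j) ≤ C * ‖z‖`, the constants
being the coefficients `y m j`. -/
theorem linear_upper_bound_family {ι τ : Type*} [Finite ι] [Fintype τ] (y : ι → τ → K) :
    ∃ T : Finset K, ∀ abv : AbsoluteValue K ℝ, ∃ C : ℝ, 0 < C ∧
      (IsNonarchimedean abv → (∀ c ∈ T, abv c ≤ 1) → C = 1) ∧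
      ∀ (m : ι) (z : τ → K), abv (∑ j, y m j * z j) ≤ C * supAbv abv z := by
  classical
  obtain ⟨_⟩ := nonempty_fintype ι
  set T : Finset K := Finset.univ.biUnion fun m => Finset.univ.image fun j => y m j with hT
  have hmemT : ∀ m j, y m j ∈ T := fun m j =>
    Finset.mem_biUnion.mpr ⟨m, Finset.mem_univ m, Finset.mem_image.mpr ⟨j, Finset.mem_univ j, rfl⟩⟩
  refine ⟨T, fun abv => ?_⟩
  by_cases h : IsNonarchimedean abv ∧ ∀ c ∈ T, abv c ≤ 1
  · refine ⟨1, one_pos, fun _ _ => rfl, fun m z => ?_⟩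
    rw [one_mul]
    refine abv_sum_le_of_nonarch h.1 _ _ (supAbv_nonneg abv z) fun j _ => ?_
    rw [map_mul]
    calc abv (y m j) * abv (z j) ≤ 1 * supAbv abv z :=
          mul_le_mul (h.2 _ (hmemT m j)) (le_supAbv abv z j) (abv.nonneg _) zero_le_one
      _ = supAbv abv z := one_mul _
  · refine ⟨max 1 (∑ m, ∑ j, abv (y m j)), lt_of_lt_of_le one_pos (le_max_left _ _),
      fun hna hT1 => absurd ⟨hna, hT1⟩ h, fun m z => ?_⟩
    have h1 : abv (∑ j, y m j * z j) ≤ (∑ j, abv (y m j)) * supAbv abv z := by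
      refine (abv.sum_le _ _).trans ?_
      rw [Finset.sum_mul]
      refine Finset.sum_le_sum fun j _ => ?_
      rw [map_mul]
      exact mul_le_mul_of_nonneg_left (le_supAbv abv z j) (abv.nonneg _)
    refine h1.trans (mul_le_mul_of_nonneg_right ?_ (supAbv_nonneg abv z))
    refine le_trans ?_ (le_max_right _ _)
    exact Finset.single_le_sum (f := fun m => ∑ j, abv (y m j))
      (fun m _ => Finset.sum_nonneg fun j _ => abv.nonneg _) (Finset.mem_univ m)

/-- **(U), one linear form** -/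
theorem linear_upper_bound {τ : Type*} [Fintype τ] (y : τ → K) :
    ∃ T : Finset K, ∀ abv : AbsoluteValue K ℝ, ∃ C : ℝ, 0 < C ∧
      (IsNonarchimedean abv → (∀ c ∈ T, abv c ≤ 1) → C = 1) ∧
      ∀ z : τ → K, abv (∑ j, y j * z j) ≤ C * supAbv abv z := by
  obtain ⟨T, hT⟩ := linear_upper_bound_family (ι := Unit) fun _ => y
  refine ⟨T, fun abv => ?_⟩
  obtain ⟨C, hC0, hC1, hC⟩ := hT abv
  exact ⟨C, hC0, hC1, fun z => hC () z⟩

/-- for a pencil `(y0, y1)`: `max (abv (y0 z)) (abv (y1 z)) ≤ C * ‖z‖` (the bound `hU_y`) -/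
theorem pencil_upper_bound {τ : Type*} [Fintype τ] (y0 y1 : τ → K) :
    ∃ T : Finset K, ∀ abv : AbsoluteValue K ℝ, ∃ C : ℝ, 0 < C ∧
      (IsNonarchimedean abv → (∀ c ∈ T, abv c ≤ 1) → C = 1) ∧
      ∀ z : τ → K, max (abv (∑ j, y0 j * z j)) (abv (∑ j, y1 j * z j)) ≤ C * supAbv abv z := by
  obtain ⟨T, hT⟩ := linear_upper_bound_family (ι := Bool) fun b => if b then y1 else y0
  refine ⟨T, fun abv => ?_⟩
  obtain ⟨C, hC0, hC1, hC⟩ := hT abv
  refine ⟨C, hC0, hC1, fun z => max_le ?_ ?_⟩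
  · simpa using hC false z
  · simpa using hC true z

end Fermat.Agent.S17.Local.TrivialU
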