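import Mathlib

/-!
# S17 / Local layer: the metric pigeonhole (PH)

`Ω` a field with ONE absolute value `abv`.  `lam : Fin M → Fin r → Ω` a family of `M` linear
functionals on `Ω^r` (in coordinates) such that any `r` of them form a basis.  Then there is a
constant `c0 > 0` such that for every vector `w` at most `r - 1` of the functionals are
`c0`-small on `w` (relative to the sup norm of `w`), and consequently for any `d` vectors with
`(r - 1) * d < M` ONE functional is `c0`-large on all of them.
-/

namespace Fermat.Agent.S17.Local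

open Finset

variable {Ω : Type*} [Field Ω] (abv : AbsoluteValue Ω ℝ)

/-- sup norm of a finite vector with respect to one absolute value -/
noncomputable def supN {r : ℕ} (w : Fin r → Ω) : ℝ := ⨆ i, abv (w i)

theorem le_supN {r : ℕ} (w : Fin r → Ω) (i : Fin r) : abv (w i) ≤ supN abv w :=
  le_ciSup (f := fun i => abv (w i)) (Finite.bddAbove_range _) i

theorem supN_nonneg {r : ℕ} (w : Fin r → Ω) : 0 ≤ supN abv w :=
  Real.iSup_nonneg fun i => abv.nonneg (w i)

theorem supN_le {r : ℕ} (w : Fin r → Ω) {B : ℝ} (hB : 0 ≤ B) (h : ∀ i, abv (w i) ≤ B) :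
    supN abv w ≤ B :=
  Real.iSup_le h hB

/-- ultrametric bound for a finite sum, in the form we use -/
theorem abv_sum_le_of_forall_le {ι : Type*} (hna : IsNonarchimedean abv) (s : Finset ι)
    (f : ι → Ω) {B : ℝ} (hB : 0 ≤ B) (h : ∀ i ∈ s, abv (f i) ≤ B) : abv (∑ i ∈ s, f i) ≤ B := by
  classical
  induction s using Finset.induction with
  | empty => simpa using hB
  | insert a s ha ih =>
    rw [Finset.sum_insert ha]
    exact (hna _ _).trans (max_le (h a (mem_insert_self a s))
      (ih fun i hi => h i (mem_insert_of_mem hi)))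

/-- the pairing of a functional (in coordinates) with a vector -/
def pair {r : ℕ} (l w : Fin r → Ω) : Ω := ∑ i, l i * w i

/-- the `r × r` matrix of the functionals `lam (e i)` -/
def subMat {M r : ℕ} (lam : Fin M → Fin r → Ω) (e : Fin r ↪ Fin M) : Matrix (Fin r) (Fin r) Ω :=
  Matrix.of fun i j => lam (e i) j

theorem subMat_mulVec {M r : ℕ} (lam : Fin M → Fin r → Ω) (e : Fin r ↪ Fin M) (w : Fin r → Ω)
    (i : Fin r) : (subMat lam e).mulVec w i = pair (lam (e i)) w := by
  simp [subMat, Matrix.mulVec, dotProduct, pair]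

theorem eq_sum_inv_pair {M r : ℕ} (lam : Fin M → Fin r → Ω) (e : Fin r ↪ Fin M)
    (he : (subMat lam e).det ≠ 0) (w : Fin r → Ω) (j : Fin r) :
    w j = ∑ i, (subMat lam e)⁻¹ j i * pair (lam (e i)) w := by
  have hunit : IsUnit (subMat lam e).det := isUnit_iff_ne_zero.mpr he
  have hinv : (subMat lam e)⁻¹.mulVec ((subMat lam e).mulVec w) = w := by
    rw [Matrix.mulVec_mulVec, Matrix.nonsing_inv_mul _ hunit, Matrix.one_mulVec]
  conv_lhs => rw [← hinv]
  rw [Matrix.mulVec, dotProduct]
  exact Finset.sum_congr rfl fun i _ => by rw [subMat_mulVec]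

/-- the `ℓ¹`-size of the inverse of the `e`-th submatrix -/
noncomputable def invSize {M r : ℕ} (lam : Fin M → Fin r → Ω) (e : Fin r ↪ Fin M) : ℝ :=
  ∑ j, ∑ i, abv ((subMat lam e)⁻¹ j i)

theorem invSize_nonneg {M r : ℕ} (lam : Fin M → Fin r → Ω) (e : Fin r ↪ Fin M) :
    0 ≤ invSize abv lam e :=
  sum_nonneg fun _ _ => sum_nonneg fun _ _ => abv.nonneg _

/-- key inequality: if the `r` functionals `lam (e i)` form a basis then `w` is bounded by its
pairings, with constant the `ℓ¹`-size of the inverse matrix -/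
theorem supN_le_of_basis {M r : ℕ} (lam : Fin M → Fin r → Ω) (e : Fin r ↪ Fin M)
    (he : (subMat lam e).det ≠ 0) (w : Fin r → Ω) {B : ℝ} (hB : 0 ≤ B)
    (hw : ∀ i, abv (pair (lam (e i)) w) ≤ B) :
    supN abv w ≤ invSize abv lam e * B := by
  refine supN_le abv w (mul_nonneg (invSize_nonneg abv lam e) hB) fun j => ?_
  rw [eq_sum_inv_pair lam e he w j]
  calc abv (∑ i, (subMat lam e)⁻¹ j i * pair (lam (e i)) w)
      ≤ ∑ i, abv ((subMat lam e)⁻¹ j i * pair (lam (e i)) w) := abv.sum_le _ _
    _ = ∑ i, abv ((subMat lam e)⁻¹ j i) * abv (pair (lam (e i)) w) := by simp [abv.map_mul]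
    _ ≤ ∑ i, abv ((subMat lam e)⁻¹ j i) * B := by
        gcongr with i _
        exact hw i
    _ = (∑ i, abv ((subMat lam e)⁻¹ j i)) * B := by rw [sum_mul]
    _ ≤ invSize abv lam e * B := by
        gcongr
        exact single_le_sum (f := fun j => ∑ i, abv ((subMat lam e)⁻¹ j i))
          (fun j _ => sum_nonneg fun i _ => abv.nonneg _) (mem_univ j)

/-- nonarchimedean variant with constant `1` -/
theorem supN_le_of_basis_nonarch {M r : ℕ} (hna : IsNonarchimedean abv)
    (lam : Fin M → Fin r → Ω) (e : Fin r ↪ Fin M)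
    (he : (subMat lam e).det ≠ 0) (hinv1 : ∀ j i, abv ((subMat lam e)⁻¹ j i) ≤ 1)
    (w : Fin r → Ω) {B : ℝ} (hB : 0 ≤ B)
    (hw : ∀ i, abv (pair (lam (e i)) w) ≤ B) :
    supN abv w ≤ B := by
  refine supN_le abv w hB fun j => ?_
  rw [eq_sum_inv_pair lam e he w j]
  refine abv_sum_le_of_forall_le abv hna _ _ hB fun i _ => ?_
  rw [abv.map_mul]
  calc abv ((subMat lam e)⁻¹ j i) * abv (pair (lam (e i)) w) ≤ 1 * B := by
        gcongr
        · exact hinv1 j i
        · exact hw i
    _ = B := one_mul B

/-- nonarchimedean bound for a determinant with entries of absolute value `≤ 1` -/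
theorem abv_det_le_one {r : ℕ} (hna : IsNonarchimedean abv) (A : Matrix (Fin r) (Fin r) Ω)
    (hA : ∀ i j, abv (A i j) ≤ 1) : abv A.det ≤ 1 := by
  rw [Matrix.det_apply]
  refine abv_sum_le_of_forall_le abv hna _ _ zero_le_one fun σ _ => ?_
  have h1 : abv (Equiv.Perm.sign σ • ∏ i, A (σ i) i) = abv (∏ i, A (σ i) i) := by
    rcases Int.units_eq_one_or (Equiv.Perm.sign σ) with h | h <;> simp [h]
  rw [h1, map_prod]
  exact Finset.prod_le_one (fun i _ => abv.nonneg _) fun i _ => hA _ _

/-- nonarchimedean: entries `≤ 1` and `|det| = 1` imply that the inverse has entries `≤ 1` -/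
theorem abv_inv_entry_le_one {r : ℕ} (hna : IsNonarchimedean abv)
    (A : Matrix (Fin r) (Fin r) Ω) (hA : ∀ i j, abv (A i j) ≤ 1) (hdet : abv A.det = 1)
    (j i : Fin r) : abv (A⁻¹ j i) ≤ 1 := by
  classical
  rw [Matrix.inv_def, Matrix.smul_apply, smul_eq_mul, abv.map_mul, Ring.inverse_eq_inv',
    map_inv₀, hdet, inv_one, one_mul, Matrix.adjugate_apply]
  refine abv_det_le_one abv hna _ fun k l => ?_
  rw [Matrix.updateRow_apply]
  split_ifs with h
  · by_cases hl : l = j
    · subst hl; simp
    · simp [hl]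
  · exact hA k l

/-- the set of indices `m` at which the functional `lam m` is `c`-small on `w` -/
noncomputable def smallSet {M r : ℕ} (lam : Fin M → Fin r → Ω) (c : ℝ) (w : Fin r → Ω) :
    Finset (Fin M) :=
  univ.filter fun m => abv (pair (lam m) w) < c * supN abv w

/-- the pigeonhole constant: `1 / (1 + Σ_e invSize e)` -/
noncomputable def phConst {M r : ℕ} (lam : Fin M → Fin r → Ω) : ℝ :=
  (1 + ∑ e : Fin r ↪ Fin M, invSize abv lam e)⁻¹

theorem phConst_pos {M r : ℕ} (lam : Fin M → Fin r → Ω) : 0 < phConst abv lam := by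
  unfold phConst
  have : 0 ≤ ∑ e : Fin r ↪ Fin M, invSize abv lam e :=
    sum_nonneg fun e _ => invSize_nonneg abv lam e
  positivity

theorem invSize_mul_phConst_lt_one {M r : ℕ} (lam : Fin M → Fin r → Ω) (e : Fin r ↪ Fin M) :
    invSize abv lam e * phConst abv lam < 1 := by
  unfold phConst
  have h0 : 0 ≤ ∑ e : Fin r ↪ Fin M, invSize abv lam e :=
    sum_nonneg fun e _ => invSize_nonneg abv lam e
  have h1 : invSize abv lam e ≤ ∑ e : Fin r ↪ Fin M, invSize abv lam e :=
    single_le_sum (f := fun e => invSize abv lam e) (fun e _ => invSize_nonneg abv lam e)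
      (mem_univ e)
  have hpos : 0 < 1 + ∑ e : Fin r ↪ Fin M, invSize abv lam e := by positivity
  rw [← div_eq_mul_inv, div_lt_one hpos]
  linarith

/-- **(PH), general form.** If any `r` of the functionals form a basis, then for every `w` at
most `r - 1` of them are `phConst`-small on `w`. -/
theorem card_smallSet_le {M r : ℕ} (lam : Fin M → Fin r → Ω)
    (hbasis : ∀ e : Fin r ↪ Fin M, (subMat lam e).det ≠ 0) (w : Fin r → Ω) :
    (smallSet abv lam (phConst abv lam) w).card ≤ r - 1 := by
  -- if the sup norm vanishes nothing is small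
  rcases (supN_nonneg abv w).lt_or_eq with hpos | h0
  swap
  · have : smallSet abv lam (phConst abv lam) w = ∅ := by
      refine Finset.eq_empty_of_forall_notMem fun m hm => ?_
      have hm' : abv (pair (lam m) w) < phConst abv lam * supN abv w := by
        simpa [smallSet] using hm
      rw [← h0, mul_zero] at hm'
      exact absurd hm' (not_lt.mpr (abv.nonneg _))
    simp [this]
  by_contra hcon
  have hr : r ≤ (smallSet abv lam (phConst abv lam) w).card := by omega
  -- an embedding of `Fin r` into the small set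
  obtain ⟨t, hts, htc⟩ := exists_subset_card_eq hr
  let e0 : Fin r ≃ t := (Fintype.equivFinOfCardEq (by simpa using htc)).symm
  let e : Fin r ↪ Fin M := ⟨fun i => (e0 i : Fin M), fun i j h => e0.injective (Subtype.ext h)⟩
  have hsmall : ∀ i, abv (pair (lam (e i)) w) < phConst abv lam * supN abv w := by
    intro i
    have : (e i) ∈ smallSet abv lam (phConst abv lam) w := hts (e0 i).2
    simpa [smallSet] using this
  have hB : 0 ≤ phConst abv lam * supN abv w :=
    mul_nonneg (phConst_pos abv lam).le (supN_nonneg abv w)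
  have h1 := supN_le_of_basis abv lam e (hbasis e) w hB fun i => (hsmall i).le
  have h2 : invSize abv lam e * (phConst abv lam * supN abv w) < supN abv w := by
    rw [← mul_assoc]
    calc invSize abv lam e * phConst abv lam * supN abv w < 1 * supN abv w := by
          gcongr
          exact invSize_mul_phConst_lt_one abv lam e
      _ = supN abv w := one_mul _
  exact absurd (h1.trans_lt h2) (lt_irrefl _)

/-- **(PH), nonarchimedean form with constant `1`.** -/
theorem card_smallSet_one_le_of_nonarch {M r : ℕ} (hna : IsNonarchimedean abv)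
    (lam : Fin M → Fin r → Ω)
    (hbasis : ∀ e : Fin r ↪ Fin M, (subMat lam e).det ≠ 0)
    (hinv1 : ∀ (e : Fin r ↪ Fin M) (j i : Fin r), abv ((subMat lam e)⁻¹ j i) ≤ 1)
    (w : Fin r → Ω) :
    (smallSet abv lam 1 w).card ≤ r - 1 := by
  rcases (supN_nonneg abv w).lt_or_eq with hpos | h0
  swap
  · have : smallSet abv lam 1 w = ∅ := by
      refine Finset.eq_empty_of_forall_notMem fun m hm => ?_
      have hm' : abv (pair (lam m) w) < 1 * supN abv w := by
        simpa [smallSet] using hm
      rw [← h0, mul_zero] at hm'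
      exact absurd hm' (not_lt.mpr (abv.nonneg _))
    simp [this]
  by_contra hcon
  have hr : r ≤ (smallSet abv lam 1 w).card := by omega
  obtain ⟨t, hts, htc⟩ := exists_subset_card_eq hr
  let e0 : Fin r ≃ t := (Fintype.equivFinOfCardEq (by simpa using htc)).symm
  let e : Fin r ↪ Fin M := ⟨fun i => (e0 i : Fin M), fun i j h => e0.injective (Subtype.ext h)⟩
  have hsmall : ∀ i, abv (pair (lam (e i)) w) < supN abv w := by
    intro i
    have : (e i) ∈ smallSet abv lam 1 w := hts (e0 i).2
    simpa [smallSet] using this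
  -- `r` is positive since the sup norm is
  have hr0 : 0 < r := by
    by_contra h0
    have hr' : r = 0 := by omega
    subst hr'
    have : supN abv w = 0 := by simp [supN]
    exact absurd this hpos.ne'
  have : Nonempty (Fin r) := ⟨⟨0, hr0⟩⟩
  obtain ⟨i0, hi0⟩ := exists_eq_ciSup_of_finite (f := fun i => abv (pair (lam (e i)) w))
  have hB0 : 0 ≤ ⨆ i, abv (pair (lam (e i)) w) := Real.iSup_nonneg fun i => abv.nonneg _
  have h1 := supN_le_of_basis_nonarch abv hna lam e (hbasis e) (hinv1 e) w hB0
    fun i => le_ciSup (f := fun i => abv (pair (lam (e i)) w)) (Finite.bddAbove_range _) i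
  rw [← hi0] at h1
  exact absurd (h1.trans_lt (hsmall i0)) (lt_irrefl _)

/-- **Corollary of (PH): one functional is large on `d` given vectors.** If for every vector at
most `r - 1` indices are `c`-small and `(r - 1) * d < M`, then for any `d` vectors there is ONE
index `m` such that `c * ‖w k‖ ≤ |⟨lam m, w k⟩|` for all `k`. -/
theorem exists_index_large {M r d : ℕ} (lam : Fin M → Fin r → Ω) (c : ℝ)
    (hcard : ∀ w : Fin r → Ω, (smallSet abv lam c w).card ≤ r - 1)
    (hM : (r - 1) * d < M) (w : Fin d → Fin r → Ω) :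
    ∃ m : Fin M, ∀ k, c * supN abv (w k) ≤ abv (pair (lam m) (w k)) := by
  classical
  by_contra hcon
  push Not at hcon
  have hcover : (univ : Finset (Fin M)) ⊆ univ.biUnion fun k => smallSet abv lam c (w k) := by
    intro m _
    obtain ⟨k, hk⟩ := hcon m
    exact mem_biUnion.mpr ⟨k, mem_univ k, by simpa [smallSet] using hk⟩
  have h1 := card_le_card hcover
  have h2 : (univ.biUnion fun k => smallSet abv lam c (w k)).card ≤ ∑ _k : Fin d, (r - 1) :=
    card_biUnion_le.trans (sum_le_sum fun k _ => hcard (w k))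
  simp at h1 h2
  have : M ≤ d * (r - 1) := h1.trans h2
  rw [mul_comm] at this
  omega

/-- **(PH) + corollary, packaged.** -/
theorem exists_const_forall_exists_index {M r d : ℕ} (lam : Fin M → Fin r → Ω)
    (hbasis : ∀ e : Fin r ↪ Fin M, (subMat lam e).det ≠ 0) (hM : (r - 1) * d < M) :
    ∃ c0 : ℝ, 0 < c0 ∧ ∀ w : Fin d → Fin r → Ω,
      ∃ m : Fin M, ∀ k, c0 * supN abv (w k) ≤ abv (pair (lam m) (w k)) :=
  ⟨phConst abv lam, phConst_pos abv lam, fun w =>
    exists_index_large abv lam _ (card_smallSet_le abv lam hbasis) hM w⟩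

/-- nonarchimedean packaged form, constant `1` -/
theorem forall_exists_index_of_nonarch {M r d : ℕ} (hna : IsNonarchimedean abv)
    (lam : Fin M → Fin r → Ω)
    (hbasis : ∀ e : Fin r ↪ Fin M, (subMat lam e).det ≠ 0)
    (hinv1 : ∀ (e : Fin r ↪ Fin M) (j i : Fin r), abv ((subMat lam e)⁻¹ j i) ≤ 1)
    (hM : (r - 1) * d < M) (w : Fin d → Fin r → Ω) :
    ∃ m : Fin M, ∀ k, supN abv (w k) ≤ abv (pair (lam m) (w k)) := by
  obtain ⟨m, hm⟩ := exists_index_large abv lam 1
    (card_smallSet_one_le_of_nonarch abv hna lam hbasis hinv1) hM w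
  exact ⟨m, fun k => by simpa using hm k⟩

end Fermat.Agent.S17.Local
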