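import Fermat.Agent.S17.Local.Star

/-!
# S17 / Local layer: THEOREM A (abstract) indexed by a finite set of zeros WITH MULTIPLICITIES

The consumers (norm form `∏ v ∈ Z, (t - t(v)) ^ ord_v φ`, identity `(N')`) index the zeros of a
form by a `Finset` of places together with a multiplicity function.  This file converts the
`Fin d`-indexed statements of `Star.lean` into that shape: `Z : Finset X`, `mult : X → ℕ` with
`∑ R ∈ Z, mult R = d`.
-/

namespace Fermat.Agent.S17.Local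

open Finset

section Enum

variable {X : Type*}

theorem card_sigma_fin (Z : Finset X) (mult : X → ℕ) {d : ℕ} (hd : ∑ R ∈ Z, mult R = d) :
    Fintype.card (Σ R : Z, Fin (mult R)) = d := by
  rw [Fintype.card_sigma]
  simp only [Fintype.card_fin]
  rw [← hd]
  exact Finset.sum_coe_sort Z mult

/-- an enumeration `Fin d → X` of the points of `Z`, each `R` repeated `mult R` times -/
noncomputable def enumZ (Z : Finset X) (mult : X → ℕ) {d : ℕ} (hd : ∑ R ∈ Z, mult R = d) :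
    Fin d → X :=
  fun k => ((Fintype.equivFinOfCardEq (card_sigma_fin Z mult hd)).symm k).1

theorem enumZ_mem (Z : Finset X) (mult : X → ℕ) {d : ℕ} (hd : ∑ R ∈ Z, mult R = d) (k : Fin d) :
    enumZ Z mult hd k ∈ Z :=
  ((Fintype.equivFinOfCardEq (card_sigma_fin Z mult hd)).symm k).1.2

theorem prod_enumZ {A : Type*} [CommMonoid A] (Z : Finset X) (mult : X → ℕ) {d : ℕ}
    (hd : ∑ R ∈ Z, mult R = d) (f : X → A) :
    ∏ k, f (enumZ Z mult hd k) = ∏ R ∈ Z, f R ^ mult R := by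
  unfold enumZ
  rw [Equiv.prod_comp (Fintype.equivFinOfCardEq (card_sigma_fin Z mult hd)).symm
    (fun i : (Σ R : Z, Fin (mult R)) => f i.1.1), Fintype.prod_sigma]
  simp only [prod_const, card_univ, Fintype.card_fin]
  exact Finset.prod_coe_sort Z fun R => f R ^ mult R

theorem sum_enumZ {A : Type*} [AddCommMonoid A] (Z : Finset X) (mult : X → ℕ) {d : ℕ}
    (hd : ∑ R ∈ Z, mult R = d) (f : X → A) :
    ∑ k, f (enumZ Z mult hd k) = ∑ R ∈ Z, mult R • f R := by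
  unfold enumZ
  rw [Equiv.sum_comp (Fintype.equivFinOfCardEq (card_sigma_fin Z mult hd)).symm
    (fun i : (Σ R : Z, Fin (mult R)) => f i.1.1), Fintype.sum_sigma]
  simp only [sum_const, card_univ, Fintype.card_fin]
  exact Finset.sum_coe_sort Z fun R => mult R • f R

end Enum

variable {Ω : Type*} [Field Ω] (abv : AbsoluteValue Ω ℝ)

/-- **THEOREM A (abstract), two-sided, zeros indexed by a finite set with multiplicities.** -/
theorem star_two_sided_mult {X : Type*} {M r d : ℕ} (lam : Fin M → Fin r → Ω)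
    {U L l g c0 : ℝ} (hU : 0 < U) (hL : 0 < L) (hl : 0 < l) (hg : 0 < g) (hc0 : 0 < c0)
    (hcard : ∀ w : Fin r → Ω, (smallSet abv lam c0 w).card ≤ r - 1) (hM : (r - 1) * d < M)
    (Z : Finset X) (mult : X → ℕ) (hd : ∑ R ∈ Z, mult R = d)
    (w : X → Fin r → Ω) (nzX : X → ℝ) (hnz : ∀ R ∈ Z, 0 < nzX R)
    {nzP na : ℝ} (hnzP : 0 < nzP) (hna : 0 < na) (amu : Ω)
    (Phi cm : Fin M → Ω) (Nn : Fin M → ℝ) (nyX : Fin M → X → ℝ) (hny : ∀ m, ∀ R ∈ Z, 0 < nyX m R)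
    (hN : ∀ m, amu * Phi m = cm m * ∏ R ∈ Z, pair (lam m) (w R) ^ mult R)
    (hG_le : ∀ m, Nn m ≤ g * (abv (cm m) * ∏ R ∈ Z, nyX m R ^ mult R))
    (hG_ge : ∀ m, abv (cm m) * ∏ R ∈ Z, nyX m R ^ mult R ≤ g * Nn m)
    (hU_Phi : ∀ m, abv (Phi m) ≤ U * na ^ (d - 1) * nzP ^ (d - 1))
    (hU_y : ∀ m, ∀ R ∈ Z, nyX m R ≤ U * nzX R)
    (hU_N : ∀ m, Nn m ≤ U * na ^ d)
    (hU_pair : ∀ m, ∀ R ∈ Z, abv (pair (lam m) (w R)) ≤ U * supN abv (w R))
    (hL1 : ∀ m, ∀ R ∈ Z, nzX R ≤ L * nyX m R)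
    (hL2 : ∀ m, l * na ^ d ≤ Nn m)
    (hL3 : ∃ m, l * na ^ (d - 1) * nzP ^ (d - 1) ≤ abv (Phi m)) (hd0 : 0 < d) :
    l * c0 ^ d / (g * U ^ (d + 1)) *
        (na * (∏ R ∈ Z, (supN abv (w R) / nzX R) ^ mult R) / nzP ^ (d - 1)) ≤ abv amu ∧
      abv amu ≤ g * U ^ (d + 1) * L ^ d / l *
        (na * (∏ R ∈ Z, (supN abv (w R) / nzX R) ^ mult R) / nzP ^ (d - 1)) := by
  have hmem := enumZ_mem Z mult hd
  have key := star_two_sided abv lam hU hL hl hg hc0 hcard hM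
    (fun k => w (enumZ Z mult hd k)) (fun k => nzX (enumZ Z mult hd k))
    (fun k => hnz _ (hmem k)) hnzP hna amu Phi cm Nn (fun m k => nyX m (enumZ Z mult hd k))
    (fun m k => hny m _ (hmem k))
    (fun m => by rw [prod_enumZ Z mult hd fun R => pair (lam m) (w R)]; exact hN m)
    (fun m => by rw [prod_enumZ Z mult hd fun R => nyX m R]; exact hG_le m)
    (fun m => by rw [prod_enumZ Z mult hd fun R => nyX m R]; exact hG_ge m)
    hU_Phi (fun m k => hU_y m _ (hmem k)) hU_N (fun m k => hU_pair m _ (hmem k))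
    (fun m k => hL1 m _ (hmem k)) hL2 hL3 hd0
  have hS : starS abv (fun k => w (enumZ Z mult hd k)) (fun k => nzX (enumZ Z mult hd k)) =
      ∏ R ∈ Z, (supN abv (w R) / nzX R) ^ mult R := by
    unfold starS
    exact prod_enumZ Z mult hd fun R => supN abv (w R) / nzX R
  rw [hS] at key
  exact key

/-- **THEOREM A at an unexceptional place**, multiplicity-indexed: EQUALITY. -/
theorem star_eq_of_consts_one_mult {X : Type*} {M r d : ℕ} (lam : Fin M → Fin r → Ω)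
    (hcard : ∀ w : Fin r → Ω, (smallSet abv lam 1 w).card ≤ r - 1) (hM : (r - 1) * d < M)
    (Z : Finset X) (mult : X → ℕ) (hd : ∑ R ∈ Z, mult R = d)
    (w : X → Fin r → Ω) (nzX : X → ℝ) (hnz : ∀ R ∈ Z, 0 < nzX R)
    {nzP na : ℝ} (hnzP : 0 < nzP) (hna : 0 < na) (amu : Ω)
    (Phi cm : Fin M → Ω) (Nn : Fin M → ℝ) (nyX : Fin M → X → ℝ) (hny : ∀ m, ∀ R ∈ Z, 0 < nyX m R)
    (hN : ∀ m, amu * Phi m = cm m * ∏ R ∈ Z, pair (lam m) (w R) ^ mult R)
    (hG : ∀ m, Nn m = abv (cm m) * ∏ R ∈ Z, nyX m R ^ mult R)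
    (hU_Phi : ∀ m, abv (Phi m) ≤ na ^ (d - 1) * nzP ^ (d - 1))
    (hU_N : ∀ m, Nn m ≤ na ^ d)
    (hU_pair : ∀ m, ∀ R ∈ Z, abv (pair (lam m) (w R)) ≤ supN abv (w R))
    (hL1 : ∀ m, ∀ R ∈ Z, nzX R = nyX m R)
    (hL2 : ∀ m, na ^ d ≤ Nn m)
    (hL3 : ∃ m, na ^ (d - 1) * nzP ^ (d - 1) ≤ abv (Phi m)) (hd0 : 0 < d) :
    abv amu = na * (∏ R ∈ Z, (supN abv (w R) / nzX R) ^ mult R) / nzP ^ (d - 1) := by
  obtain ⟨h1, h2⟩ := star_two_sided_mult abv lam (U := 1) (L := 1) (l := 1) (g := 1) (c0 := 1)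
    one_pos one_pos one_pos one_pos one_pos hcard hM Z mult hd w nzX hnz hnzP hna amu Phi cm Nn
    nyX hny hN
    (fun m => by rw [one_mul, hG m]) (fun m => by rw [one_mul, hG m])
    (fun m => by simpa using hU_Phi m) (fun m R hR => by rw [one_mul, hL1 m R hR])
    (fun m => by simpa using hU_N m) (fun m R hR => by simpa using hU_pair m R hR)
    (fun m R hR => by rw [one_mul, hL1 m R hR]) (fun m => by simpa using hL2 m)
    (by simpa using hL3) hd0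
  simp only [one_pow, mul_one, div_one, one_mul] at h1 h2
  exact le_antisymm h2 h1

/-- the logarithm of the main term, multiplicity-indexed -/
theorem log_star_main_mult {X : Type*} {r d : ℕ} (Z : Finset X) (mult : X → ℕ)
    (w : X → Fin r → Ω) (nzX : X → ℝ) (hnz : ∀ R ∈ Z, 0 < nzX R)
    (hW : ∀ R ∈ Z, 0 < supN abv (w R)) {nzP na : ℝ} (hnzP : 0 < nzP) (hna : 0 < na) :
    Real.log (na * (∏ R ∈ Z, (supN abv (w R) / nzX R) ^ mult R) / nzP ^ (d - 1)) =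
      Real.log na + ∑ R ∈ Z, (mult R : ℝ) * (Real.log (supN abv (w R)) - Real.log (nzX R)) -
        ((d - 1 : ℕ) : ℝ) * Real.log nzP := by
  have hS : 0 < ∏ R ∈ Z, (supN abv (w R) / nzX R) ^ mult R :=
    prod_pos fun R hR => pow_pos (div_pos (hW R hR) (hnz R hR)) _
  rw [Real.log_div (mul_pos hna hS).ne' (pow_pos hnzP _).ne', Real.log_mul hna.ne' hS.ne',
    Real.log_pow, Real.log_prod fun R hR => (pow_pos (div_pos (hW R hR) (hnz R hR)) _).ne']
  congr 2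
  refine sum_congr rfl fun R hR => ?_
  rw [Real.log_pow, Real.log_div (hW R hR).ne' (hnz R hR).ne']

/-- **THEOREM A (abstract), logarithmic form, multiplicity-indexed (A.14).** -/
theorem star_log_mult {X : Type*} {M r d : ℕ} (lam : Fin M → Fin r → Ω)
    {U L l g c0 : ℝ} (hU : 0 < U) (hL : 0 < L) (hl : 0 < l) (hg : 0 < g) (hc0 : 0 < c0)
    (hcard : ∀ w : Fin r → Ω, (smallSet abv lam c0 w).card ≤ r - 1) (hM : (r - 1) * d < M)
    (Z : Finset X) (mult : X → ℕ) (hd : ∑ R ∈ Z, mult R = d)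
    (w : X → Fin r → Ω) (hW : ∀ R ∈ Z, 0 < supN abv (w R))
    (nzX : X → ℝ) (hnz : ∀ R ∈ Z, 0 < nzX R)
    {nzP na : ℝ} (hnzP : 0 < nzP) (hna : 0 < na) (amu : Ω)
    (Phi cm : Fin M → Ω) (Nn : Fin M → ℝ) (nyX : Fin M → X → ℝ) (hny : ∀ m, ∀ R ∈ Z, 0 < nyX m R)
    (hN : ∀ m, amu * Phi m = cm m * ∏ R ∈ Z, pair (lam m) (w R) ^ mult R)
    (hG_le : ∀ m, Nn m ≤ g * (abv (cm m) * ∏ R ∈ Z, nyX m R ^ mult R))
    (hG_ge : ∀ m, abv (cm m) * ∏ R ∈ Z, nyX m R ^ mult R ≤ g * Nn m)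
    (hU_Phi : ∀ m, abv (Phi m) ≤ U * na ^ (d - 1) * nzP ^ (d - 1))
    (hU_y : ∀ m, ∀ R ∈ Z, nyX m R ≤ U * nzX R)
    (hU_N : ∀ m, Nn m ≤ U * na ^ d)
    (hU_pair : ∀ m, ∀ R ∈ Z, abv (pair (lam m) (w R)) ≤ U * supN abv (w R))
    (hL1 : ∀ m, ∀ R ∈ Z, nzX R ≤ L * nyX m R)
    (hL2 : ∀ m, l * na ^ d ≤ Nn m)
    (hL3 : ∃ m, l * na ^ (d - 1) * nzP ^ (d - 1) ≤ abv (Phi m)) (hd0 : 0 < d) :
    |Real.log (abv amu) - (Real.log na +
        ∑ R ∈ Z, (mult R : ℝ) * (Real.log (supN abv (w R)) - Real.log (nzX R)) -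
        ((d - 1 : ℕ) : ℝ) * Real.log nzP)| ≤
      max (-Real.log (l * c0 ^ d / (g * U ^ (d + 1))))
        (Real.log (g * U ^ (d + 1) * L ^ d / l)) := by
  obtain ⟨h1, h2⟩ := star_two_sided_mult abv lam hU hL hl hg hc0 hcard hM Z mult hd w nzX hnz
    hnzP hna amu Phi cm Nn nyX hny hN hG_le hG_ge hU_Phi hU_y hU_N hU_pair hL1 hL2 hL3 hd0
  rw [← log_star_main_mult abv Z mult w nzX hnz hW hnzP hna]
  refine abs_log_sub_log_le (by positivity) ?_ h1 h2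
  exact div_pos (mul_pos hna (prod_pos fun R hR => pow_pos (div_pos (hW R hR) (hnz R hR)) _))
    (pow_pos hnzP _)

end Fermat.Agent.S17.Local
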