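import Fermat.Agent.S17.Local.BinaryGauss
import Fermat.Agent.S17.Local.StarMult

/-!
# S17 / Local layer: Gauss / Mahler for a norm form `c ∏_{R ∈ Z} (α_R T + β_R)^(m_R)`

Multiplicity-indexed versions of `BinaryGauss.lean`, with a leading constant, in exactly the
shape of the hypotheses `hG_le`, `hG_ge` of `star_two_sided_mult`:
`Nn = cN abv (C c * ∏ R ∈ Z, (C (α R) * X + C (β R)) ^ mult R)`, `ny R = max |α R| |β R|`,
`g = gaussConst abv d` (`= 1` for a nonarchimedean absolute value).
-/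

namespace Fermat.Agent.S17.Local

open Polynomial Finset

variable {Ω : Type*} [Field Ω] (abv : AbsoluteValue Ω ℝ)

theorem cN_C_mul (c : Ω) (p : Polynomial Ω) : cN abv (C c * p) = abv c * cN abv p := by
  unfold cN
  simp only [coeff_C_mul, abv.map_mul]
  exact (Real.mul_iSup_of_nonneg (abv.nonneg c) _).symm

/-- for a polynomial of degree `≤ d` the sup over all coefficients is the sup over the first
`d + 1` of them -/
theorem cN_eq_iSup_fin {p : Polynomial Ω} {d : ℕ} (hp : p.natDegree ≤ d) :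
    cN abv p = ⨆ k : Fin (d + 1), abv (p.coeff k) := by
  refine le_antisymm (cN_le abv p (Real.iSup_nonneg fun _ => abv.nonneg _) fun n => ?_)
    (Real.iSup_le (fun k => le_cN abv p k) (cN_nonneg abv p))
  by_cases hn : n < d + 1
  · exact le_ciSup (f := fun k : Fin (d + 1) => abv (p.coeff k)) (Finite.bddAbove_range _) ⟨n, hn⟩
  · rw [coeff_eq_zero_of_natDegree_lt (by omega), abv.map_zero]
    exact Real.iSup_nonneg fun _ => abv.nonneg _

theorem cN_pow_of_nonarch (hna : IsNonarchimedean abv) (p : Polynomial Ω) (n : ℕ) :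
    cN abv (p ^ n) = cN abv p ^ n := by
  induction n with
  | zero => simp [cN_one]
  | succ n ih => rw [pow_succ, pow_succ, cN_mul_of_nonarch abv hna, ih]

/-- the product with multiplicities is a `linProd` over the enumeration `enumZ` -/
theorem prod_pow_eq_linProd {ι : Type*} (Z : Finset ι) (mult : ι → ℕ) {d : ℕ}
    (hd : ∑ R ∈ Z, mult R = d) (al be : ι → Ω) :
    ∏ R ∈ Z, (C (al R) * X + C (be R) : Polynomial Ω) ^ mult R =
      linProd (fun k => al (enumZ Z mult hd k)) (fun k => be (enumZ Z mult hd k)) := by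
  unfold linProd
  exact (prod_enumZ Z mult hd fun R => (C (al R) * X + C (be R) : Polynomial Ω)).symm

theorem natDegree_prod_pow_le {ι : Type*} (Z : Finset ι) (mult : ι → ℕ) {d : ℕ}
    (hd : ∑ R ∈ Z, mult R = d) (c : Ω) (al be : ι → Ω) :
    (C c * ∏ R ∈ Z, (C (al R) * X + C (be R) : Polynomial Ω) ^ mult R).natDegree ≤ d := by
  rw [prod_pow_eq_linProd Z mult hd]
  exact (natDegree_C_mul_le _ _).trans (natDegree_linProd_le _ _)

/-- **Gauss' lemma**, multiplicity-indexed, with a constant factor -/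
theorem cN_prodMult_of_nonarch (hna : IsNonarchimedean abv) {ι : Type*} (c : Ω) (Z : Finset ι)
    (mult : ι → ℕ) (al be : ι → Ω) :
    cN abv (C c * ∏ R ∈ Z, (C (al R) * X + C (be R) : Polynomial Ω) ^ mult R) =
      abv c * ∏ R ∈ Z, max (abv (al R)) (abv (be R)) ^ mult R := by
  rw [cN_C_mul, cN_prod_of_nonarch abv hna]
  congr 1
  exact prod_congr rfl fun R _ => by rw [cN_pow_of_nonarch abv hna, cN_linear]

section arch

variable (φ : Ω →+* ℂ) (hφ : ∀ x, abv x = ‖φ x‖)

include hφ in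
/-- **Mahler / Gelfond, upper half**, multiplicity-indexed -/
theorem cN_prodMult_le_of_arch {ι : Type*} (c : Ω) (Z : Finset ι) (mult : ι → ℕ) {d : ℕ}
    (hd : ∑ R ∈ Z, mult R = d) (al be : ι → Ω) :
    cN abv (C c * ∏ R ∈ Z, (C (al R) * X + C (be R) : Polynomial Ω) ^ mult R) ≤
      2 ^ d * (abv c * ∏ R ∈ Z, max (abv (al R)) (abv (be R)) ^ mult R) := by
  rw [cN_C_mul, prod_pow_eq_linProd Z mult hd,
    ← prod_enumZ Z mult hd fun R => max (abv (al R)) (abv (be R))]
  calc abv c * cN abv (linProd (fun k => al (enumZ Z mult hd k)) fun k => be (enumZ Z mult hd k))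
      ≤ abv c * (2 ^ d * ∏ k, max (abv (al (enumZ Z mult hd k))) (abv (be (enumZ Z mult hd k)))) :=
        mul_le_mul_of_nonneg_left (cN_linProd_le_of_arch abv φ hφ _ _) (abv.nonneg c)
    _ = 2 ^ d * (abv c *
          ∏ k, max (abv (al (enumZ Z mult hd k))) (abv (be (enumZ Z mult hd k)))) := by ring

include hφ in
/-- **Mahler / Gelfond, lower half**, multiplicity-indexed -/
theorem prodMult_max_le_of_arch {ι : Type*} (c : Ω) (Z : Finset ι) (mult : ι → ℕ) {d : ℕ}
    (hd : ∑ R ∈ Z, mult R = d) (al be : ι → Ω) :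
    abv c * ∏ R ∈ Z, max (abv (al R)) (abv (be R)) ^ mult R ≤
      √(d + 1) * cN abv (C c * ∏ R ∈ Z, (C (al R) * X + C (be R) : Polynomial Ω) ^ mult R) := by
  rw [cN_C_mul, prod_pow_eq_linProd Z mult hd,
    ← prod_enumZ Z mult hd fun R => max (abv (al R)) (abv (be R))]
  calc abv c * ∏ k, max (abv (al (enumZ Z mult hd k))) (abv (be (enumZ Z mult hd k)))
      ≤ abv c * (√(d + 1) *
          cN abv (linProd (fun k => al (enumZ Z mult hd k)) fun k => be (enumZ Z mult hd k))) :=
        mul_le_mul_of_nonneg_left (prod_max_le_of_arch abv φ hφ _ _) (abv.nonneg c)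
    _ = √(d + 1) * (abv c *
          cN abv (linProd (fun k => al (enumZ Z mult hd k)) fun k => be (enumZ Z mult hd k))) := by
        ring

end arch

open Classical in
/-- the Gauss constant of an absolute value in degree `d`: `1` in the nonarchimedean case,
`max (2^d) √(d+1)` otherwise -/
noncomputable def gaussConst (d : ℕ) : ℝ :=
  if IsNonarchimedean abv then 1 else max (2 ^ d) (√(d + 1))

theorem gaussConst_of_nonarch (hna : IsNonarchimedean abv) (d : ℕ) : gaussConst abv d = 1 := by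
  unfold gaussConst
  exact if_pos hna

theorem one_le_gaussConst (d : ℕ) : 1 ≤ gaussConst abv d := by
  unfold gaussConst
  split_ifs
  · exact le_rfl
  · exact le_max_of_le_left (one_le_pow₀ one_le_two)

theorem gaussConst_pos (d : ℕ) : 0 < gaussConst abv d :=
  lt_of_lt_of_le one_pos (one_le_gaussConst abv d)

/-- **(G), trivial direction**, for an absolute value that is nonarchimedean or comes from a
complex embedding: `hG_le` of `star_two_sided_mult` -/
theorem cN_prodMult_le (h : IsNonarchimedean abv ∨ ∃ φ : Ω →+* ℂ, ∀ x, abv x = ‖φ x‖)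
    {ι : Type*} (c : Ω) (Z : Finset ι) (mult : ι → ℕ) {d : ℕ}
    (hd : ∑ R ∈ Z, mult R = d) (al be : ι → Ω) :
    cN abv (C c * ∏ R ∈ Z, (C (al R) * X + C (be R) : Polynomial Ω) ^ mult R) ≤
      gaussConst abv d * (abv c * ∏ R ∈ Z, max (abv (al R)) (abv (be R)) ^ mult R) := by
  by_cases hna : IsNonarchimedean abv
  · rw [gaussConst_of_nonarch abv hna, one_mul, cN_prodMult_of_nonarch abv hna]
  · obtain ⟨φ, hφ⟩ := h.resolve_left hna
    refine (cN_prodMult_le_of_arch abv φ hφ c Z mult hd al be).trans ?_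
    have h0 : 0 ≤ abv c * ∏ R ∈ Z, max (abv (al R)) (abv (be R)) ^ mult R :=
      mul_nonneg (abv.nonneg c) (prod_nonneg fun R _ =>
        pow_nonneg (le_max_of_le_left (abv.nonneg _)) _)
    refine mul_le_mul_of_nonneg_right ?_ h0
    unfold gaussConst
    rw [if_neg hna]
    exact le_max_left _ _

/-- **(G), Gauss proper**: `hG_ge` of `star_two_sided_mult` -/
theorem prodMult_le_cN (h : IsNonarchimedean abv ∨ ∃ φ : Ω →+* ℂ, ∀ x, abv x = ‖φ x‖)
    {ι : Type*} (c : Ω) (Z : Finset ι) (mult : ι → ℕ) {d : ℕ}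
    (hd : ∑ R ∈ Z, mult R = d) (al be : ι → Ω) :
    abv c * ∏ R ∈ Z, max (abv (al R)) (abv (be R)) ^ mult R ≤
      gaussConst abv d *
        cN abv (C c * ∏ R ∈ Z, (C (al R) * X + C (be R) : Polynomial Ω) ^ mult R) := by
  by_cases hna : IsNonarchimedean abv
  · rw [gaussConst_of_nonarch abv hna, one_mul, cN_prodMult_of_nonarch abv hna]
  · obtain ⟨φ, hφ⟩ := h.resolve_left hna
    refine (prodMult_max_le_of_arch abv φ hφ c Z mult hd al be).trans ?_
    refine mul_le_mul_of_nonneg_right ?_ (cN_nonneg abv _)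
    unfold gaussConst
    rw [if_neg hna]
    exact le_max_right _ _

/-- homogeneous evaluation of the norm form: if `p = C c * ∏ (C (α R) * X + C (β R))^(m_R)` then
`Σ_n p_n y₀^(d-n) y₁^n = c ∏ (α R y₁ + β R y₀)^(m_R)` -/
theorem sum_coeff_prodMult_hom {ι : Type*} (c : Ω) (Z : Finset ι) (mult : ι → ℕ) {d : ℕ}
    (hd : ∑ R ∈ Z, mult R = d) (al be : ι → Ω) (y0 y1 : Ω) :
    ∑ n ∈ range (d + 1),
        (C c * ∏ R ∈ Z, (C (al R) * X + C (be R) : Polynomial Ω) ^ mult R).coeff n *
          y0 ^ (d - n) * y1 ^ n =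
      c * ∏ R ∈ Z, (al R * y1 + be R * y0) ^ mult R := by
  rw [prod_pow_eq_linProd Z mult hd, ← prod_enumZ Z mult hd fun R => al R * y1 + be R * y0,
    ← sum_coeff_linProd_hom, mul_sum]
  refine sum_congr rfl fun n _ => ?_
  rw [coeff_C_mul]
  ring

end Fermat.Agent.S17.Local
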