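/-
PROJECT H (S17), scratch slice (helper4): the chordal distance on coordinate vectors, for ONE
absolute value on a field (item (A-tri) of Part B, B.1, and the separation step of B.7 / B.12).

`nrm abv x = sup_i |x_i|`, `wedge x y = (x_i y_j - x_j y_i)_{(i,j)}`,
`chord abv x y = ‖x ∧ y‖ / (‖x‖ ‖y‖)`.

* `chord_le_max_of_nonarch` : the ultrametric inequality `d(x,z) ≤ max (d(x,y)) (d(y,z))`;
* `chord_le_add`            : `d(x,z) ≤ 2 d(x,y) + d(y,z)` for every absolute value;
* `exists_far_family`       : if two families are pairwise `ρ`-separated then every point is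
  `ρ/3`-far (nonarchimedean: `ρ`-far) from ALL members of one of them.

Mathlib only.
-/
import Mathlib

set_option autoImplicit false
set_option linter.unusedSectionVars false

namespace Fermat.Agent.S17.Local.Chordal

variable {Om : Type*} [Field Om] (abv : AbsoluteValue Om ℝ) {ι : Type*} [Finite ι]

/-- the sup norm of a coordinate vector -/
noncomputable def nrm (x : ι → Om) : ℝ := ⨆ i, abv (x i)

theorem le_nrm (x : ι → Om) (i : ι) : abv (x i) ≤ nrm abv x :=
  le_ciSup (Set.finite_range fun i => abv (x i)).bddAbove i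

theorem nrm_nonneg (x : ι → Om) : 0 ≤ nrm abv x :=
  Real.iSup_nonneg fun i => abv.nonneg (x i)

theorem nrm_le {x : ι → Om} {B : ℝ} (hB : 0 ≤ B) (h : ∀ i, abv (x i) ≤ B) : nrm abv x ≤ B :=
  Real.iSup_le h hB

theorem exists_eq_nrm [Nonempty ι] (x : ι → Om) : ∃ i, abv (x i) = nrm abv x :=
  exists_eq_ciSup_of_finite

theorem nrm_eq_zero_iff {x : ι → Om} : nrm abv x = 0 ↔ x = 0 := by
  constructor
  · intro h
    funext i
    have h1 := le_nrm abv x i
    rw [h] at h1
    exact (abv.eq_zero).mp (le_antisymm h1 (abv.nonneg _))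
  · rintro rfl
    refine le_antisymm (nrm_le abv le_rfl fun i => ?_) (nrm_nonneg abv _)
    simp

theorem nrm_pos_iff {x : ι → Om} : 0 < nrm abv x ↔ x ≠ 0 := by
  rw [lt_iff_le_and_ne, ne_comm, Ne, nrm_eq_zero_iff]
  exact ⟨fun h => h.2, fun h => ⟨nrm_nonneg abv x, h⟩⟩

theorem nrm_smul (c : Om) (x : ι → Om) : nrm abv (c • x) = abv c * nrm abv x := by
  refine le_antisymm (nrm_le abv (mul_nonneg (abv.nonneg _) (nrm_nonneg abv _)) fun i => ?_) ?_
  · rw [Pi.smul_apply, smul_eq_mul, map_mul]
    exact mul_le_mul_of_nonneg_left (le_nrm abv x i) (abv.nonneg _)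
  · by_cases hc : c = 0
    · subst hc
      simp [nrm_nonneg]
    have hc' : 0 < abv c := abv.pos hc
    rw [← le_div_iff₀' hc']
    refine nrm_le abv (div_nonneg (nrm_nonneg abv _) hc'.le) fun i => ?_
    rw [le_div_iff₀' hc', ← map_mul]
    exact le_nrm abv (c • x) i

omit [Finite ι] in
theorem abv_sub_le_add (a b : Om) : abv (a - b) ≤ abv a + abv b := by
  rw [sub_eq_add_neg]
  exact (abv.add_le a (-b)).trans_eq (by rw [abv.map_neg])

/-- the Plücker coordinates of the line through `x` and `y` -/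
def wedge (x y : ι → Om) : ι × ι → Om := fun p => x p.1 * y p.2 - x p.2 * y p.1

omit [Finite ι] in
@[simp]
theorem wedge_apply (x y : ι → Om) (i j : ι) : wedge x y (i, j) = x i * y j - x j * y i := rfl

omit [Finite ι] in
@[simp]
theorem wedge_self (x : ι → Om) : wedge x x = 0 := by
  funext p
  simp [wedge, mul_comm]

omit [Finite ι] in
theorem wedge_comm (x y : ι → Om) : wedge y x = -wedge x y := by
  funext p
  simp only [wedge, Pi.neg_apply]
  ring

omit [Finite ι] in
theorem wedge_smul_left (c : Om) (x y : ι → Om) : wedge (c • x) y = c • wedge x y := by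
  funext p
  simp only [wedge, Pi.smul_apply, smul_eq_mul]
  ring

omit [Finite ι] in
theorem wedge_smul_right (c : Om) (x y : ι → Om) : wedge x (c • y) = c • wedge x y := by
  funext p
  simp only [wedge, Pi.smul_apply, smul_eq_mul]
  ring

omit [Finite ι] in
/-- the three-term Plücker identity -/
theorem plucker3 (x y z : ι → Om) (i j k : ι) :
    y k * wedge x z (i, j)
      = z j * wedge x y (i, k) - z i * wedge x y (j, k) + x k * wedge y z (i, j) := by
  simp only [wedge_apply]
  ring

/-- the chordal distance of two coordinate vectors (`0` if one of them is `0`) -/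
noncomputable def chord (x y : ι → Om) : ℝ := nrm abv (wedge x y) / (nrm abv x * nrm abv y)

theorem chord_nonneg (x y : ι → Om) : 0 ≤ chord abv x y :=
  div_nonneg (nrm_nonneg abv _) (mul_nonneg (nrm_nonneg abv _) (nrm_nonneg abv _))

theorem nrm_neg (x : ι → Om) : nrm abv (-x) = nrm abv x := by
  unfold nrm
  simp only [Pi.neg_apply, AbsoluteValue.map_neg]

theorem chord_comm (x y : ι → Om) : chord abv x y = chord abv y x := by
  unfold chord
  rw [wedge_comm y x, nrm_neg, mul_comm]

@[simp]
theorem chord_self (x : ι → Om) : chord abv x x = 0 := by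
  unfold chord
  rw [wedge_self, (nrm_eq_zero_iff abv).mpr rfl, zero_div]

theorem chord_smul_left {c : Om} (hc : c ≠ 0) (x y : ι → Om) :
    chord abv (c • x) y = chord abv x y := by
  unfold chord
  rw [wedge_smul_left, nrm_smul, nrm_smul, mul_assoc]
  exact mul_div_mul_left _ _ (abv.pos hc).ne'

theorem chord_smul_right {c : Om} (hc : c ≠ 0) (x y : ι → Om) :
    chord abv x (c • y) = chord abv x y := by
  rw [chord_comm, chord_smul_left abv hc, chord_comm]

/-- the basic estimate: `‖x ∧ y‖ ≤ 2 ‖x‖ ‖y‖` -/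
theorem nrm_wedge_le (x y : ι → Om) : nrm abv (wedge x y) ≤ 2 * (nrm abv x * nrm abv y) := by
  refine nrm_le abv (mul_nonneg zero_le_two (mul_nonneg (nrm_nonneg abv _) (nrm_nonneg abv _)))
    fun p => ?_
  have h1 : abv (x p.1 * y p.2) ≤ nrm abv x * nrm abv y := by
    rw [map_mul]
    exact mul_le_mul (le_nrm abv x _) (le_nrm abv y _) (abv.nonneg _) (nrm_nonneg abv _)
  have h2 : abv (x p.2 * y p.1) ≤ nrm abv x * nrm abv y := by
    rw [map_mul]
    exact mul_le_mul (le_nrm abv x _) (le_nrm abv y _) (abv.nonneg _) (nrm_nonneg abv _)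
  calc abv (wedge x y p) = abv (x p.1 * y p.2 - x p.2 * y p.1) := rfl
    _ ≤ abv (x p.1 * y p.2) + abv (x p.2 * y p.1) := abv_sub_le_add abv _ _
    _ ≤ 2 * (nrm abv x * nrm abv y) := by linarith

/-- `‖x ∧ y‖ ≤ ‖x‖ ‖y‖` for a nonarchimedean absolute value -/
theorem nrm_wedge_le_of_nonarch (hna : IsNonarchimedean abv) (x y : ι → Om) :
    nrm abv (wedge x y) ≤ nrm abv x * nrm abv y := by
  refine nrm_le abv (mul_nonneg (nrm_nonneg abv _) (nrm_nonneg abv _)) fun p => ?_
  have h1 : abv (x p.1 * y p.2) ≤ nrm abv x * nrm abv y := by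
    rw [map_mul]
    exact mul_le_mul (le_nrm abv x _) (le_nrm abv y _) (abv.nonneg _) (nrm_nonneg abv _)
  have h2 : abv (-(x p.2 * y p.1)) ≤ nrm abv x * nrm abv y := by
    rw [abv.map_neg, map_mul]
    exact mul_le_mul (le_nrm abv x _) (le_nrm abv y _) (abv.nonneg _) (nrm_nonneg abv _)
  calc abv (wedge x y p) = abv (x p.1 * y p.2 + -(x p.2 * y p.1)) := by
        rw [← sub_eq_add_neg]; rfl
    _ ≤ max (abv (x p.1 * y p.2)) (abv (-(x p.2 * y p.1))) := hna _ _
    _ ≤ nrm abv x * nrm abv y := max_le h1 h2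

theorem chord_le_two (x y : ι → Om) : chord abv x y ≤ 2 := by
  unfold chord
  by_cases h : nrm abv x * nrm abv y = 0
  · rw [h, div_zero]
    exact zero_le_two
  have hpos : 0 < nrm abv x * nrm abv y :=
    lt_of_le_of_ne (mul_nonneg (nrm_nonneg abv _) (nrm_nonneg abv _)) (Ne.symm h)
  rw [div_le_iff₀ hpos]
  exact nrm_wedge_le abv x y

theorem chord_le_one_of_nonarch (hna : IsNonarchimedean abv) (x y : ι → Om) :
    chord abv x y ≤ 1 := by
  unfold chord
  by_cases h : nrm abv x * nrm abv y = 0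
  · rw [h, div_zero]
    exact zero_le_one
  have hpos : 0 < nrm abv x * nrm abv y :=
    lt_of_le_of_ne (mul_nonneg (nrm_nonneg abv _) (nrm_nonneg abv _)) (Ne.symm h)
  rw [div_le_iff₀ hpos, one_mul]
  exact nrm_wedge_le_of_nonarch abv hna x y

/-- the key inequality behind the weak triangle inequality -/
theorem nrm_mul_nrm_wedge_le (x y z : ι → Om) :
    nrm abv y * nrm abv (wedge x z)
      ≤ 2 * (nrm abv z * nrm abv (wedge x y)) + nrm abv x * nrm abv (wedge y z) := by
  rcases isEmpty_or_nonempty ι with hι | hι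
  · have h0 : ∀ w : ι → Om, nrm abv w = 0 := fun w =>
      (nrm_eq_zero_iff abv).mpr (funext fun i => (hι.false i).elim)
    rw [h0 x, h0 y, h0 z]
    simp
  obtain ⟨k, hk⟩ := exists_eq_nrm abv y
  have hB : 0 ≤ 2 * (nrm abv z * nrm abv (wedge x y)) + nrm abv x * nrm abv (wedge y z) :=
    add_nonneg (mul_nonneg zero_le_two (mul_nonneg (nrm_nonneg abv _) (nrm_nonneg abv _)))
      (mul_nonneg (nrm_nonneg abv _) (nrm_nonneg abv _))
  rw [← hk, ← nrm_smul]
  refine nrm_le abv hB fun p => ?_
  obtain ⟨i, j⟩ := p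
  rw [Pi.smul_apply, smul_eq_mul, plucker3 x y z i j k]
  have t1 : abv (z j * wedge x y (i, k)) ≤ nrm abv z * nrm abv (wedge x y) := by
    rw [map_mul]
    exact mul_le_mul (le_nrm abv z _) (le_nrm abv _ _) (abv.nonneg _) (nrm_nonneg abv _)
  have t2 : abv (z i * wedge x y (j, k)) ≤ nrm abv z * nrm abv (wedge x y) := by
    rw [map_mul]
    exact mul_le_mul (le_nrm abv z _) (le_nrm abv _ _) (abv.nonneg _) (nrm_nonneg abv _)
  have t3 : abv (x k * wedge y z (i, j)) ≤ nrm abv x * nrm abv (wedge y z) := by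
    rw [map_mul]
    exact mul_le_mul (le_nrm abv x _) (le_nrm abv _ _) (abv.nonneg _) (nrm_nonneg abv _)
  calc abv (z j * wedge x y (i, k) - z i * wedge x y (j, k) + x k * wedge y z (i, j))
      ≤ abv (z j * wedge x y (i, k) - z i * wedge x y (j, k)) + abv (x k * wedge y z (i, j)) :=
        abv.add_le _ _
    _ ≤ abv (z j * wedge x y (i, k)) + abv (z i * wedge x y (j, k))
          + abv (x k * wedge y z (i, j)) := by
        have := abv_sub_le_add abv (z j * wedge x y (i, k)) (z i * wedge x y (j, k))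
        linarith
    _ ≤ _ := by linarith

/-- the key inequality behind the ultrametric inequality -/
theorem nrm_mul_nrm_wedge_le_of_nonarch (hna : IsNonarchimedean abv) (x y z : ι → Om) :
    nrm abv y * nrm abv (wedge x z)
      ≤ max (nrm abv z * nrm abv (wedge x y)) (nrm abv x * nrm abv (wedge y z)) := by
  rcases isEmpty_or_nonempty ι with hι | hι
  · have h0 : ∀ w : ι → Om, nrm abv w = 0 := fun w =>
      (nrm_eq_zero_iff abv).mpr (funext fun i => (hι.false i).elim)
    rw [h0 x, h0 y, h0 z]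
    simp
  obtain ⟨k, hk⟩ := exists_eq_nrm abv y
  have hB : 0 ≤ max (nrm abv z * nrm abv (wedge x y)) (nrm abv x * nrm abv (wedge y z)) :=
    le_max_of_le_left (mul_nonneg (nrm_nonneg abv _) (nrm_nonneg abv _))
  rw [← hk, ← nrm_smul]
  refine nrm_le abv hB fun p => ?_
  obtain ⟨i, j⟩ := p
  rw [Pi.smul_apply, smul_eq_mul, plucker3 x y z i j k]
  have t1 : abv (z j * wedge x y (i, k)) ≤ nrm abv z * nrm abv (wedge x y) := by
    rw [map_mul]
    exact mul_le_mul (le_nrm abv z _) (le_nrm abv _ _) (abv.nonneg _) (nrm_nonneg abv _)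
  have t2 : abv (-(z i * wedge x y (j, k))) ≤ nrm abv z * nrm abv (wedge x y) := by
    rw [abv.map_neg, map_mul]
    exact mul_le_mul (le_nrm abv z _) (le_nrm abv _ _) (abv.nonneg _) (nrm_nonneg abv _)
  have t3 : abv (x k * wedge y z (i, j)) ≤ nrm abv x * nrm abv (wedge y z) := by
    rw [map_mul]
    exact mul_le_mul (le_nrm abv x _) (le_nrm abv _ _) (abv.nonneg _) (nrm_nonneg abv _)
  have s1 : abv (z j * wedge x y (i, k) - z i * wedge x y (j, k))
      ≤ nrm abv z * nrm abv (wedge x y) := by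
    rw [sub_eq_add_neg]
    exact (hna _ _).trans (max_le t1 t2)
  exact (hna _ _).trans (max_le_max s1 t3)

/-- **weak triangle inequality** for the chordal distance, any absolute value -/
theorem chord_le_add (x : ι → Om) {y : ι → Om} (hy : y ≠ 0) (z : ι → Om) :
    chord abv x z ≤ 2 * chord abv x y + chord abv y z := by
  have hRHS : 0 ≤ 2 * chord abv x y + chord abv y z :=
    add_nonneg (mul_nonneg zero_le_two (chord_nonneg abv _ _)) (chord_nonneg abv _ _)
  by_cases hx : x = 0
  · subst hx
    have : chord abv (0 : ι → Om) z = 0 := by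
      unfold chord; rw [(nrm_eq_zero_iff abv).mpr rfl, zero_mul, div_zero]
    rw [this]; exact hRHS
  by_cases hz : z = 0
  · subst hz
    have : chord abv x (0 : ι → Om) = 0 := by
      unfold chord; rw [(nrm_eq_zero_iff abv).mpr rfl, mul_zero, div_zero]
    rw [this]; exact hRHS
  have nx := (nrm_pos_iff abv).mpr hx
  have ny := (nrm_pos_iff abv).mpr hy
  have nz := (nrm_pos_iff abv).mpr hz
  have key := nrm_mul_nrm_wedge_le abv x y z
  unfold chord
  rw [div_le_iff₀ (mul_pos nx nz)]
  have e : (2 * (nrm abv (wedge x y) / (nrm abv x * nrm abv y))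
      + nrm abv (wedge y z) / (nrm abv y * nrm abv z)) * (nrm abv x * nrm abv z)
      = (2 * (nrm abv z * nrm abv (wedge x y)) + nrm abv x * nrm abv (wedge y z)) / nrm abv y := by
    field_simp
  rw [e, le_div_iff₀ ny]
  linarith

/-- **ultrametric inequality** for the chordal distance, nonarchimedean absolute value -/
theorem chord_le_max_of_nonarch (hna : IsNonarchimedean abv) (x : ι → Om) {y : ι → Om}
    (hy : y ≠ 0) (z : ι → Om) :
    chord abv x z ≤ max (chord abv x y) (chord abv y z) := by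
  have hRHS : 0 ≤ max (chord abv x y) (chord abv y z) :=
    le_max_of_le_left (chord_nonneg abv _ _)
  by_cases hx : x = 0
  · subst hx
    have : chord abv (0 : ι → Om) z = 0 := by
      unfold chord; rw [(nrm_eq_zero_iff abv).mpr rfl, zero_mul, div_zero]
    rw [this]; exact hRHS
  by_cases hz : z = 0
  · subst hz
    have : chord abv x (0 : ι → Om) = 0 := by
      unfold chord; rw [(nrm_eq_zero_iff abv).mpr rfl, mul_zero, div_zero]
    rw [this]; exact hRHS
  have nx := (nrm_pos_iff abv).mpr hx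
  have ny := (nrm_pos_iff abv).mpr hy
  have nz := (nrm_pos_iff abv).mpr hz
  have key := nrm_mul_nrm_wedge_le_of_nonarch abv hna x y z
  unfold chord
  rw [div_le_iff₀ (mul_pos nx nz)]
  rcases le_max_iff.mp key with h | h
  · refine le_trans ?_ (mul_le_mul_of_nonneg_right (le_max_left _ _) (mul_pos nx nz).le)
    have e : nrm abv (wedge x y) / (nrm abv x * nrm abv y) * (nrm abv x * nrm abv z)
        = nrm abv z * nrm abv (wedge x y) / nrm abv y := by
      field_simp
    rw [e, le_div_iff₀ ny]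
    linarith
  · refine le_trans ?_ (mul_le_mul_of_nonneg_right (le_max_right _ _) (mul_pos nx nz).le)
    have e : nrm abv (wedge y z) / (nrm abv y * nrm abv z) * (nrm abv x * nrm abv z)
        = nrm abv x * nrm abv (wedge y z) / nrm abv y := by
      field_simp
    rw [e, le_div_iff₀ ny]
    linarith

/-! ### separation -/

/-- **Separation** (used in B.7 and B.12): if every member of the family `R` is `ρ`-far from every
member of the family `R'`, then any `P ≠ 0` is `ρ/3`-far from ALL members of `R` or from ALL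
members of `R'`. -/
theorem exists_far_family {α β : Type*} (R : α → ι → Om) (R' : β → ι → Om) {ρ : ℝ}
    (hsep : ∀ a b, ρ ≤ chord abv (R a) (R' b)) {P : ι → Om} (hP : P ≠ 0) :
    (∀ a, ρ / 3 ≤ chord abv P (R a)) ∨ (∀ b, ρ / 3 ≤ chord abv P (R' b)) := by
  by_contra hcon
  rw [not_or] at hcon
  obtain ⟨h1, h2⟩ := hcon
  simp only [not_forall, not_le] at h1 h2
  obtain ⟨a, ha⟩ := h1
  obtain ⟨b, hb⟩ := h2
  have := chord_le_add abv (R a) hP (R' b)
  rw [chord_comm abv (R a) P] at this
  have := hsep a b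
  linarith

/-- **Separation**, nonarchimedean form: constant `ρ` instead of `ρ/3`. -/
theorem exists_far_family_of_nonarch (hna : IsNonarchimedean abv) {α β : Type*}
    (R : α → ι → Om) (R' : β → ι → Om) {ρ : ℝ}
    (hsep : ∀ a b, ρ ≤ chord abv (R a) (R' b)) {P : ι → Om} (hP : P ≠ 0) :
    (∀ a, ρ ≤ chord abv P (R a)) ∨ (∀ b, ρ ≤ chord abv P (R' b)) := by
  by_contra hcon
  rw [not_or] at hcon
  obtain ⟨h1, h2⟩ := hcon
  simp only [not_forall, not_le] at h1 h2
  obtain ⟨a, ha⟩ := h1
  obtain ⟨b, hb⟩ := h2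
  have h := chord_le_max_of_nonarch abv hna (R a) hP (R' b)
  rw [chord_comm abv (R a) P] at h
  have := hsep a b
  have : max (chord abv P (R a)) (chord abv P (R' b)) < ρ := max_lt ha hb
  linarith

/-- the positive separation constant of two finite families of pairwise non-proportional vectors -/
theorem exists_pos_sep {α β : Type*} [Finite α] [Finite β] (R : α → ι → Om) (R' : β → ι → Om)
    (h : ∀ a b, wedge (R a) (R' b) ≠ 0) (hR : ∀ a, R a ≠ 0) (hR' : ∀ b, R' b ≠ 0) :
    ∃ ρ : ℝ, 0 < ρ ∧ ∀ a b, ρ ≤ chord abv (R a) (R' b) := by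
  have hpos : ∀ a b, 0 < chord abv (R a) (R' b) := fun a b =>
    div_pos ((nrm_pos_iff abv).mpr (h a b))
      (mul_pos ((nrm_pos_iff abv).mpr (hR a)) ((nrm_pos_iff abv).mpr (hR' b)))
  rcases isEmpty_or_nonempty (α × β) with he | hne
  · exact ⟨1, one_pos, fun a b => (he.false (a, b)).elim⟩
  · obtain ⟨⟨a₀, b₀⟩, h₀⟩ := Finite.exists_min (fun p : α × β => chord abv (R p.1) (R' p.2))
    exact ⟨_, hpos a₀ b₀, fun a b => h₀ (a, b)⟩

end Fermat.Agent.S17.Local.Chordal
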