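/-
PROJECT H (S17), helper7: B.7 of the master text (Part B #3388) in ABSTRACT LOCAL FORM, at ONE
absolute value.  "Forms" are value functions `φ : X → Om` on a type of points `X` with lifts
`z : X → ι → Om`, each with a multiset of zeros.  If `φ * ψ = ∏ₖ λₖ` with LINEAR forms `λₖ` for
which the two-sided local estimate is known, and `ψ` satisfies the trivial growth bound, then `φ`
satisfies the lower estimate up to the factor `∏_{R ∈ Z(ψ)} d(P,R)` (`lower_of_factor`); two
auxiliary choices with separated zero sets remove that factor (`lower_of_two`); the upper estimate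
follows from the lower estimate for `ψ` with EXACT cancellation (`upper_of_factor`).

Mathlib + `Local/Chordal` (helper4) only.
-/
import Mathlib
import Fermat.Agent.S17.Local.Chordal

set_option autoImplicit false
set_option linter.unusedSectionVars false

namespace Fermat.Agent.S17.Local.FixedForm

open Fermat.Agent.S17.Local.Chordal

variable {Om : Type*} [Field Om] (abv : AbsoluteValue Om ℝ) {ι : Type*} [Finite ι]
variable {X : Type*} (z : X → ι → Om)

/-- the product of the chordal distances from `P` to the points of a multiset -/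
noncomputable def chordProd (P : X) (Z : Multiset X) : ℝ :=
  (Z.map fun R => chord abv (z P) (z R)).prod

/-- the sum of the logarithms of the chordal distances from `P` to the points of a multiset -/
noncomputable def logChordSum (P : X) (Z : Multiset X) : ℝ :=
  (Z.map fun R => Real.log (chord abv (z P) (z R))).sum

theorem chordProd_zero (P : X) : chordProd abv z P 0 = 1 := by
  simp [chordProd]

theorem chordProd_add (P : X) (Z Z' : Multiset X) :
    chordProd abv z P (Z + Z') = chordProd abv z P Z * chordProd abv z P Z' := by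
  simp [chordProd, Multiset.map_add, Multiset.prod_add]

theorem chordProd_cons (P R : X) (Z : Multiset X) :
    chordProd abv z P (R ::ₘ Z) = chord abv (z P) (z R) * chordProd abv z P Z := by
  simp [chordProd]

theorem chordProd_nonneg (P : X) (Z : Multiset X) : 0 ≤ chordProd abv z P Z := by
  refine Multiset.prod_nonneg ?_
  intro a ha
  obtain ⟨R, _, rfl⟩ := Multiset.mem_map.mp ha
  exact chord_nonneg abv _ _

theorem chordProd_sum {κ : Type*} (s : Finset κ) (P : X) (Zl : κ → Multiset X) :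
    chordProd abv z P (∑ k ∈ s, Zl k) = ∏ k ∈ s, chordProd abv z P (Zl k) := by
  classical
  induction s using Finset.induction_on with
  | empty => simp [chordProd_zero]
  | insert a s ha ih => rw [Finset.sum_insert ha, Finset.prod_insert ha, chordProd_add, ih]

theorem logChordSum_zero (P : X) : logChordSum abv z P 0 = 0 := by
  simp [logChordSum]

theorem logChordSum_add (P : X) (Z Z' : Multiset X) :
    logChordSum abv z P (Z + Z') = logChordSum abv z P Z + logChordSum abv z P Z' := by
  simp [logChordSum, Multiset.map_add, Multiset.sum_add]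

/-- if `P` has positive distance to all points of `Z` then `log ∏ = ∑ log` -/
theorem log_chordProd (P : X) (Z : Multiset X) (h : ∀ R ∈ Z, 0 < chord abv (z P) (z R)) :
    Real.log (chordProd abv z P Z) = logChordSum abv z P Z := by
  induction Z using Multiset.induction_on with
  | empty => simp [chordProd, logChordSum]
  | cons R Z ih =>
    have hR : 0 < chord abv (z P) (z R) := h R (Multiset.mem_cons_self R Z)
    have hZ : ∀ R' ∈ Z, 0 < chord abv (z P) (z R') := fun R' hR' =>
      h R' (Multiset.mem_cons_of_mem hR')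
    have hpos : 0 < chordProd abv z P Z := by
      refine Multiset.prod_pos ?_
      intro a ha
      obtain ⟨R', hR', rfl⟩ := Multiset.mem_map.mp ha
      exact hZ R' hR'
    rw [chordProd_cons, Real.log_mul hR.ne' hpos.ne', ih hZ]
    simp [logChordSum]

theorem chordProd_pos (P : X) (Z : Multiset X) (h : ∀ R ∈ Z, 0 < chord abv (z P) (z R)) :
    0 < chordProd abv z P Z := by
  refine Multiset.prod_pos ?_
  intro a ha
  obtain ⟨R', hR', rfl⟩ := Multiset.mem_map.mp ha
  exact h R' hR'

/-- if `P` is `ρ`-far from all points of `Z` then `ρ ^ card Z ≤ ∏ d(P,R)` -/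
theorem pow_card_le_chordProd (P : X) (Z : Multiset X) {ρ : ℝ} (hρ : 0 ≤ ρ)
    (h : ∀ R ∈ Z, ρ ≤ chord abv (z P) (z R)) : ρ ^ Multiset.card Z ≤ chordProd abv z P Z := by
  induction Z using Multiset.induction_on with
  | empty => simp [chordProd]
  | cons R Z ih =>
    have hR : ρ ≤ chord abv (z P) (z R) := h R (Multiset.mem_cons_self R Z)
    have hZ : ∀ R' ∈ Z, ρ ≤ chord abv (z P) (z R') := fun R' hR' =>
      h R' (Multiset.mem_cons_of_mem hR')
    rw [chordProd_cons, Multiset.card_cons, pow_succ']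
    exact mul_le_mul hR (ih hZ) (pow_nonneg hρ _) (hρ.trans hR)

/-- if all distances are at most `B` then `∏ d(P,R) ≤ B ^ card Z` -/
theorem chordProd_le_pow_card (P : X) (Z : Multiset X) {B : ℝ}
    (h : ∀ R ∈ Z, chord abv (z P) (z R) ≤ B) : chordProd abv z P Z ≤ B ^ Multiset.card Z := by
  induction Z using Multiset.induction_on with
  | empty => simp [chordProd]
  | cons R Z ih =>
    have hR : chord abv (z P) (z R) ≤ B := h R (Multiset.mem_cons_self R Z)
    have hZ : ∀ R' ∈ Z, chord abv (z P) (z R') ≤ B := fun R' hR' =>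
      h R' (Multiset.mem_cons_of_mem hR')
    rw [chordProd_cons, Multiset.card_cons, pow_succ']
    exact mul_le_mul hR (ih hZ) (chordProd_nonneg abv z P Z) ((chord_nonneg abv _ _).trans hR)

/-! ### (FF1) the lower estimate up to the auxiliary factor -/

/-- **(FF1)**: `φ ψ = ∏ λₖ`, lower linear estimates for the `λₖ`, growth for `ψ`. -/
theorem lower_of_factor {κ : Type*} [Fintype κ] (φ ψ : X → Om) (lam : κ → X → Om)
    (Zφ Zψ : Multiset X) (Zl : κ → Multiset X) (hZ : ∑ k, Zl k = Zφ + Zψ)
    (e' dψ : ℕ) (hcard : Fintype.card κ = e' + dψ)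
    {c Cψ : ℝ} (hc : 0 ≤ c) (hCψ : 0 < Cψ) (nl : κ → ℝ) (hnl : ∀ k, 0 ≤ nl k)
    (P : X) (hzP : z P ≠ 0)
    (hfac : φ P * ψ P = ∏ k, lam k P)
    (hlow : ∀ k, c * nl k * nrm abv (z P) * chordProd abv z P (Zl k) ≤ abv (lam k P))
    (hgrow : abv (ψ P) ≤ Cψ * nrm abv (z P) ^ dψ) :
    (c ^ Fintype.card κ * ∏ k, nl k) / Cψ * nrm abv (z P) ^ e' * chordProd abv z P Zφ
      * chordProd abv z P Zψ ≤ abv (φ P) := by
  have hn : 0 < nrm abv (z P) := (nrm_pos_iff abv).mpr hzP
  set n := nrm abv (z P) with hn_def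
  -- the product of the lower bounds
  have h1 : ∏ k, (c * nl k * n * chordProd abv z P (Zl k)) ≤ ∏ k, abv (lam k P) := by
    refine Finset.prod_le_prod (fun k _ => ?_) (fun k _ => hlow k)
    exact mul_nonneg (mul_nonneg (mul_nonneg hc (hnl k)) hn.le) (chordProd_nonneg abv z P _)
  have h2 : ∏ k, abv (lam k P) = abv (φ P) * abv (ψ P) := by
    rw [← map_prod, ← hfac, map_mul]
  have h3 : ∏ k, (c * nl k * n * chordProd abv z P (Zl k))
      = c ^ Fintype.card κ * (∏ k, nl k) * n ^ Fintype.card κ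
        * (chordProd abv z P Zφ * chordProd abv z P Zψ) := by
    rw [Finset.prod_mul_distrib, Finset.prod_mul_distrib, Finset.prod_mul_distrib,
      Finset.prod_const, Finset.prod_const, Finset.card_univ, ← chordProd_sum, hZ, chordProd_add]
  have h4 : abv (φ P) * abv (ψ P) ≤ abv (φ P) * (Cψ * n ^ dψ) :=
    mul_le_mul_of_nonneg_left hgrow (abv.nonneg _)
  have h5 : c ^ Fintype.card κ * (∏ k, nl k) * n ^ Fintype.card κ
        * (chordProd abv z P Zφ * chordProd abv z P Zψ) ≤ abv (φ P) * (Cψ * n ^ dψ) := by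
    rw [← h3]; exact (h1.trans h2.le).trans h4
  have hpos : 0 < Cψ * n ^ dψ := mul_pos hCψ (pow_pos hn _)
  rw [hcard] at h5
  have h6 : (c ^ (e' + dψ) * ∏ k, nl k) / Cψ * n ^ e' * chordProd abv z P Zφ
      * chordProd abv z P Zψ
      = (c ^ (e' + dψ) * (∏ k, nl k) * n ^ (e' + dψ)
        * (chordProd abv z P Zφ * chordProd abv z P Zψ)) / (Cψ * n ^ dψ) := by
    rw [pow_add n]
    field_simp
  rw [hcard, h6, div_le_iff₀ hpos]
  exact h5

/-! ### (FF2) two auxiliary choices with separated zero sets -/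

/-- **(FF2)**: combine two instances of `lower_of_factor` whose auxiliary zero sets are separated:
`P` is `ρ`-far from one of them. -/
theorem lower_of_two (φ : X → Om) (Zφ Zψ0 Zψ1 : Multiset X) (e' : ℕ) {A0 A1 ρ : ℝ}
    (hA0 : 0 ≤ A0) (hA1 : 0 ≤ A1) (hρ : 0 ≤ ρ) (P : X)
    (h0 : A0 * nrm abv (z P) ^ e' * chordProd abv z P Zφ * chordProd abv z P Zψ0 ≤ abv (φ P))
    (h1 : A1 * nrm abv (z P) ^ e' * chordProd abv z P Zφ * chordProd abv z P Zψ1 ≤ abv (φ P))
    (hfar : (∀ R ∈ Zψ0, ρ ≤ chord abv (z P) (z R)) ∨ (∀ R ∈ Zψ1, ρ ≤ chord abv (z P) (z R))) :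
    min (A0 * ρ ^ Multiset.card Zψ0) (A1 * ρ ^ Multiset.card Zψ1) * nrm abv (z P) ^ e'
      * chordProd abv z P Zφ ≤ abv (φ P) := by
  have hn : 0 ≤ nrm abv (z P) ^ e' := pow_nonneg (nrm_nonneg abv _) _
  have hcp : 0 ≤ chordProd abv z P Zφ := chordProd_nonneg abv z P Zφ
  rcases hfar with hf | hf
  · have hp := pow_card_le_chordProd abv z P Zψ0 hρ hf
    refine le_trans ?_ h0
    have e1 : A0 * nrm abv (z P) ^ e' * chordProd abv z P Zφ * chordProd abv z P Zψ0
        = (A0 * chordProd abv z P Zψ0) * nrm abv (z P) ^ e' * chordProd abv z P Zφ := by ring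
    rw [e1]
    refine mul_le_mul_of_nonneg_right (mul_le_mul_of_nonneg_right ?_ hn) hcp
    exact (min_le_left _ _).trans (mul_le_mul_of_nonneg_left hp hA0)
  · have hp := pow_card_le_chordProd abv z P Zψ1 hρ hf
    refine le_trans ?_ h1
    have e1 : A1 * nrm abv (z P) ^ e' * chordProd abv z P Zφ * chordProd abv z P Zψ1
        = (A1 * chordProd abv z P Zψ1) * nrm abv (z P) ^ e' * chordProd abv z P Zφ := by ring
    rw [e1]
    refine mul_le_mul_of_nonneg_right (mul_le_mul_of_nonneg_right ?_ hn) hcp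
    exact (min_le_right _ _).trans (mul_le_mul_of_nonneg_left hp hA1)

/-! ### (FF3) the upper estimate, with exact cancellation -/

/-- **(FF3)**: `φ ψ = ∏ λₖ`, upper linear estimates for the `λₖ`, a LOWER estimate for `ψ`. -/
theorem upper_of_factor {κ : Type*} [Fintype κ] (φ ψ : X → Om) (lam : κ → X → Om)
    (Zφ Zψ : Multiset X) (Zl : κ → Multiset X) (hZ : ∑ k, Zl k = Zφ + Zψ)
    (e' dψ : ℕ) (hcard : Fintype.card κ = e' + dψ)
    {C cψ : ℝ} (hcψ : 0 < cψ) (nl : κ → ℝ)
    (P : X) (hzP : z P ≠ 0)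
    (hfac : φ P * ψ P = ∏ k, lam k P)
    (hupp : ∀ k, abv (lam k P) ≤ C * nl k * nrm abv (z P) * chordProd abv z P (Zl k))
    (hψlow : cψ * nrm abv (z P) ^ dψ * chordProd abv z P Zψ ≤ abv (ψ P))
    (hpos : 0 < chordProd abv z P Zψ) :
    abv (φ P) ≤ (C ^ Fintype.card κ * ∏ k, nl k) / cψ * nrm abv (z P) ^ e'
      * chordProd abv z P Zφ := by
  have hn : 0 < nrm abv (z P) := (nrm_pos_iff abv).mpr hzP
  set n := nrm abv (z P) with hn_def
  have h1 : ∏ k, abv (lam k P) ≤ ∏ k, (C * nl k * n * chordProd abv z P (Zl k)) :=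
    Finset.prod_le_prod (fun k _ => abv.nonneg _) (fun k _ => hupp k)
  have h2 : ∏ k, abv (lam k P) = abv (φ P) * abv (ψ P) := by
    rw [← map_prod, ← hfac, map_mul]
  have h3 : ∏ k, (C * nl k * n * chordProd abv z P (Zl k))
      = C ^ Fintype.card κ * (∏ k, nl k) * n ^ Fintype.card κ
        * (chordProd abv z P Zφ * chordProd abv z P Zψ) := by
    rw [Finset.prod_mul_distrib, Finset.prod_mul_distrib, Finset.prod_mul_distrib,
      Finset.prod_const, Finset.prod_const, Finset.card_univ, ← chordProd_sum, hZ, chordProd_add]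
  have hD : 0 < cψ * n ^ dψ * chordProd abv z P Zψ := mul_pos (mul_pos hcψ (pow_pos hn _)) hpos
  have h4 : abv (φ P) * (cψ * n ^ dψ * chordProd abv z P Zψ) ≤ abv (φ P) * abv (ψ P) :=
    mul_le_mul_of_nonneg_left hψlow (abv.nonneg _)
  have h5 : abv (φ P) * (cψ * n ^ dψ * chordProd abv z P Zψ)
      ≤ C ^ Fintype.card κ * (∏ k, nl k) * n ^ Fintype.card κ
        * (chordProd abv z P Zφ * chordProd abv z P Zψ) := by
    rw [← h3]; exact h4.trans (h2.symm.le.trans h1)
  rw [hcard] at h5
  have h6 : (C ^ (e' + dψ) * ∏ k, nl k) / cψ * n ^ e' * chordProd abv z P Zφ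
      = (C ^ (e' + dψ) * (∏ k, nl k) * n ^ (e' + dψ)
        * (chordProd abv z P Zφ * chordProd abv z P Zψ)) / (cψ * n ^ dψ * chordProd abv z P Zψ) := by
    rw [pow_add n]
    field_simp
  rw [hcard, h6, le_div_iff₀ hD]
  exact h5

/-! ### (FF4) logarithmic forms -/

/-- a two-sided multiplicative estimate gives a bound for the logarithmic defect -/
theorem abs_log_sub_le {x T c C : ℝ} (hc : 0 < c) (hT : 0 < T) (h1 : c * T ≤ x) (h2 : x ≤ C * T) :
    |Real.log x - Real.log T| ≤ max (-Real.log c) (Real.log C) := by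
  have hx : 0 < x := lt_of_lt_of_le (mul_pos hc hT) h1
  have hC : 0 < C := by
    by_contra hC
    have : C * T ≤ 0 := mul_nonpos_of_nonpos_of_nonneg (not_lt.mp hC) hT.le
    linarith
  have e1 : Real.log (c * T) ≤ Real.log x := Real.log_le_log (mul_pos hc hT) h1
  have e2 : Real.log x ≤ Real.log (C * T) := Real.log_le_log hx h2
  rw [Real.log_mul hc.ne' hT.ne'] at e1
  rw [Real.log_mul hC.ne' hT.ne'] at e2
  rw [abs_le]
  constructor
  · have := le_max_left (-Real.log c) (Real.log C)
    linarith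
  · have := le_max_right (-Real.log c) (Real.log C)
    linarith

/-- **(FF4)**: the logarithmic form of the two-sided fixed-form estimate. -/
theorem abs_log_fixedForm (φ : X → Om) (Zφ : Multiset X) (e' : ℕ) {c C : ℝ} (hc : 0 < c)
    (P : X) (hzP : z P ≠ 0) (hoff : ∀ R ∈ Zφ, 0 < chord abv (z P) (z R))
    (hlow : c * nrm abv (z P) ^ e' * chordProd abv z P Zφ ≤ abv (φ P))
    (hupp : abv (φ P) ≤ C * nrm abv (z P) ^ e' * chordProd abv z P Zφ) :
    |Real.log (abv (φ P)) - (e' : ℝ) * Real.log (nrm abv (z P)) - logChordSum abv z P Zφ|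
      ≤ max (-Real.log c) (Real.log C) := by
  have hn : 0 < nrm abv (z P) := (nrm_pos_iff abv).mpr hzP
  have hcp : 0 < chordProd abv z P Zφ := chordProd_pos abv z P Zφ hoff
  have hT : 0 < nrm abv (z P) ^ e' * chordProd abv z P Zφ := mul_pos (pow_pos hn _) hcp
  have key := abs_log_sub_le (x := abv (φ P)) hc hT (by rw [← mul_assoc]; exact hlow)
    (by rw [← mul_assoc]; exact hupp)
  rw [Real.log_mul (pow_pos hn _).ne' hcp.ne', Real.log_pow, log_chordProd abv z P Zφ hoff] at key
  rw [sub_sub]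
  exact key

/-- **B.7(b)**: the quotient of two forms of the same degree. -/
theorem abs_log_quotient (φ φ' : X → Om) (Zφ Zφ' : Multiset X) (e' : ℕ) {γ γ' : ℝ} (P : X)
    (hφ' : φ' P ≠ 0) (hφ : φ P ≠ 0)
    (h : |Real.log (abv (φ P)) - (e' : ℝ) * Real.log (nrm abv (z P)) - logChordSum abv z P Zφ| ≤ γ)
    (h' : |Real.log (abv (φ' P)) - (e' : ℝ) * Real.log (nrm abv (z P)) - logChordSum abv z P Zφ'|
      ≤ γ') :
    |Real.log (abv (φ P / φ' P)) - logChordSum abv z P Zφ + logChordSum abv z P Zφ'| ≤ γ + γ' := by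
  have h1 : 0 < abv (φ P) := abv.pos hφ
  have h2 : 0 < abv (φ' P) := abv.pos hφ'
  rw [map_div₀, Real.log_div h1.ne' h2.ne']
  rw [abs_le] at h h' ⊢
  constructor <;> linarith [h.1, h.2, h'.1, h'.2]

end Fermat.Agent.S17.Local.FixedForm
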