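import Mathlib

/-!
# S17 / Local layer: Gauss' lemma and the Mahler–Gelfond bounds for products of binary
linear forms, for ONE absolute value

`Ω` a field with one absolute value `abv`.  For pairs `(a k, b k)`, `k < d`, put
`linProd a b = ∏ k, (C (a k) * X + C (b k))`, the dehomogenised binary form
`∏ k, (a k * Y₁ + b k * Y₀)`.  With `cN abv p := ⨆ n, abv (p.coeff n)`:

* nonarchimedean `abv`: `cN (linProd a b) = ∏ k, max (abv (a k)) (abv (b k))`  (Gauss);
* `abv = ‖φ ·‖` for a ring hom `φ : Ω →+* ℂ`: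
  `∏ k, max .. ≤ √(d+1) * cN (linProd a b)` and `cN (linProd a b) ≤ 2 ^ d * ∏ k, max ..`
  (Mahler measure).
-/

namespace Fermat.Agent.S17.Local

open Polynomial Finset

variable {Ω : Type*} [Field Ω] (abv : AbsoluteValue Ω ℝ)

/-- sup norm of the coefficients of a polynomial with respect to one absolute value -/
noncomputable def cN (p : (Polynomial Ω)) : ℝ := ⨆ n, abv (p.coeff n)

theorem bddAbove_range_abv_coeff (p : (Polynomial Ω)) : BddAbove (Set.range fun n => abv (p.coeff n)) := by
  refine ⟨∑ n ∈ p.support, abv (p.coeff n), ?_⟩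
  rintro _ ⟨n, rfl⟩
  show abv (p.coeff n) ≤ _
  by_cases hn : n ∈ p.support
  · exact single_le_sum (f := fun n => abv (p.coeff n)) (fun _ _ => abv.nonneg _) hn
  · rw [notMem_support_iff.mp hn, abv.map_zero]
    exact sum_nonneg fun _ _ => abv.nonneg _

theorem le_cN (p : (Polynomial Ω)) (n : ℕ) : abv (p.coeff n) ≤ cN abv p :=
  le_ciSup (bddAbove_range_abv_coeff abv p) n

theorem cN_nonneg (p : (Polynomial Ω)) : 0 ≤ cN abv p := Real.iSup_nonneg fun _ => abv.nonneg _

theorem cN_le (p : (Polynomial Ω)) {B : ℝ} (hB : 0 ≤ B) (h : ∀ n, abv (p.coeff n) ≤ B) : cN abv p ≤ B :=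
  Real.iSup_le h hB

/-- `cN` is Mathlib's Gauss norm at radius `1` -/
theorem cN_eq_gaussNorm (p : (Polynomial Ω)) : cN abv p = p.gaussNorm abv 1 := by
  refine le_antisymm (cN_le abv p (p.gaussNorm_nonneg abv zero_le_one) fun n => ?_) ?_
  · simpa using p.le_gaussNorm abv zero_le_one n
  · obtain ⟨i, hi⟩ := p.exists_eq_gaussNorm abv 1
    rw [hi, one_pow, mul_one]
    exact le_cN abv p i

/-- the product of the linear polynomials `a k * X + b k` -/
noncomputable def linProd {d : ℕ} (a b : Fin d → Ω) : (Polynomial Ω) := ∏ k, (C (a k) * X + C (b k))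

theorem eval_linProd {d : ℕ} (a b : Fin d → Ω) (t : Ω) :
    (linProd a b).eval t = ∏ k, (a k * t + b k) := by
  simp [linProd, eval_prod]

theorem abv_eval_linProd {d : ℕ} (a b : Fin d → Ω) (t : Ω) :
    abv ((linProd a b).eval t) = ∏ k, abv (a k * t + b k) := by
  rw [eval_linProd, map_prod]

theorem natDegree_linProd_le {d : ℕ} (a b : Fin d → Ω) : (linProd a b).natDegree ≤ d := by
  have h1 : (linProd a b).natDegree ≤
      ∑ k : Fin d, (C (a k) * X + C (b k) : Polynomial Ω).natDegree :=
    natDegree_prod_le (univ : Finset (Fin d)) fun k => (C (a k) * X + C (b k) : Polynomial Ω)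
  have h2 : ∑ k : Fin d, (C (a k) * X + C (b k) : Polynomial Ω).natDegree ≤
      ∑ _k : Fin d, (1 : ℕ) :=
    sum_le_sum fun k _ => natDegree_linear_le
  have h3 : ∑ _k : Fin d, (1 : ℕ) = d := by simp
  omega

/-- homogeneous evaluation: `Σ_n c_n y₀^(d-n) y₁^n = ∏ (a k * y₁ + b k * y₀)` -/
theorem sum_coeff_linProd_hom {d : ℕ} (a b : Fin d → Ω) (y0 y1 : Ω) :
    ∑ n ∈ range (d + 1), (linProd a b).coeff n * y0 ^ (d - n) * y1 ^ n =
      ∏ k, (a k * y1 + b k * y0) := by
  by_cases h0 : y0 = 0
  · subst h0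
    -- only the top coefficient survives
    have htop : (linProd a b).coeff d = ∏ k, a k := by
      unfold linProd
      have := coeff_prod_of_natDegree_le (s := (univ : Finset (Fin d)))
        (fun k => C (a k) * X + C (b k)) 1 (fun k _ => natDegree_linear_le)
      simpa using this
    rw [sum_eq_single d]
    · simp [htop, prod_mul_distrib]
    · intro n hn hnd
      have : n < d := lt_of_le_of_ne (by simpa [Nat.lt_succ_iff] using mem_range.mp hn) hnd
      simp [Nat.sub_ne_zero_of_lt this]
    · simp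
  · have hev := eval_linProd a b (y1 / y0)
    rw [eval_eq_sum_range' (Nat.lt_succ_of_le (natDegree_linProd_le a b))] at hev
    have h1 : ∑ n ∈ range (d + 1), (linProd a b).coeff n * y0 ^ (d - n) * y1 ^ n =
        y0 ^ d * ∑ n ∈ range (d + 1), (linProd a b).coeff n * (y1 / y0) ^ n := by
      rw [mul_sum]
      refine sum_congr rfl fun n hn => ?_
      have hn' : n ≤ d := by simpa [Nat.lt_succ_iff] using mem_range.mp hn
      have : y0 ^ d = y0 ^ (d - n) * y0 ^ n := by rw [← pow_add, Nat.sub_add_cancel hn']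
      rw [this, div_pow]
      field_simp
    rw [h1, hev, ← Fin.prod_const, ← prod_mul_distrib]
    refine prod_congr rfl fun k _ => ?_
    field_simp

/-! ### the linear factors -/

theorem coeff_linear_eq (a b : Ω) (n : ℕ) :
    (C a * X + C b : Polynomial Ω).coeff n = if n = 0 then b else if n = 1 then a else 0 := by
  rcases n with _ | _ | n <;> simp [coeff_X, coeff_C]

theorem cN_linear (a b : Ω) : cN abv (C a * X + C b) = max (abv a) (abv b) := by
  refine le_antisymm (cN_le abv _ (le_max_of_le_left (abv.nonneg a)) fun n => ?_) (max_le ?_ ?_)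
  · rw [coeff_linear_eq]
    split_ifs
    · exact le_max_right _ _
    · exact le_max_left _ _
    · rw [abv.map_zero]; exact le_max_of_le_left (abv.nonneg a)
  · have := le_cN abv (C a * X + C b) 1
    rwa [coeff_linear_eq, if_neg one_ne_zero, if_pos rfl] at this
  · have := le_cN abv (C a * X + C b) 0
    rwa [coeff_linear_eq, if_pos rfl] at this

/-! ### Gauss' lemma (nonarchimedean case) -/

theorem cN_mul_of_nonarch (hna : IsNonarchimedean abv) (p q : Polynomial Ω) :
    cN abv (p * q) = cN abv p * cN abv q := by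
  simp only [cN_eq_gaussNorm]
  exact gaussNorm_mul hna one_pos p q

theorem cN_one : cN abv (1 : Polynomial Ω) = 1 := by
  rw [cN_eq_gaussNorm, ← C_1, gaussNorm_C, abv.map_one]

theorem cN_prod_of_nonarch {ι : Type*} (hna : IsNonarchimedean abv) (s : Finset ι)
    (f : ι → Polynomial Ω) : cN abv (∏ k ∈ s, f k) = ∏ k ∈ s, cN abv (f k) := by
  classical
  induction s using Finset.induction with
  | empty => simp [cN_one]
  | insert a s ha ih => rw [prod_insert ha, prod_insert ha, cN_mul_of_nonarch abv hna, ih]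

/-- **Gauss' lemma for products of binary linear forms.** -/
theorem cN_linProd_of_nonarch {d : ℕ} (hna : IsNonarchimedean abv) (a b : Fin d → Ω) :
    cN abv (linProd a b) = ∏ k, max (abv (a k)) (abv (b k)) := by
  unfold linProd
  rw [cN_prod_of_nonarch abv hna]
  exact prod_congr rfl fun k _ => cN_linear abv (a k) (b k)

/-! ### the archimedean case: Mahler measure -/

section arch

variable (φ : Ω →+* ℂ) (hφ : ∀ x, abv x = ‖φ x‖)

include hφ in
theorem cN_eq_supNorm_map (p : Polynomial Ω) : cN abv p = (p.map φ).supNorm := by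
  rw [supNorm_eq_iSup, cN]
  exact iSup_congr fun n => by rw [coeff_map, hφ]

theorem mahlerMeasure_linear (a b : ℂ) : (C a * X + C b : Polynomial ℂ).mahlerMeasure =
    max ‖a‖ ‖b‖ := by
  by_cases ha : a = 0
  · subst ha
    simp [mahlerMeasure_const]
  · exact mahlerMeasure_C_mul_X_add_C ha b

theorem mahlerMeasure_finset_prod {ι : Type*} (s : Finset ι) (f : ι → Polynomial ℂ) :
    (∏ k ∈ s, f k).mahlerMeasure = ∏ k ∈ s, (f k).mahlerMeasure := by
  classical
  induction s using Finset.induction with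
  | empty => simp
  | insert a s ha ih => rw [prod_insert ha, prod_insert ha, mahlerMeasure_mul, ih]

theorem map_linProd {d : ℕ} (a b : Fin d → Ω) :
    (linProd a b).map φ = ∏ k, (C (φ (a k)) * X + C (φ (b k))) := by
  simp [linProd, Polynomial.map_prod]

include hφ in
theorem mahlerMeasure_map_linProd {d : ℕ} (a b : Fin d → Ω) :
    ((linProd a b).map φ).mahlerMeasure = ∏ k, max (abv (a k)) (abv (b k)) := by
  rw [map_linProd, mahlerMeasure_finset_prod]
  exact prod_congr rfl fun k _ => by rw [mahlerMeasure_linear, hφ, hφ]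

theorem natDegree_map_linProd_le {d : ℕ} (a b : Fin d → Ω) :
    ((linProd a b).map φ).natDegree ≤ d :=
  (natDegree_map_le).trans (natDegree_linProd_le a b)

include hφ in
/-- **Mahler / Gelfond, upper half**: `‖∏ L_k‖ ≤ 2^d ∏ ‖L_k‖`. -/
theorem cN_linProd_le_of_arch {d : ℕ} (a b : Fin d → Ω) :
    cN abv (linProd a b) ≤ 2 ^ d * ∏ k, max (abv (a k)) (abv (b k)) := by
  rw [cN_eq_supNorm_map abv φ hφ, ← mahlerMeasure_map_linProd abv φ hφ]
  set P := (linProd a b).map φ with hP
  refine (P.supNorm_le_choose_natDegree_div_two_mul_mahlerMeasure).trans ?_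
  gcongr
  · exact P.mahlerMeasure_nonneg
  · calc ((P.natDegree.choose (P.natDegree / 2) : ℕ) : ℝ) ≤ ((2 ^ P.natDegree : ℕ) : ℝ) := by
          exact_mod_cast Nat.choose_le_two_pow _ _
      _ ≤ 2 ^ d := by
          push_cast
          exact pow_le_pow_right₀ one_le_two (natDegree_map_linProd_le φ a b)

include hφ in
/-- **Mahler / Gelfond, lower half**: `∏ ‖L_k‖ ≤ √(d+1) ‖∏ L_k‖`. -/
theorem prod_max_le_of_arch {d : ℕ} (a b : Fin d → Ω) :
    ∏ k, max (abv (a k)) (abv (b k)) ≤ √(d + 1) * cN abv (linProd a b) := by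
  rw [cN_eq_supNorm_map abv φ hφ, ← mahlerMeasure_map_linProd abv φ hφ]
  set P := (linProd a b).map φ with hP
  refine (P.mahlerMeasure_le_sqrt_natDegree_add_one_mul_supNorm).trans ?_
  gcongr
  · exact P.supNorm_nonneg
  · exact_mod_cast natDegree_map_linProd_le φ a b

end arch

end Fermat.Agent.S17.Local
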