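import Mathlib

/-!
# S17 scratch (helper12): finitely many points in general linear position on a polynomial image

`exists_general_position`: `K` a field, `φ : ι → MvPolynomial σ K` (`ι` a fintype, `r = #ι`) linearly independent
polynomials, `Good` a "dense" property of points of `K^a` (every nonzero polynomial has a `Good`
non-root).  Then for every `M` there are `Good` points `p 0, …, p (M-1)` of `K^a` such that ANY `r`
of the vectors `(eval (p m) (φ j))_j ∈ K^r` are linearly independent (determinant form).

`exists_general_position_of_infinite`: the case `Good = True` over an infinite field.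

`pluecker_linearIndependent`: the Plücker polynomials
`X (0,i) * X (1,j) - X (0,j) * X (1,i)` (`i < j`) are linearly independent, so the theorem applies
to pencils `y₀ ∧ y₁`.
-/

set_option autoImplicit false

namespace Fermat.Agent.S17.Local.GeneralPosition

open MvPolynomial

variable {K : Type*} [Field K]

section Greedy

variable {ι : Type*} [Fintype ι]

/-- general position: every subfamily with at most `r` members is linearly independent -/
def GenPos {M : ℕ} (v : Fin M → (ι → K)) : Prop :=
  ∀ T : Finset (Fin M), T.card ≤ Fintype.card ι → LinearIndepOn K v (T : Set (Fin M))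

/-- appending a vector (non-dependent `Fin.snoc`) -/
def snocVec {X : Type*} {M : ℕ} (v : Fin M → X) (w : X) : Fin (M + 1) → X :=
  Fin.snoc (α := fun _ => X) v w

@[simp] theorem snocVec_castSucc {X : Type*} {M : ℕ} (v : Fin M → X) (w : X) (i : Fin M) :
    snocVec v w (Fin.castSucc i) = v i := by
  simp [snocVec]

@[simp] theorem snocVec_last {X : Type*} {M : ℕ} (v : Fin M → X) (w : X) :
    snocVec v w (Fin.last M) = w := by
  simp [snocVec]

theorem comp_snocVec {X Y : Type*} {M : ℕ} (f : X → Y) (v : Fin M → X) (w : X) :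
    f ∘ snocVec v w = snocVec (f ∘ v) (f w) := by
  funext i
  refine Fin.lastCases ?_ (fun j => ?_) i
  · simp
  · simp

theorem genPos_snoc {M : ℕ} {v : Fin M → (ι → K)} (hv : GenPos v) {w : ι → K}
    (hw : ∀ T : Finset (Fin M), T.card < Fintype.card ι →
      w ∉ Submodule.span K (v '' (T : Set (Fin M)))) :
    GenPos (snocVec v w) := by
  classical
  intro T' hT'
  set T0 : Finset (Fin M) := Finset.univ.filter (fun i => Fin.castSucc i ∈ T') with hT0
  set v' : Fin (M + 1) → (ι → K) := snocVec v w with hv'
  have hcomp : v' ∘ Fin.castSucc = v := by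
    funext i
    simp [hv']
  have hmap : (T0.map Fin.castSuccEmb) ⊆ T' := by
    intro x hx
    rw [Finset.mem_map] at hx
    obtain ⟨i, hi, rfl⟩ := hx
    rw [hT0, Finset.mem_filter] at hi
    exact hi.2
  have himg : ∀ (hc : T0.card ≤ Fintype.card ι),
      LinearIndepOn K v' (Fin.castSucc '' (T0 : Set (Fin M))) := by
    intro hc
    refine LinearIndepOn.image_of_comp Fin.castSucc v' ?_
    rw [hcomp]
    exact hv T0 hc
  by_cases hlast : Fin.last M ∈ T'
  · have hsub : (T' : Set (Fin (M + 1)))
        ⊆ insert (Fin.last M) (Fin.castSucc '' (T0 : Set (Fin M))) := by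
      intro x hx
      refine Fin.lastCases ?_ (fun j hj => ?_) x hx
      · intro _; exact Set.mem_insert _ _
      · refine Set.mem_insert_of_mem _ ⟨j, ?_, rfl⟩
        rw [hT0]
        simpa using hj
    have hcard : T0.card < Fintype.card ι := by
      have h1 : (insert (Fin.last M) (T0.map Fin.castSuccEmb)) ⊆ T' := by
        intro x hx
        rw [Finset.mem_insert] at hx
        rcases hx with rfl | hx
        · exact hlast
        · exact hmap hx
      have h2 : Fin.last M ∉ T0.map Fin.castSuccEmb := by
        intro h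
        rw [Finset.mem_map] at h
        obtain ⟨i, _, hi⟩ := h
        exact (Fin.castSucc_lt_last i).ne hi
      have h3 := Finset.card_le_card h1
      rw [Finset.card_insert_of_notMem h2, Finset.card_map] at h3
      omega
    refine LinearIndepOn.mono ?_ hsub
    refine LinearIndepOn.insert (himg hcard.le) ?_
    rw [Set.image_image]
    have e : (fun x => v' (Fin.castSucc x)) = v := hcomp
    rw [e]
    have e2 : v' (Fin.last M) = w := by simp [hv']
    rw [e2]
    exact hw T0 hcard
  · have hsub : (T' : Set (Fin (M + 1))) ⊆ Fin.castSucc '' (T0 : Set (Fin M)) := by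
      intro x hx
      refine Fin.lastCases ?_ (fun j hj => ?_) x hx
      · intro h; exact absurd h hlast
      · refine ⟨j, ?_, rfl⟩
        rw [hT0]
        simpa using hj
    have hcard : T0.card ≤ Fintype.card ι := by
      have h3 := Finset.card_le_card hmap
      rw [Finset.card_map] at h3
      omega
    exact LinearIndepOn.mono (himg hcard) hsub

theorem genPos_zero (v : Fin 0 → (ι → K)) : GenPos v := by
  intro T _
  have : (T : Set (Fin 0)) = ∅ := by
    ext x; exact x.elim0
  rw [this]
  exact linearIndepOn_empty K v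

/-- In general position, any `r` distinct members have nonzero determinant. -/
theorem det_ne_zero_of_genPos [DecidableEq ι] {M : ℕ} {v : Fin M → (ι → K)} (hv : GenPos v)
    (s : ι → Fin M) (hs : Function.Injective s) :
    (Matrix.of fun i j => v (s i) j).det ≠ 0 := by
  classical
  have hT : (Finset.univ.image s).card ≤ Fintype.card ι := by
    rw [Finset.card_image_of_injective _ hs]
    simp
  have h1 := hv (Finset.univ.image s) hT
  have h2 : LinearIndependent K (fun i : ι => v (s i)) := by
    have h3 : LinearIndepOn K v (s '' (Set.univ : Set ι)) := by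
      have : ((Finset.univ.image s : Finset (Fin M)) : Set (Fin M)) = s '' Set.univ := by
        simp
      rwa [this] at h1
    have h4 := h3.comp_of_image hs.injOn
    exact (linearIndepOn_univ_iff.mp h4)
  have h5 : LinearIndependent K (Matrix.of fun i j => v (s i) j).row := h2
  have := (Matrix.linearIndependent_rows_iff_isUnit).mp h5
  exact ((Matrix.isUnit_iff_isUnit_det _).mp this).ne_zero

end Greedy

section Main

variable {σ : Type*} {ι : Type*} [Fintype ι]

/-- the vector of values of the `φ j` at a point -/
noncomputable def evalVec (φ : ι → MvPolynomial σ K) (p : σ → K) : ι → K :=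
  fun j => eval p (φ j)

/-- a nonzero functional composed with linearly independent polynomials is a nonzero polynomial -/
theorem sum_smul_ne_zero {φ : ι → MvPolynomial σ K} (hφ : LinearIndependent K φ)
    {c : ι → K} (hc : c ≠ 0) : ∑ j, c j • φ j ≠ 0 := by
  intro h
  have := (Fintype.linearIndependent_iff.mp hφ) c h
  exact hc (funext this)

/-- the avoidance polynomial -/
theorem exists_avoid_poly {φ : ι → MvPolynomial σ K} (hφ : LinearIndependent K φ)
    {M : ℕ} (v : Fin M → (ι → K)) :
    ∃ Q : MvPolynomial σ K, Q ≠ 0 ∧ ∀ p : σ → K, eval p Q ≠ 0 →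
      ∀ T : Finset (Fin M), T.card < Fintype.card ι →
        evalVec φ p ∉ Submodule.span K (v '' (T : Set (Fin M))) := by
  classical
  -- for each small T a nonzero functional vanishing on the span
  have hfun : ∀ T : Finset (Fin M), T.card < Fintype.card ι →
      ∃ c : ι → K, c ≠ 0 ∧
        ∀ x ∈ Submodule.span K (v '' (T : Set (Fin M))), ∑ j, c j * x j = 0 := by
    intro T hT
    have hlt : Submodule.span K (v '' (T : Set (Fin M))) < ⊤ := by
      rw [lt_top_iff_ne_top]
      intro htop
      have h1 : Module.finrank K (Submodule.span K (v '' (T : Set (Fin M)))) ≤ T.card := by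
        have : v '' (T : Set (Fin M)) = ((T.image v : Finset (ι → K)) : Set (ι → K)) := by
          simp
        rw [this]
        exact (finrank_span_finset_le_card (R := K) (T.image v)).trans Finset.card_image_le
      rw [htop, finrank_top, Module.finrank_fintype_fun_eq_card] at h1
      omega
    obtain ⟨f, hf0, hfk⟩ := Submodule.exists_le_ker_of_lt_top _ hlt
    refine ⟨fun j => f (Pi.single j 1), ?_, fun x hx => ?_⟩
    · intro h
      apply hf0
      apply LinearMap.pi_ext'
      intro j
      ext
      simpa using congrFun h j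
    · have hx0 : f x = 0 := hfk hx
      have hx1 : x = ∑ j, x j • (Pi.single j 1 : ι → K) := by
        ext i
        simp [Finset.sum_apply, Pi.single_apply]
      rw [hx1, map_sum] at hx0
      simp only [map_smul, smul_eq_mul] at hx0
      rw [← hx0]
      exact Finset.sum_congr rfl fun j _ => mul_comm _ _
  choose! c hc0 hc using hfun
  refine ⟨∏ T ∈ (Finset.univ : Finset (Finset (Fin M))).filter (fun T => T.card < Fintype.card ι),
      ∑ j, c T j • φ j, ?_, ?_⟩
  · rw [Finset.prod_ne_zero_iff]
    intro T hT
    rw [Finset.mem_filter] at hT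
    exact sum_smul_ne_zero hφ (hc0 T hT.2)
  · intro p hp T hT hmem
    apply hp
    rw [map_prod]
    apply Finset.prod_eq_zero (i := T) (by simp [hT])
    have := hc T hT _ hmem
    rw [map_sum]
    simpa [evalVec, smul_eval] using this

/-- **Points in general position on a polynomial image.** -/
theorem exists_general_position [DecidableEq ι] (φ : ι → MvPolynomial σ K)
    (hφ : LinearIndependent K φ) (Good : (σ → K) → Prop)
    (hGood : ∀ P : MvPolynomial σ K, P ≠ 0 → ∃ p, eval p P ≠ 0 ∧ Good p) (M : ℕ) :
    ∃ p : Fin M → (σ → K), (∀ m, Good (p m)) ∧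
      ∀ s : ι → Fin M, Function.Injective s →
        (Matrix.of fun i j => eval (p (s i)) (φ j)).det ≠ 0 := by
  suffices h : ∃ p : Fin M → (σ → K), (∀ m, Good (p m)) ∧ GenPos (evalVec φ ∘ p) by
    obtain ⟨p, hp, hgp⟩ := h
    exact ⟨p, hp, fun s hs => det_ne_zero_of_genPos hgp s hs⟩
  induction M with
  | zero => exact ⟨fun i => i.elim0, fun i => i.elim0, genPos_zero _⟩
  | succ M ih =>
    obtain ⟨p, hp, hgp⟩ := ih
    obtain ⟨Q, hQ0, hQ⟩ := exists_avoid_poly hφ (evalVec φ ∘ p)
    obtain ⟨q, hq, hgood⟩ := hGood Q hQ0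
    refine ⟨snocVec p q, fun m => ?_, ?_⟩
    · refine Fin.lastCases ?_ (fun j => ?_) m
      · simpa using hgood
      · simpa using hp j
    · rw [comp_snocVec]
      exact genPos_snoc hgp (hQ q hq)

/-- the case of an infinite field, no side condition -/
theorem exists_general_position_of_infinite [DecidableEq ι] [Infinite K]
    (φ : ι → MvPolynomial σ K) (hφ : LinearIndependent K φ) (M : ℕ) :
    ∃ p : Fin M → (σ → K),
      ∀ s : ι → Fin M, Function.Injective s →
        (Matrix.of fun i j => eval (p (s i)) (φ j)).det ≠ 0 := by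
  obtain ⟨p, -, h⟩ := exists_general_position φ hφ (fun _ => True) (fun P hP => by
    by_contra hcon
    push Not at hcon
    apply hP
    apply MvPolynomial.funext
    intro x
    by_contra hx
    rw [map_zero] at hx
    exact hcon x hx) M
  exact ⟨p, h⟩

end Main

section Pluecker

variable (K) (n : ℕ)

/-- index set of the Plücker coordinates of a pencil in `K^(n+1)`: pairs `i < j` -/
abbrev PlIdx (n : ℕ) : Type := {ij : Fin (n + 1) × Fin (n + 1) // ij.1 < ij.2}

/-- the Plücker polynomial `X (0,i) * X (1,j) - X (0,j) * X (1,i)` -/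
noncomputable def plPoly (ij : PlIdx n) : MvPolynomial (Fin 2 × Fin (n + 1)) K :=
  X (0, ij.1.1) * X (1, ij.1.2) - X (0, ij.1.2) * X (1, ij.1.1)

theorem eval_plPoly (y : Fin 2 × Fin (n + 1) → K) (ij : PlIdx n) :
    eval y (plPoly K n ij)
      = y (0, ij.1.1) * y (1, ij.1.2) - y (0, ij.1.2) * y (1, ij.1.1) := by
  simp [plPoly]

/-- the exponent of the monomial `X (0,i) * X (1,j)` -/
noncomputable def plMon (i j : Fin (n + 1)) : (Fin 2 × Fin (n + 1)) →₀ ℕ :=
  Finsupp.single (0, i) 1 + Finsupp.single (1, j) 1

theorem plMon_eq_iff (i j k l : Fin (n + 1)) : plMon n k l = plMon n i j ↔ k = i ∧ l = j := by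
  constructor
  · intro h
    have h1 := DFunLike.congr_fun h (0, k)
    have h2 := DFunLike.congr_fun h (1, l)
    simp only [plMon, Finsupp.add_apply, Finsupp.single_apply, Prod.mk.injEq] at h1 h2
    constructor
    · by_contra hne
      have : ¬ i = k := fun e => hne e.symm
      simp [this] at h1
    · by_contra hne
      have : ¬ j = l := fun e => hne e.symm
      simp [this] at h2
  · rintro ⟨rfl, rfl⟩
    rfl

theorem X_mul_X_eq_monomial (i j : Fin (n + 1)) :
    (X (0, i) * X (1, j) : MvPolynomial (Fin 2 × Fin (n + 1)) K) = monomial (plMon n i j) 1 := by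
  rw [X, X, monomial_mul, one_mul]
  rfl

theorem coeff_plPoly (i j : Fin (n + 1)) (kl : PlIdx n) (hij : i < j) :
    coeff (plMon n i j) (plPoly K n kl) = if kl.1 = (i, j) then 1 else 0 := by
  classical
  obtain ⟨⟨k, l⟩, hkl⟩ := kl
  simp only [plPoly, coeff_sub, X_mul_X_eq_monomial, coeff_monomial, plMon_eq_iff]
  have h2 : ¬ (l = i ∧ k = j) := by
    rintro ⟨rfl, rfl⟩
    exact absurd hij (not_lt.mpr (le_of_lt hkl))
  rw [if_neg h2, sub_zero]
  simp only [Prod.mk.injEq]

/-- **The Plücker polynomials are linearly independent.** -/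
theorem pluecker_linearIndependent : LinearIndependent K (plPoly K n) := by
  classical
  rw [Fintype.linearIndependent_iff]
  intro c hc ij
  obtain ⟨⟨i, j⟩, hij⟩ := ij
  have h := congrArg (coeff (plMon n i j)) hc
  rw [coeff_sum, coeff_zero] at h
  simp only [coeff_smul, smul_eq_mul] at h
  rw [Finset.sum_eq_single (⟨(i, j), hij⟩ : PlIdx n)] at h
  · rw [coeff_plPoly K n i j _ hij] at h
    simpa using h
  · intro kl _ hne
    rw [coeff_plPoly K n i j _ hij, if_neg, mul_zero]
    intro e
    exact hne (Subtype.ext e)
  · intro h'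
    exact absurd (Finset.mem_univ _) h'

/-- **Pencils in general linear position**: for every `M` there are `M` pairs `(y₀, y₁)` of vectors
of `K^(n+1)`, each satisfying `Good`, such that any `#PlIdx n = (n+1 choose 2)` of the bivectors
`y₀ ∧ y₁` are linearly independent (determinant of Plücker coordinates nonzero). -/
theorem exists_pencils (Good : (Fin 2 × Fin (n + 1) → K) → Prop)
    (hGood : ∀ P : MvPolynomial (Fin 2 × Fin (n + 1)) K, P ≠ 0 → ∃ y, eval y P ≠ 0 ∧ Good y)
    (M : ℕ) :
    ∃ y : Fin M → (Fin 2 × Fin (n + 1) → K), (∀ m, Good (y m)) ∧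
      ∀ s : PlIdx n → Fin M, Function.Injective s →
        (Matrix.of fun (a b : PlIdx n) =>
          y (s a) (0, b.1.1) * y (s a) (1, b.1.2) - y (s a) (0, b.1.2) * y (s a) (1, b.1.1)).det
          ≠ 0 := by
  classical
  obtain ⟨y, hy, hdet⟩ :=
    exists_general_position (plPoly K n) (pluecker_linearIndependent K n) Good hGood M
  refine ⟨y, hy, fun s hs => ?_⟩
  have := hdet s hs
  convert this using 3
  ext a b
  simp [eval_plPoly]

/-- Evaluating after substituting constants for the `0`-block of variables. -/
theorem eval_aeval_subst (y0 y1 : Fin (n + 1) → K) (R : MvPolynomial (Fin 2 × Fin (n + 1)) K) :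
    eval y1 (aeval (fun ki : Fin 2 × Fin (n + 1) =>
        if ki.1 = 0 then (C (y0 ki.2) : MvPolynomial (Fin (n + 1)) K) else X ki.2) R) =
      eval (fun ki : Fin 2 × Fin (n + 1) => if ki.1 = 0 then y0 ki.2 else y1 ki.2) R := by
  induction R using MvPolynomial.induction_on with
  | C c => simp
  | add p q hp hq => rw [map_add, map_add, map_add, hp, hq]
  | mul_X p ki hp =>
    rw [map_mul, map_mul, map_mul, hp, aeval_X, eval_X]
    congr 1
    split_ifs with h
    · simp
    · simp

/-- **Two-step density.**  Over an infinite field, if for every nonzero `y₀` the bad `y₁` are those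
lying on finitely many hyperplanes `∑ y₁ i * b i = 0` (`b ∈ B y₀`, `b ≠ 0`), then the good pairs
`(y₀, y₁)` (`y₀ ≠ 0`, `y₁` off these hyperplanes) meet the non-vanishing locus of every nonzero
polynomial: this is the hypothesis `hGood` of `exists_pencils` (on the curve: `B y₀` = coordinate
vectors of the zeros of the section `y₀`). -/
theorem hGood_twoStep [Infinite K] (B : (Fin (n + 1) → K) → Finset (Fin (n + 1) → K))
    (hB : ∀ y0 : Fin (n + 1) → K, y0 ≠ 0 → ∀ b ∈ B y0, b ≠ 0)
    (P : MvPolynomial (Fin 2 × Fin (n + 1)) K) (hP : P ≠ 0) :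
    ∃ y : Fin 2 × Fin (n + 1) → K, eval y P ≠ 0 ∧
      ((fun i => y (0, i)) ≠ 0 ∧ ∀ b ∈ B (fun i => y (0, i)), ∑ i, y (1, i) * b i ≠ 0) := by
  classical
  -- step 1: a point where `P * X (0,0)` does not vanish
  have hP' : P * X (0, 0) ≠ 0 := mul_ne_zero hP (X_ne_zero _)
  obtain ⟨ys, hys⟩ : ∃ ys : Fin 2 × Fin (n + 1) → K, eval ys (P * X (0, 0)) ≠ 0 := by
    by_contra hcon
    push Not at hcon
    exact hP' (MvPolynomial.funext fun x => by rw [hcon x, map_zero])
  rw [map_mul, eval_X] at hys
  have hys1 : eval ys P ≠ 0 := left_ne_zero_of_mul hys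
  have hys2 : ys (0, 0) ≠ 0 := right_ne_zero_of_mul hys
  set y0 : Fin (n + 1) → K := fun i => ys (0, i) with hy0
  have hy0ne : y0 ≠ 0 := fun h => hys2 (by simpa [hy0] using congrFun h 0)
  -- step 2: substitute `y0`, keep `y1` as variables
  let sub : Fin 2 × Fin (n + 1) → MvPolynomial (Fin (n + 1)) K :=
    fun ki => if ki.1 = 0 then C (y0 ki.2) else X ki.2
  let P1 : MvPolynomial (Fin (n + 1)) K := aeval sub P
  have hevalP1 : ∀ y1 : Fin (n + 1) → K,
      eval y1 P1 = eval (fun ki : Fin 2 × Fin (n + 1) => if ki.1 = 0 then y0 ki.2 else y1 ki.2) P :=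
    fun y1 => eval_aeval_subst K n y0 y1 P
  have hP1 : P1 ≠ 0 := by
    intro h0
    apply hys1
    have := hevalP1 (fun i => ys (1, i))
    rw [h0, map_zero] at this
    have e : (fun ki : Fin 2 × Fin (n + 1) => if ki.1 = 0 then y0 ki.2 else ys (1, ki.2)) = ys := by
      funext ki
      obtain ⟨k, i⟩ := ki
      fin_cases k
      · simp [hy0]
      · simp
    rw [e] at this
    exact this.symm
  -- the linear forms
  let lin : (Fin (n + 1) → K) → MvPolynomial (Fin (n + 1)) K := fun b => ∑ i, C (b i) * X i
  have hlin : ∀ b : Fin (n + 1) → K, b ≠ 0 → lin b ≠ 0 := by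
    intro b hb h0
    apply hb
    funext i
    have := congrArg (eval (Pi.single i 1 : Fin (n + 1) → K)) h0
    simp only [lin, map_sum, map_mul, eval_C, eval_X, map_zero, Pi.single_apply] at this
    simpa using this
  have hQ : P1 * ∏ b ∈ B y0, lin b ≠ 0 :=
    mul_ne_zero hP1 (Finset.prod_ne_zero_iff.mpr fun b hb => hlin b (hB y0 hy0ne b hb))
  obtain ⟨y1, hy1⟩ : ∃ y1 : Fin (n + 1) → K, eval y1 (P1 * ∏ b ∈ B y0, lin b) ≠ 0 := by
    by_contra hcon
    push Not at hcon
    exact hQ (MvPolynomial.funext fun x => by rw [hcon x, map_zero])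
  rw [map_mul, map_prod] at hy1
  have hy1a : eval y1 P1 ≠ 0 := left_ne_zero_of_mul hy1
  have hy1b : ∀ b ∈ B y0, eval y1 (lin b) ≠ 0 :=
    Finset.prod_ne_zero_iff.mp (right_ne_zero_of_mul hy1)
  refine ⟨fun ki => if ki.1 = 0 then y0 ki.2 else y1 ki.2, ?_, ?_, ?_⟩
  · rw [← hevalP1]; exact hy1a
  · simpa using hy0ne
  · intro b hb
    have e0 : (fun i => (fun ki : Fin 2 × Fin (n + 1) => if ki.1 = 0 then y0 ki.2 else y1 ki.2)
        (0, i)) = y0 := by
      funext i; simp
    rw [e0] at hb
    have := hy1b b hb
    simp only [lin, map_sum, map_mul, eval_C, eval_X] at this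
    intro h0
    apply this
    rw [← h0]
    refine Finset.sum_congr rfl fun i _ => ?_
    simp [mul_comm]

end Pluecker

end Fermat.Agent.S17.Local.GeneralPosition
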