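import Fermat.Agent.S17.Local.Pigeonhole

/-!
# S17 / Local layer: the abstract form of THEOREM A (two-sided local Gauss lemma), A.12

One field `Ω`, one absolute value `abv`.  `M` pencils with functionals `lam m` on `Λ² = Ω^r`,
`d` (= `δ`) zeros with multiplicity.  For ONE pair `(a, P)` the curve side supplies

* `W k ∈ Ω^r`, `k < d`: the vectors `z_R ∧ z_P` (`R ≠ P`, repeated `m_R` times) and `τ_P`
  (`μ` times);
* `nz k = ‖z_{R_k}‖ > 0` (for the `μ` diagonal indices `z_{R_k} = z_P`), `nzP = ‖z_P‖ > 0`,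
  `na = ‖a‖ > 0`, the number `amu = a_μ`;
* for each pencil `m`: `Phi m = Φ_m(a, z_P)`, `cm m = c'_m(a)`, `Nn m = ‖N_m(a;·)‖`,
  `ny m k = ‖y^{(m)}(z_{R_k})‖`,

with `(N')`, `(G)`, `(U)`, `(L1)`, `(L2)`, `(L3)`, `(PH)`.  With
`S := ∏ k, supN (W k) / nz k` (`= (∏_{R ≠ P} d_v(P,R)^{m_R}) ‖τ_P‖^μ ‖z_P‖^{d - 2μ}`) the
conclusion is

`c * na * S / nzP^(d-1) ≤ |a_μ| ≤ C * na * S / nzP^(d-1)`,
`c = l c0^d / (g U^(d+1))`, `C = g U^(d+1) L^d / l`.
-/

namespace Fermat.Agent.S17.Local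

open Finset

variable {Ω : Type*} [Field Ω] (abv : AbsoluteValue Ω ℝ)

/-- the quantity `S = ∏ k, ‖W k‖ / nz k` -/
noncomputable def starS {r d : ℕ} (W : Fin d → Fin r → Ω) (nz : Fin d → ℝ) : ℝ :=
  ∏ k, supN abv (W k) / nz k

theorem starS_nonneg {r d : ℕ} (W : Fin d → Fin r → Ω) (nz : Fin d → ℝ)
    (hnz : ∀ k, 0 < nz k) : 0 ≤ starS abv W nz :=
  prod_nonneg fun k _ => div_nonneg (supN_nonneg abv (W k)) (hnz k).le

theorem starS_eq {r d : ℕ} (W : Fin d → Fin r → Ω) (nz : Fin d → ℝ) :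
    starS abv W nz = (∏ k, supN abv (W k)) / ∏ k, nz k := by
  simp [starS, prod_div_distrib]

/-- **Lower half of THEOREM A (abstract).**  Uses `(N')` for the ONE pencil `m` supplied by
`(PH)`, the trivial direction of `(G)`, `(L2)`, and `(U)` for `Φ_m` and `y^{(m)}`. -/
theorem star_lower {M r d : ℕ} (lam : Fin M → Fin r → Ω)
    {U l g c0 : ℝ} (hU : 0 < U) (hl : 0 < l) (hg : 0 < g) (hc0 : 0 < c0)
    (W : Fin d → Fin r → Ω) (nz : Fin d → ℝ) (hnz : ∀ k, 0 < nz k)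
    {nzP na : ℝ} (hnzP : 0 < nzP) (hna : 0 < na) (amu : Ω)
    (m : Fin M) (hPH : ∀ k, c0 * supN abv (W k) ≤ abv (pair (lam m) (W k)))
    (Phi cm : Ω) (Nn : ℝ) (ny : Fin d → ℝ) (hny : ∀ k, 0 < ny k)
    (hN : amu * Phi = cm * ∏ k, pair (lam m) (W k))
    (hG_le : Nn ≤ g * (abv cm * ∏ k, ny k))
    (hU_Phi : abv Phi ≤ U * na ^ (d - 1) * nzP ^ (d - 1))
    (hU_y : ∀ k, ny k ≤ U * nz k)
    (hL2 : l * na ^ d ≤ Nn) (hd : 0 < d) :
    l * c0 ^ d / (g * U ^ (d + 1)) * (na * starS abv W nz / nzP ^ (d - 1)) ≤ abv amu := by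
  have hprodny : 0 < ∏ k, ny k := prod_pos fun k _ => hny k
  have hprodnz : 0 < ∏ k, nz k := prod_pos fun k _ => hnz k
  -- `|c'| ≥ l na^d / (g U^d ∏ nz)`
  have h1 : ∏ k, ny k ≤ U ^ d * ∏ k, nz k := by
    calc ∏ k, ny k ≤ ∏ k, U * nz k := prod_le_prod (fun k _ => (hny k).le) fun k _ => hU_y k
      _ = U ^ d * ∏ k, nz k := by simp [prod_mul_distrib]
  have h2 : l * na ^ d ≤ g * (abv cm * (U ^ d * ∏ k, nz k)) := by
    refine hL2.trans (hG_le.trans ?_)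
    gcongr
  -- `|a_μ| |Φ| = |c'| ∏ |⟨lam, W k⟩| ≥ |c'| c0^d ∏ ‖W k‖`
  have h3 : abv amu * abv Phi = abv cm * ∏ k, abv (pair (lam m) (W k)) := by
    rw [← abv.map_mul, hN, abv.map_mul, map_prod]
  have h4 : c0 ^ d * ∏ k, supN abv (W k) ≤ ∏ k, abv (pair (lam m) (W k)) := by
    calc c0 ^ d * ∏ k, supN abv (W k) = ∏ k, c0 * supN abv (W k) := by simp [prod_mul_distrib]
      _ ≤ ∏ k, abv (pair (lam m) (W k)) :=
        prod_le_prod (fun k _ => mul_nonneg hc0.le (supN_nonneg abv _)) fun k _ => hPH k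
  set PW := ∏ k, supN abv (W k) with hPW
  have hPW0 : 0 ≤ PW := prod_nonneg fun k _ => supN_nonneg abv _
  set PZ := ∏ k, nz k with hPZ
  -- combine
  have h5 : l * na ^ d * (c0 ^ d * PW) ≤ g * U ^ d * PZ * (abv amu * abv Phi) := by
    rw [h3]
    calc l * na ^ d * (c0 ^ d * PW)
        ≤ g * (abv cm * (U ^ d * PZ)) * (c0 ^ d * PW) := by
          gcongr
      _ = g * U ^ d * PZ * (abv cm * (c0 ^ d * PW)) := by ring
      _ ≤ g * U ^ d * PZ * (abv cm * ∏ k, abv (pair (lam m) (W k))) := by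
          gcongr
  have h6 : g * U ^ d * PZ * (abv amu * abv Phi) ≤
      g * U ^ d * PZ * (abv amu * (U * na ^ (d - 1) * nzP ^ (d - 1))) := by
    gcongr
  have h7 := h5.trans h6
  -- rearrange
  rw [starS_eq, ← hPW, ← hPZ]
  have hden : 0 < g * U ^ (d + 1) := by positivity
  have hnzPd : 0 < nzP ^ (d - 1) := by positivity
  have hnad : na ^ d = na * na ^ (d - 1) := by
    rw [← pow_succ']
    congr 1
    omega
  rw [hnad] at h7
  have hna1 : 0 < na ^ (d - 1) := by positivity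
  -- cancel `na^(d-1)`
  have h8 : (l * c0 ^ d * (na * PW)) * na ^ (d - 1) ≤
      (abv amu * ((g * U ^ (d + 1)) * (PZ * nzP ^ (d - 1)))) * na ^ (d - 1) := by
    calc (l * c0 ^ d * (na * PW)) * na ^ (d - 1) = l * (na * na ^ (d - 1)) * (c0 ^ d * PW) := by
          ring
      _ ≤ g * U ^ d * PZ * (abv amu * (U * na ^ (d - 1) * nzP ^ (d - 1))) := h7
      _ = (abv amu * ((g * U ^ (d + 1)) * (PZ * nzP ^ (d - 1)))) * na ^ (d - 1) := by ring
  have h9 : l * c0 ^ d * (na * PW) ≤ abv amu * ((g * U ^ (d + 1)) * (PZ * nzP ^ (d - 1))) :=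
    le_of_mul_le_mul_right h8 hna1
  have hD : 0 < (g * U ^ (d + 1)) * (PZ * nzP ^ (d - 1)) := by positivity
  have hform : l * c0 ^ d / (g * U ^ (d + 1)) * (na * (PW / PZ) / nzP ^ (d - 1)) =
      (l * c0 ^ d * (na * PW)) / ((g * U ^ (d + 1)) * (PZ * nzP ^ (d - 1))) := by
    field_simp
  rw [hform, div_le_iff₀ hD]
  exact h9

/-- **Upper half of THEOREM A (abstract).**  Uses `(N')` for the pencil `m` supplied by `(L3)`,
Gauss proper, `(L1)`, `(U)` for the pairings and for `N_m`. -/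
theorem star_upper {M r d : ℕ} (lam : Fin M → Fin r → Ω)
    {U L l g : ℝ} (hU : 0 < U) (hL : 0 < L) (hl : 0 < l) (hg : 0 < g)
    (W : Fin d → Fin r → Ω) (nz : Fin d → ℝ) (hnz : ∀ k, 0 < nz k)
    {nzP na : ℝ} (hnzP : 0 < nzP) (hna : 0 < na) (amu : Ω)
    (m : Fin M) (Phi cm : Ω) (Nn : ℝ) (ny : Fin d → ℝ) (hny : ∀ k, 0 < ny k)
    (hL3 : l * na ^ (d - 1) * nzP ^ (d - 1) ≤ abv Phi)
    (hN : amu * Phi = cm * ∏ k, pair (lam m) (W k))
    (hG_ge : abv cm * ∏ k, ny k ≤ g * Nn)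
    (hU_N : Nn ≤ U * na ^ d)
    (hU_pair : ∀ k, abv (pair (lam m) (W k)) ≤ U * supN abv (W k))
    (hL1 : ∀ k, nz k ≤ L * ny k) (hd : 0 < d) :
    abv amu ≤ g * U ^ (d + 1) * L ^ d / l * (na * starS abv W nz / nzP ^ (d - 1)) := by
  have hprodny : 0 < ∏ k, ny k := prod_pos fun k _ => hny k
  have hprodnz : 0 < ∏ k, nz k := prod_pos fun k _ => hnz k
  have h1 : ∏ k, nz k ≤ L ^ d * ∏ k, ny k := by
    calc ∏ k, nz k ≤ ∏ k, L * ny k := prod_le_prod (fun k _ => (hnz k).le) fun k _ => hL1 k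
      _ = L ^ d * ∏ k, ny k := by simp [prod_mul_distrib]
  have h3 : abv amu * abv Phi = abv cm * ∏ k, abv (pair (lam m) (W k)) := by
    rw [← abv.map_mul, hN, abv.map_mul, map_prod]
  have h4 : ∏ k, abv (pair (lam m) (W k)) ≤ U ^ d * ∏ k, supN abv (W k) := by
    calc ∏ k, abv (pair (lam m) (W k)) ≤ ∏ k, U * supN abv (W k) :=
        prod_le_prod (fun k _ => abv.nonneg _) fun k _ => hU_pair k
      _ = U ^ d * ∏ k, supN abv (W k) := by simp [prod_mul_distrib]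
  set PW := ∏ k, supN abv (W k) with hPW
  have hPW0 : 0 ≤ PW := prod_nonneg fun k _ => supN_nonneg abv _
  set PZ := ∏ k, nz k with hPZ
  set PY := ∏ k, ny k with hPY
  -- `|a_μ| |Φ| PZ ≤ g U^(d+1) L^d na^d PW`
  have h5 : abv amu * abv Phi * PZ ≤ g * U ^ (d + 1) * L ^ d * na ^ d * PW := by
    rw [h3]
    calc (abv cm * ∏ k, abv (pair (lam m) (W k))) * PZ
        ≤ abv cm * (U ^ d * PW) * (L ^ d * PY) := by
          gcongr
      _ = (abv cm * PY) * (U ^ d * L ^ d * PW) := by ring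
      _ ≤ (g * Nn) * (U ^ d * L ^ d * PW) := by
          gcongr
      _ ≤ (g * (U * na ^ d)) * (U ^ d * L ^ d * PW) := by
          gcongr
      _ = g * U ^ (d + 1) * L ^ d * na ^ d * PW := by ring
  have h6 : abv amu * (l * na ^ (d - 1) * nzP ^ (d - 1)) * PZ ≤ abv amu * abv Phi * PZ := by
    gcongr
  have h7 := h6.trans h5
  rw [starS_eq, ← hPW, ← hPZ]
  have hnzPd : 0 < nzP ^ (d - 1) := by positivity
  have hnad : na ^ d = na * na ^ (d - 1) := by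
    rw [← pow_succ']
    congr 1
    omega
  rw [hnad] at h7
  have hna1 : 0 < na ^ (d - 1) := by positivity
  have h8 : (abv amu * (l * (PZ * nzP ^ (d - 1)))) * na ^ (d - 1) ≤
      (g * U ^ (d + 1) * L ^ d * (na * PW)) * na ^ (d - 1) := by
    calc (abv amu * (l * (PZ * nzP ^ (d - 1)))) * na ^ (d - 1)
        = abv amu * (l * na ^ (d - 1) * nzP ^ (d - 1)) * PZ := by ring
      _ ≤ g * U ^ (d + 1) * L ^ d * (na * na ^ (d - 1)) * PW := h7
      _ = (g * U ^ (d + 1) * L ^ d * (na * PW)) * na ^ (d - 1) := by ring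
  have h9 : abv amu * (l * (PZ * nzP ^ (d - 1))) ≤ g * U ^ (d + 1) * L ^ d * (na * PW) :=
    le_of_mul_le_mul_right h8 hna1
  have hD : 0 < l * (PZ * nzP ^ (d - 1)) := by positivity
  have hform : g * U ^ (d + 1) * L ^ d / l * (na * (PW / PZ) / nzP ^ (d - 1)) =
      (g * U ^ (d + 1) * L ^ d * (na * PW)) / (l * (PZ * nzP ^ (d - 1))) := by
    field_simp
  rw [hform, le_div_iff₀ hD]
  exact h9

/-- the trivial upper bound for a pairing: `|⟨l, w⟩| ≤ (Σ_i |l_i|) ‖w‖` -/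
theorem abv_pair_le {r : ℕ} (l w : Fin r → Ω) :
    abv (pair l w) ≤ (∑ i, abv (l i)) * supN abv w := by
  unfold pair
  calc abv (∑ i, l i * w i) ≤ ∑ i, abv (l i * w i) := abv.sum_le _ _
    _ = ∑ i, abv (l i) * abv (w i) := by simp [abv.map_mul]
    _ ≤ ∑ i, abv (l i) * supN abv w := by
        gcongr with i _
        exact le_supN abv w i
    _ = (∑ i, abv (l i)) * supN abv w := by rw [sum_mul]

/-- nonarchimedean upper bound for a pairing: `|⟨l, w⟩| ≤ ‖l‖ ‖w‖` -/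
theorem abv_pair_le_of_nonarch (hna : IsNonarchimedean abv) {r : ℕ} (l w : Fin r → Ω) :
    abv (pair l w) ≤ supN abv l * supN abv w := by
  unfold pair
  refine abv_sum_le_of_forall_le abv hna _ _
    (mul_nonneg (supN_nonneg abv l) (supN_nonneg abv w)) fun i _ => ?_
  rw [abv.map_mul]
  exact mul_le_mul (le_supN abv l i) (le_supN abv w i) (abv.nonneg _) (supN_nonneg abv l)

/-- **THEOREM A (abstract), two-sided, with the pencils chosen by `(PH)` and `(L3)`.** -/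
theorem star_two_sided {M r d : ℕ} (lam : Fin M → Fin r → Ω)
    {U L l g c0 : ℝ} (hU : 0 < U) (hL : 0 < L) (hl : 0 < l) (hg : 0 < g) (hc0 : 0 < c0)
    (hcard : ∀ w : Fin r → Ω, (smallSet abv lam c0 w).card ≤ r - 1) (hM : (r - 1) * d < M)
    (W : Fin d → Fin r → Ω) (nz : Fin d → ℝ) (hnz : ∀ k, 0 < nz k)
    {nzP na : ℝ} (hnzP : 0 < nzP) (hna : 0 < na) (amu : Ω)
    (Phi cm : Fin M → Ω) (Nn : Fin M → ℝ) (ny : Fin M → Fin d → ℝ) (hny : ∀ m k, 0 < ny m k)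
    (hN : ∀ m, amu * Phi m = cm m * ∏ k, pair (lam m) (W k))
    (hG_le : ∀ m, Nn m ≤ g * (abv (cm m) * ∏ k, ny m k))
    (hG_ge : ∀ m, abv (cm m) * ∏ k, ny m k ≤ g * Nn m)
    (hU_Phi : ∀ m, abv (Phi m) ≤ U * na ^ (d - 1) * nzP ^ (d - 1))
    (hU_y : ∀ m k, ny m k ≤ U * nz k)
    (hU_N : ∀ m, Nn m ≤ U * na ^ d)
    (hU_pair : ∀ m k, abv (pair (lam m) (W k)) ≤ U * supN abv (W k))
    (hL1 : ∀ m k, nz k ≤ L * ny m k)
    (hL2 : ∀ m, l * na ^ d ≤ Nn m)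
    (hL3 : ∃ m, l * na ^ (d - 1) * nzP ^ (d - 1) ≤ abv (Phi m)) (hd : 0 < d) :
    l * c0 ^ d / (g * U ^ (d + 1)) * (na * starS abv W nz / nzP ^ (d - 1)) ≤ abv amu ∧
      abv amu ≤ g * U ^ (d + 1) * L ^ d / l * (na * starS abv W nz / nzP ^ (d - 1)) := by
  obtain ⟨m1, hm1⟩ := exists_index_large abv lam c0 hcard hM W
  obtain ⟨m2, hm2⟩ := hL3
  exact ⟨star_lower abv lam hU hl hg hc0 W nz hnz hnzP hna amu m1 hm1 (Phi m1) (cm m1) (Nn m1)
      (ny m1) (hny m1) (hN m1) (hG_le m1) (hU_Phi m1) (hU_y m1) (hL2 m1) hd,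
    star_upper abv lam hU hL hl hg W nz hnz hnzP hna amu m2 (Phi m2) (cm m2) (Nn m2)
      (ny m2) (hny m2) hm2 (hN m2) (hG_ge m2) (hU_N m2) (hU_pair m2) (hL1 m2) hd⟩

/-- **THEOREM A at an unexceptional place**: all constants `1` gives an EQUALITY. -/
theorem star_eq_of_consts_one {M r d : ℕ} (lam : Fin M → Fin r → Ω)
    (hcard : ∀ w : Fin r → Ω, (smallSet abv lam 1 w).card ≤ r - 1) (hM : (r - 1) * d < M)
    (W : Fin d → Fin r → Ω) (nz : Fin d → ℝ) (hnz : ∀ k, 0 < nz k)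
    {nzP na : ℝ} (hnzP : 0 < nzP) (hna : 0 < na) (amu : Ω)
    (Phi cm : Fin M → Ω) (Nn : Fin M → ℝ) (ny : Fin M → Fin d → ℝ) (hny : ∀ m k, 0 < ny m k)
    (hN : ∀ m, amu * Phi m = cm m * ∏ k, pair (lam m) (W k))
    (hG : ∀ m, Nn m = abv (cm m) * ∏ k, ny m k)
    (hU_Phi : ∀ m, abv (Phi m) ≤ na ^ (d - 1) * nzP ^ (d - 1))
    (hU_N : ∀ m, Nn m ≤ na ^ d)
    (hU_pair : ∀ m k, abv (pair (lam m) (W k)) ≤ supN abv (W k))
    (hL1 : ∀ m k, nz k = ny m k)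
    (hL2 : ∀ m, na ^ d ≤ Nn m)
    (hL3 : ∃ m, na ^ (d - 1) * nzP ^ (d - 1) ≤ abv (Phi m)) (hd : 0 < d) :
    abv amu = na * starS abv W nz / nzP ^ (d - 1) := by
  obtain ⟨h1, h2⟩ := star_two_sided abv lam (U := 1) (L := 1) (l := 1) (g := 1) (c0 := 1)
    one_pos one_pos one_pos one_pos one_pos hcard hM W nz hnz hnzP hna amu Phi cm Nn ny hny hN
    (fun m => by rw [one_mul, hG m]) (fun m => by rw [one_mul, hG m])
    (fun m => by simpa using hU_Phi m) (fun m k => by rw [one_mul, hL1 m k])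
    (fun m => by simpa using hU_N m) (fun m k => by simpa using hU_pair m k)
    (fun m k => by rw [one_mul, hL1 m k]) (fun m => by simpa using hL2 m)
    (by simpa using hL3) hd
  simp only [one_pow, mul_one, div_one, one_mul] at h1 h2
  exact le_antisymm h2 h1

/-- generic passage to logarithms: `c T ≤ x ≤ C T` gives `|log x - log T| ≤ max (-log c) (log C)` -/
theorem abs_log_sub_log_le {c C T x : ℝ} (hc : 0 < c) (hT : 0 < T) (h1 : c * T ≤ x)
    (h2 : x ≤ C * T) : |Real.log x - Real.log T| ≤ max (-Real.log c) (Real.log C) := by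
  have hx : 0 < x := lt_of_lt_of_le (mul_pos hc hT) h1
  have hC : 0 < C := by
    by_contra hC
    have : C * T ≤ 0 := mul_nonpos_of_nonpos_of_nonneg (not_lt.mp hC) hT.le
    linarith
  have hlo : Real.log c + Real.log T ≤ Real.log x := by
    rw [← Real.log_mul hc.ne' hT.ne']
    exact Real.log_le_log (mul_pos hc hT) h1
  have hhi : Real.log x ≤ Real.log C + Real.log T := by
    rw [← Real.log_mul hC.ne' hT.ne']
    exact Real.log_le_log hx h2
  rw [abs_le]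
  constructor
  · have := le_max_left (-Real.log c) (Real.log C)
    linarith
  · have := le_max_right (-Real.log c) (Real.log C)
    linarith

/-- the logarithm of the main term of THEOREM A, as a sum of local terms -/
theorem log_star_main {r d : ℕ} (W : Fin d → Fin r → Ω) (nz : Fin d → ℝ) (hnz : ∀ k, 0 < nz k)
    (hW : ∀ k, 0 < supN abv (W k)) {nzP na : ℝ} (hnzP : 0 < nzP) (hna : 0 < na) :
    Real.log (na * starS abv W nz / nzP ^ (d - 1)) =
      Real.log na + ∑ k, (Real.log (supN abv (W k)) - Real.log (nz k)) -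
        ((d - 1 : ℕ) : ℝ) * Real.log nzP := by
  have hS : 0 < starS abv W nz := prod_pos fun k _ => div_pos (hW k) (hnz k)
  rw [Real.log_div (mul_pos hna hS).ne' (pow_pos hnzP _).ne', Real.log_mul hna.ne' hS.ne',
    Real.log_pow, starS, Real.log_prod fun k _ => (div_pos (hW k) (hnz k)).ne']
  congr 2
  exact sum_congr rfl fun k _ => Real.log_div (hW k).ne' (hnz k).ne'

/-- positivity of the main term -/
theorem star_main_pos {r d : ℕ} (W : Fin d → Fin r → Ω) (nz : Fin d → ℝ) (hnz : ∀ k, 0 < nz k)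
    (hW : ∀ k, 0 < supN abv (W k)) {nzP na : ℝ} (hnzP : 0 < nzP) (hna : 0 < na) :
    0 < na * starS abv W nz / nzP ^ (d - 1) :=
  div_pos (mul_pos hna (prod_pos fun k _ => div_pos (hW k) (hnz k))) (pow_pos hnzP _)

/-- **THEOREM A (abstract), logarithmic form (A.14).** -/
theorem star_log {M r d : ℕ} (lam : Fin M → Fin r → Ω)
    {U L l g c0 : ℝ} (hU : 0 < U) (hL : 0 < L) (hl : 0 < l) (hg : 0 < g) (hc0 : 0 < c0)
    (hcard : ∀ w : Fin r → Ω, (smallSet abv lam c0 w).card ≤ r - 1) (hM : (r - 1) * d < M)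
    (W : Fin d → Fin r → Ω) (hW : ∀ k, 0 < supN abv (W k))
    (nz : Fin d → ℝ) (hnz : ∀ k, 0 < nz k)
    {nzP na : ℝ} (hnzP : 0 < nzP) (hna : 0 < na) (amu : Ω)
    (Phi cm : Fin M → Ω) (Nn : Fin M → ℝ) (ny : Fin M → Fin d → ℝ) (hny : ∀ m k, 0 < ny m k)
    (hN : ∀ m, amu * Phi m = cm m * ∏ k, pair (lam m) (W k))
    (hG_le : ∀ m, Nn m ≤ g * (abv (cm m) * ∏ k, ny m k))
    (hG_ge : ∀ m, abv (cm m) * ∏ k, ny m k ≤ g * Nn m)
    (hU_Phi : ∀ m, abv (Phi m) ≤ U * na ^ (d - 1) * nzP ^ (d - 1))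
    (hU_y : ∀ m k, ny m k ≤ U * nz k)
    (hU_N : ∀ m, Nn m ≤ U * na ^ d)
    (hU_pair : ∀ m k, abv (pair (lam m) (W k)) ≤ U * supN abv (W k))
    (hL1 : ∀ m k, nz k ≤ L * ny m k)
    (hL2 : ∀ m, l * na ^ d ≤ Nn m)
    (hL3 : ∃ m, l * na ^ (d - 1) * nzP ^ (d - 1) ≤ abv (Phi m)) (hd : 0 < d) :
    |Real.log (abv amu) - (Real.log na + ∑ k, (Real.log (supN abv (W k)) - Real.log (nz k)) -
        ((d - 1 : ℕ) : ℝ) * Real.log nzP)| ≤
      max (-Real.log (l * c0 ^ d / (g * U ^ (d + 1))))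
        (Real.log (g * U ^ (d + 1) * L ^ d / l)) := by
  obtain ⟨h1, h2⟩ := star_two_sided abv lam hU hL hl hg hc0 hcard hM W nz hnz hnzP hna amu Phi cm
    Nn ny hny hN hG_le hG_ge hU_Phi hU_y hU_N hU_pair hL1 hL2 hL3 hd
  rw [← log_star_main abv W nz hnz hW hnzP hna]
  exact abs_log_sub_log_le (by positivity) (star_main_pos abv W nz hnz hW hnzP hna) h1 h2

end Fermat.Agent.S17.Local
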